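import Fermat.Agent.CFT.GN.Interface

/-! # CFT / GN-DICT-AB : valuation subrings of `ℚ̄` <-> primes of `𝓞 k`.  helper83. -/

set_option autoImplicit false

noncomputable section

namespace Fermat.Agent.CFT.GN

open IsDedekindDomain NumberField

namespace DictAB

variable (k : IF)

/-- the inclusion `𝓞 k → ℚ̄`. -/
def iota : 𝓞 k →+* Qb := (algebraMap k Qb).comp (algebraMap (𝓞 k) k)

theorem iota_apply (x : 𝓞 k) : iota k x = (((x : k) : Qb)) := rfl

theorem iota_injective : Function.Injective (iota k) :=
  (algebraMap k Qb).injective.comp RingOfIntegers.coe_injective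

theorem iota_isIntegral (x : 𝓞 k) : IsIntegral ℤ (iota k x) :=
  map_isIntegral_int (algebraMap k Qb) (RingOfIntegers.isIntegral_coe x)

theorem mem_of_isIntegral (V : ValuationSubring Qb) {x : Qb} (hx : IsIntegral ℤ x) : x ∈ V := by
  have h : IsIntegral V x := hx.tower_top
  obtain ⟨y, rfl⟩ := IsIntegrallyClosed.isIntegral_iff.mp h
  exact y.2

theorem iota_mem (V : ValuationSubring Qb) (x : 𝓞 k) : iota k x ∈ V :=
  mem_of_isIntegral V (iota_isIntegral k x)

theorem val_iota_le (V : ValuationSubring Qb) (x : 𝓞 k) : V.valuation (iota k x) ≤ 1 :=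
  (V.valuation_le_one_iff _).2 (iota_mem k V x)

theorem exists_valuationSubring (P : Ideal (𝓞 k)) (hP : P ≠ ⊤) :
    ∃ V : ValuationSubring Qb, ∀ x ∈ P, iota k x ∈ V.nonunits := by
  let I : Ideal (iota k).range := P.map (iota k).rangeRestrict
  have hI : I ≠ ⊤ := by
    intro h
    have h1 : (1 : (iota k).range) ∈ I := by rw [h]; trivial
    obtain ⟨x, hx, hx1⟩ :=
      (Ideal.mem_map_iff_of_surjective _ (iota k).rangeRestrict_surjective).mp h1
    have hx2 : iota k x = iota k 1 := by
      rw [map_one]
      exact congrArg Subtype.val hx1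
    rw [iota_injective k hx2] at hx
    exact hP ((Ideal.eq_top_iff_one P).mpr hx)
  obtain ⟨V, -, hV⟩ := Ideal.image_subset_nonunits_valuationSubring I hI
  exact ⟨V, fun x hx => hV ⟨(iota k).rangeRestrict x, Ideal.mem_map_of_mem _ hx, rfl⟩⟩

/-- a prime ideal containing a nonzero natural number contains a prime number. -/
theorem exists_prime_mem {R : Type*} [CommRing R] (P : Ideal R) [hP : P.IsPrime] :
    ∀ n : ℕ, n ≠ 0 → (n : R) ∈ P → ∃ q : ℕ, q.Prime ∧ (q : R) ∈ P := by
  intro n
  induction n using Nat.recOnMul with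
  | zero => intro h; exact absurd rfl h
  | one =>
    intro _ h
    exact absurd ((Ideal.eq_top_iff_one P).mpr (by simpa using h)) hP.ne_top
  | prime p hp => intro _ h; exact ⟨p, hp, h⟩
  | mul a b iha ihb =>
    intro hab h
    rw [Nat.cast_mul] at h
    rcases hP.mem_or_mem h with h | h
    · exact iha (left_ne_zero_of_mul hab) h
    · exact ihb (right_ne_zero_of_mul hab) h

variable [NumberField k]

theorem over_of_subset (V : ValuationSubring Qb) (v : HeightOneSpectrum (𝓞 k))
    (h : ∀ x ∈ v.asIdeal, iota k x ∈ V.nonunits) : Over V v := by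
  intro x
  refine ⟨h x, fun hx => ?_⟩
  by_contra hxv
  obtain ⟨y, z, hz, hyz⟩ := v.isMaximal.exists_inv hxv
  have h1 : iota k y * iota k x + iota k z = 1 := by
    rw [← map_mul, ← map_add, hyz, map_one]
  have h2 : V.valuation (iota k y * iota k x) < 1 := by
    rw [map_mul]
    exact lt_of_le_of_lt (mul_le_of_le_one_left' (val_iota_le k V y)) hx
  have h3 : V.valuation (iota k z) < 1 := h z hz
  have h4 : V.valuation (1 : Qb) < 1 := by
    rw [← h1]
    exact lt_of_le_of_lt (V.valuation.map_add _ _) (max_lt h2 h3)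
  rw [map_one] at h4
  exact lt_irrefl _ h4

theorem val_eq_one_of_not_mem {A : ValuationSubring Qb} {v : HeightOneSpectrum (𝓞 k)}
    (h : Over A v) {d : 𝓞 k} (hd : d ∉ v.asIdeal) : A.valuation (iota k d) = 1 := by
  refine le_antisymm (val_iota_le k A d) (not_lt.mp fun hlt => hd ((h d).2 hlt))

end DictAB

open DictAB

theorem dictA : Stmt_DictA := by
  intro k _
  refine ⟨fun v => ?_, fun A q hq hA => ?_, fun v => ?_, fun S => ?_⟩
  · obtain ⟨V, hV⟩ := exists_valuationSubring k v.asIdeal v.isPrime.ne_top
    exact ⟨V, over_of_subset k V v hV⟩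
  · let φ : 𝓞 k →+* A := (iota k).codRestrict A.toSubring (iota_mem k A)
    have hmem : ∀ x : 𝓞 k, x ∈ (IsLocalRing.maximalIdeal A).comap φ ↔ iota k x ∈ A.nonunits := by
      intro x
      rw [Ideal.mem_comap, ← ValuationSubring.coe_mem_nonunits_iff]
      rfl
    have hne : (IsLocalRing.maximalIdeal A).comap φ ≠ ⊥ := by
      intro h
      have h1 : (q : 𝓞 k) ∈ (IsLocalRing.maximalIdeal A).comap φ := by
        rw [hmem, map_natCast]
        exact hA
      rw [h, Ideal.mem_bot] at h1
      exact hq.ne_zero (by exact_mod_cast h1)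
    exact ⟨⟨(IsLocalRing.maximalIdeal A).comap φ, Ideal.comap_isPrime _ _, hne⟩, hmem⟩
  · have := v.isPrime
    refine exists_prime_mem v.asIdeal (Ideal.absNorm v.asIdeal) ?_ (Ideal.absNorm_mem _)
    rw [Ne, Ideal.absNorm_eq_zero_iff]
    exact v.ne_bot
  · have : TS S k = ⋃ q ∈ S, {v : HeightOneSpectrum (𝓞 k) |
        v.asIdeal ∣ Ideal.span {(((q : ℕ) : 𝓞 k))}} := by
      ext v
      simp only [TS, Set.mem_iUnion, exists_prop, Ideal.dvd_iff_le,
        Ideal.span_singleton_le_iff_mem]
      rfl
    rw [this]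
    refine Set.Finite.biUnion S.finite_toSet fun q _ => Ideal.finite_factors ?_
    rw [Ne, Ideal.zero_eq_bot, Ideal.span_singleton_eq_bot]
    exact_mod_cast q.2.ne_zero

theorem dictB : Stmt_DictB := by
  intro k _ A v hAv x
  rw [← A.valuation_le_one_iff]
  constructor
  · intro hx
    obtain ⟨n, d, hnd⟩ := v.exists_primeCompl_mul_eq_of_integer x hx
    have h1 : (x : Qb) * iota k d = iota k n := by
      have := congrArg (algebraMap k Qb) hnd
      rwa [map_mul] at this
    have h2 := congrArg A.valuation h1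
    rw [map_mul, val_eq_one_of_not_mem k hAv d.2, mul_one] at h2
    rw [h2]
    exact val_iota_le k A n
  · intro hx
    obtain ⟨n, d, hnd | hnd⟩ := v.exists_primeCompl_mul_eq_or_mul_eq x
    · have h2 := congrArg (v.valuation k) hnd
      rw [map_mul, (HeightOneSpectrum.valuation_eq_one_iff_notMem (K := k) (v := v)).mpr d.2, mul_one] at h2
      rw [h2]
      exact v.valuation_le_one n
    · have h1 : (x : Qb) * iota k n = iota k d := by
        have := congrArg (algebraMap k Qb) hnd
        rwa [map_mul] at this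
      have h2 := congrArg A.valuation h1
      rw [map_mul, val_eq_one_of_not_mem k hAv d.2] at h2
      have h3 : A.valuation (iota k n) = 1 := by
        refine le_antisymm (val_iota_le k A n) ?_
        rw [← h2]
        exact mul_le_of_le_one_left' hx
      have h4 : n ∉ v.asIdeal := by
        intro hn
        have : A.valuation (iota k n) < 1 := (hAv n).1 hn
        rw [h3] at this
        exact lt_irrefl _ this
      have h5 := congrArg (v.valuation k) hnd
      rw [map_mul, (HeightOneSpectrum.valuation_eq_one_iff_notMem (K := k) (v := v)).mpr d.2,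
        (HeightOneSpectrum.valuation_eq_one_iff_notMem (K := k) (v := v)).mpr h4, mul_one] at h5
      exact h5.le

end Fermat.Agent.CFT.GN
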