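/-
TEAM CFT -> S55, layer [GLOB-GN] (sub-lead helper56).  Block (K3): the order of the Selmer group
`K(T,p) = {x ∈ Kˣ/Kˣᵖ : p ∣ v(x) for all v ∉ T}` (Mathlib's `IsDedekindDomain.selmerGroup`).

  `#K(T,p) = #(𝓞ˣ/p) · p^#T · [Cl : ⟨T⟩ Clᵖ]`,     `#(𝓞ˣ/p) = p^(rank + 1)` if `μ_p ⊆ K`.

No structure theory of `T`-units: only the two exact sequences
  `1 → Rˣ/n → K(∅,n) → Cl[n] → 1`,
  `1 → K(∅,n) → K(T,n) → (ℤ/n)^T → Cl/n → Cl/(n,T) → 1`
and `#Cl[n] = #Cl/n`.  This file: definitions + statements-as-Props + the assembly.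
-/
import Mathlib

set_option autoImplicit false

noncomputable section

namespace Fermat.Agent.CFT.GN

open IsDedekindDomain NumberField

/-- the class of a height one prime -/
def clsOf {R : Type} [CommRing R] [IsDedekindDomain R] (v : HeightOneSpectrum R) : ClassGroup R :=
  ClassGroup.mk0 ⟨v.asIdeal, mem_nonZeroDivisors_of_ne_zero v.ne_bot⟩

/-- the subgroup `⟨T⟩ · Clⁿ` of the class group; `Cl/(⟨T⟩ Clⁿ) = Cl_T/n`. -/
def clTn {R : Type} [CommRing R] [IsDedekindDomain R] (T : Set (HeightOneSpectrum R)) (n : ℕ) :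
    Subgroup (ClassGroup R) :=
  Subgroup.closure (clsOf '' T) ⊔ (powMonoidHom n : ClassGroup R →* ClassGroup R).range

/-- (K3a) `#(𝓞_Kˣ/p) = p^(rank+1)` if `K` contains a primitive `p`-th root of unity
(Dirichlet's unit theorem: `𝓞ˣ ≅ μ × ℤ^rank`, `μ` cyclic of order divisible by `p`). -/
def Stmt_K3a : Prop :=
  ∀ (K : Type) [Field K] [NumberField K] (p : ℕ), p.Prime → (∃ ζ : K, IsPrimitiveRoot ζ p) →
    Nat.card ((𝓞 K)ˣ ⧸ (powMonoidHom p : (𝓞 K)ˣ →* (𝓞 K)ˣ).range) = p ^ (Units.rank K + 1)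

/-- (K3b) `1 → Rˣ/n → K(∅,n) → Cl[n] → 1`, in counting form (`Nat.card`, valid also for infinite
groups). -/
def Stmt_K3b : Prop :=
  ∀ (R K : Type) [CommRing R] [IsDedekindDomain R] [Field K] [Algebra R K] [IsFractionRing R K]
    (n : ℕ), 0 < n →
    Nat.card (selmerGroup (R := R) (K := K) (S := ∅) (n := n)) =
      Nat.card (Rˣ ⧸ (powMonoidHom n : Rˣ →* Rˣ).range) *
        Nat.card (powMonoidHom n : ClassGroup R →* ClassGroup R).ker

/-- (K3c) `1 → K(∅,n) → K(T,n) → (ℤ/n)^T → Cl/n → Cl/(n,T) → 1`, in counting form. -/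
def Stmt_K3c : Prop :=
  ∀ (R K : Type) [CommRing R] [IsDedekindDomain R] [Field K] [Algebra R K] [IsFractionRing R K]
    [Finite (ClassGroup R)] (T : Set (HeightOneSpectrum R)), T.Finite → ∀ (n : ℕ), 0 < n →
    Nat.card (selmerGroup (R := R) (K := K) (S := T) (n := n)) *
        (powMonoidHom n : ClassGroup R →* ClassGroup R).range.index =
      Nat.card (selmerGroup (R := R) (K := K) (S := ∅) (n := n)) * n ^ T.ncard * (clTn T n).index

/-- (K3) the order of the Selmer group of a number field containing `μ_p`. -/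
def Stmt_K3 : Prop :=
  ∀ (K : Type) [Field K] [NumberField K] (p : ℕ), p.Prime → (∃ ζ : K, IsPrimitiveRoot ζ p) →
    ∀ (T : Set (HeightOneSpectrum (𝓞 K))), T.Finite →
    Nat.card (selmerGroup (R := 𝓞 K) (K := K) (S := T) (n := p)) =
      p ^ (Units.rank K + 1 + T.ncard) * (clTn T p).index

/-- `#A[n] = [A : Aⁿ]` for a finite commutative group. -/
theorem card_ker_pow_eq_index (A : Type) [CommGroup A] [Finite A] (n : ℕ) :
    Nat.card (powMonoidHom n : A →* A).ker = (powMonoidHom n : A →* A).range.index := by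
  have h1 := Subgroup.card_mul_index (powMonoidHom n : A →* A).range
  have h2 := Subgroup.card_mul_index (powMonoidHom n : A →* A).ker
  rw [Subgroup.index_ker] at h2
  have h3 : Nat.card (powMonoidHom n : A →* A).range ≠ 0 := Nat.card_pos.ne'
  have h4 : Nat.card (powMonoidHom n : A →* A).range * (powMonoidHom n : A →* A).range.index =
      Nat.card (powMonoidHom n : A →* A).range * Nat.card (powMonoidHom n : A →* A).ker := by
    rw [h1, ← h2, mul_comm]
  exact (Nat.eq_of_mul_eq_mul_left (Nat.pos_of_ne_zero h3) h4).symm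

/-- assembly of (K3). -/
theorem k3 (ha : Stmt_K3a) (hb : Stmt_K3b) (hc : Stmt_K3c) : Stmt_K3 := by
  intro K _ _ p hp hζ T hT
  have h1 := ha K p hp hζ
  have h2 := hb (𝓞 K) K p hp.pos
  have h3 := hc (𝓞 K) K T hT p hp.pos
  have h4 := card_ker_pow_eq_index (ClassGroup (𝓞 K)) p
  have h5 : (powMonoidHom p : ClassGroup (𝓞 K) →* ClassGroup (𝓞 K)).range.index ≠ 0 :=
    Subgroup.index_ne_zero_of_finite
  rw [h2, h1, h4] at h3
  apply Nat.eq_of_mul_eq_mul_right (Nat.pos_of_ne_zero h5)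
  rw [h3, pow_add]
  ring

end Fermat.Agent.CFT.GN

end
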