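/-
TEAM CFT -> S55, layer [GLOB-GN] (sub-lead helper56): the numerical inputs (GN+), (GN-) of the
positivity route (#602, ruling #651).

`k ⊆ ℚ̄` a number field unramified outside `S ∋ p`, `ζ ∈ k` a primitive `p`-th root of unity,
`U = Gal(ℚ̄/k)` with the `S`-levels.  With `n = [k:ℚ]`, `s = #{primes of k over S}`,
`I = [Cl : ⟨T⟩ Clᵖ]` (`T` = primes over `S`):
   `#H¹(U,𝔽_p) = p^(n/2+s) · I`,    `#Sha²(U,𝔽_p) ≤ I ≤ #H²(U,𝔽_p)`.

Mechanism (no long exact sequences with infinite coefficient modules):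
 `Θ  = {θ ∈ ℚ_Sˣ : gθ/θ ∈ ℚ_Sˣᵖ for all g ∈ U}`,  `Θ₀ = kˣ ℚ_Sˣᵖ`;
 `Ψ : Θ/Θ₀ ↪ H²(U,μ_p)`, `θ ↦ [dγ]`, `γ(g)ᵖ = gθ/θ`;  `Sha² ⊆ im Ψ` (Hasse principle + Hilbert 90);
 `Θ/Θ₀ ≅ Cl/(⟨T⟩ Clᵖ)`, `θ ↦ (ord_w θ mod p)_w`.
This file: definitions and statements-as-Props.
-/
import Fermat.Agent.CFT.GN.K3Interface
import Fermat.Agent.CFT.Top.QDatum

set_option autoImplicit false

noncomputable section

namespace Fermat.Agent.CFT.GN

open IsDedekindDomain NumberField Fermat.Agent.CFT.Top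

/-- `ℚ̄` -/
abbrev Qb : Type := AlgebraicClosure ℚ

/-- intermediate fields of `ℚ̄/ℚ` -/
abbrev IF : Type := IntermediateField ℚ Qb

/-! ### Arithmetic definitions -/

/-- standing hypotheses on `(p, S, k, ζ)` -/
structure Base (p : ℕ) (S : Finset Nat.Primes) (k : IF) (ζ : Qb) : Prop where
  prime : p.Prime
  odd : p ≠ 2
  mem : ∃ q ∈ S, (q : ℕ) = p
  unr : k.IsUnramifiedOutside S
  zeta : IsPrimitiveRoot ζ p
  zeta_mem : ζ ∈ k

/-- `ℚ_Sˣ` -/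
def QS (S : Finset Nat.Primes) : Subgroup Qbˣ where
  carrier := {θ | ∃ F : IF, F.IsUnramifiedOutside S ∧ (θ : Qb) ∈ F}
  one_mem' := ⟨⊥, IntermediateField.isUnramifiedOutside_bot S, by simp⟩
  mul_mem' := by
    rintro a b ⟨F, hF, ha⟩ ⟨F', hF', hb⟩
    refine ⟨F ⊔ F', hF.sup hF', ?_⟩
    rw [Units.val_mul]
    exact mul_mem ((le_sup_left : F ≤ F ⊔ F') ha) ((le_sup_right : F' ≤ F ⊔ F') hb)
  inv_mem' := by
    rintro a ⟨F, hF, ha⟩
    refine ⟨F, hF, ?_⟩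
    rw [Units.val_inv_eq_inv_val]
    exact inv_mem ha

/-- `Θ` -/
def IsTheta (p : ℕ) (S : Finset Nat.Primes) (k : IF) (θ : Qbˣ) : Prop :=
  θ ∈ QS S ∧ ∀ g ∈ k.fixingSubgroup, ∃ η ∈ QS S, g (θ : Qb) = θ * (η : Qb) ^ p

/-- `Θ₀ = kˣ ℚ_Sˣᵖ` -/
def IsTheta0 (p : ℕ) (S : Finset Nat.Primes) (k : IF) (θ : Qbˣ) : Prop :=
  ∃ x : Qbˣ, (x : Qb) ∈ k ∧ ∃ η ∈ QS S, θ = x * η ^ p

/-- the valuation subring `A` of `ℚ̄` lies over the prime `v` of `k` -/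
def Over {k : IF} [NumberField k] (A : ValuationSubring Qb) (v : HeightOneSpectrum (𝓞 k)) : Prop :=
  ∀ x : 𝓞 k, x ∈ v.asIdeal ↔ (((x : k) : Qb)) ∈ A.nonunits

/-- the primes of `k` over `S` -/
def TS (S : Finset Nat.Primes) (k : IF) [NumberField k] : Set (HeightOneSpectrum (𝓞 k)) :=
  {v | ∃ q ∈ S, ((q : ℕ) : 𝓞 k) ∈ v.asIdeal}

/-- the class of a divisor -/
def clsDiv {R : Type} [CommRing R] [IsDedekindDomain R] (a : HeightOneSpectrum R →₀ ℤ) :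
    ClassGroup R :=
  a.prod fun v m => clsOf v ^ m

/-- `a` is the divisor of `θ` outside `S`, modulo `p`. -/
def IsDiv (p : ℕ) (S : Finset Nat.Primes) {k : IF} [NumberField k] (θ : Qbˣ)
    (a : HeightOneSpectrum (𝓞 k) →₀ ℤ) : Prop :=
  ∀ v : HeightOneSpectrum (𝓞 k), v ∉ TS S k → ∀ (A : ValuationSubring Qb) (q : ℕ), q.Prime →
    A.LiesOverPrime q → Over A v →
    ∃ m : ℤ, A.valuation (θ : Qb) = A.valuation (q : Qb) ^ m ∧ (p : ℤ) ∣ m - a v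

/-! ### Raw cochains on `U = Gal(ℚ̄/k)` with values in `𝔽_p` or `ℚ̄ˣ` -/

/-- `S`-level constant functions of one variable -/
def SLev1 (S : Finset Nat.Primes) (k : IF) {X : Type} (f : k.fixingSubgroup → X) : Prop :=
  ∃ F : IF, F.IsUnramifiedOutside S ∧
    ∀ g s : k.fixingSubgroup, (s : GQ) ∈ F.fixingSubgroup → f (g * s) = f g

/-- `S`-level constant functions of two variables -/
def SLev2 (S : Finset Nat.Primes) (k : IF) {X : Type}
    (f : k.fixingSubgroup × k.fixingSubgroup → X) : Prop :=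
  ∃ F : IF, F.IsUnramifiedOutside S ∧
    ∀ g g' s s' : k.fixingSubgroup, (s : GQ) ∈ F.fixingSubgroup → (s' : GQ) ∈ F.fixingSubgroup →
      f (g * s, g' * s') = f (g, g')

/-- raw `S`-level 2-cocycles with values in `𝔽_p` (trivial action) -/
def IsZ2 (p : ℕ) (S : Finset Nat.Primes) (k : IF)
    (f : k.fixingSubgroup × k.fixingSubgroup → ZMod p) : Prop :=
  SLev2 S k f ∧ ∀ g h j, f (h, j) - f (g * h, j) + f (g, h * j) - f (g, h) = 0

/-- raw `S`-level 2-coboundaries -/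
def IsB2 (p : ℕ) (S : Finset Nat.Primes) (k : IF)
    (f : k.fixingSubgroup × k.fixingSubgroup → ZMod p) : Prop :=
  ∃ x : k.fixingSubgroup → ZMod p, SLev1 S k x ∧ ∀ g h, f (g, h) = x h - x (g * h) + x g

/-- local triviality at all places over `S` (cochains on the decomposition groups, all levels) -/
def LocTriv (p : ℕ) (S : Finset Nat.Primes) (k : IF)
    (f : k.fixingSubgroup × k.fixingSubgroup → ZMod p) : Prop :=
  ∀ q ∈ S, ∀ A : ValuationSubring Qb, A.LiesOverPrime (q : ℕ) →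
    ∃ x : GQ → ZMod p,
      (∃ F : IF, FiniteDimensional ℚ F ∧ ∀ g s : GQ, s ∈ F.fixingSubgroup → x (g * s) = x g) ∧
      ∀ σ τ : k.fixingSubgroup, (σ : GQ) ∈ A.decompositionSubgroup ℚ →
        (τ : GQ) ∈ A.decompositionSubgroup ℚ →
        f (σ, τ) = x τ - x (σ * τ) + x σ

/-- `γ : U → ℚ_Sˣ` is an `S`-level cochain with `dγ = ζ^f`. -/
def IsSplit (p : ℕ) (S : Finset Nat.Primes) (k : IF) (ζ : Qb)
    (f : k.fixingSubgroup × k.fixingSubgroup → ZMod p) (γ : k.fixingSubgroup → Qbˣ) : Prop :=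
  SLev1 S k γ ∧ (∀ g, γ g ∈ QS S) ∧
    ∀ g h : k.fixingSubgroup,
      ζ ^ (f (g, h)).val * (γ (g * h) : Qb) = (γ g : Qb) * (g : GQ) (γ h : Qb)

/-- `f` represents `Ψ(θ)`. -/
def IsPsi (p : ℕ) (S : Finset Nat.Primes) (k : IF) (ζ : Qb) (θ : Qbˣ)
    (f : k.fixingSubgroup × k.fixingSubgroup → ZMod p) : Prop :=
  ∃ γ : k.fixingSubgroup → Qbˣ, IsSplit p S k ζ f γ ∧
    ∀ g : k.fixingSubgroup, (g : GQ) (θ : Qb) = θ * (γ g : Qb) ^ p

/-! ### The level constant cohomology groups -/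

/-- the `S`-levels of `U = Gal(ℚ̄/k)` -/
abbrev levK (S : Finset Nat.Primes) (k : IF) : LevelSys k.fixingSubgroup :=
  (levS S).comap k.fixingSubgroup.subtype

/-- `𝔽_p` with trivial action of `U` -/
abbrev trivK (p : ℕ) (k : IF) : Rep.{0} (ZMod p) k.fixingSubgroup :=
  Rep.trivial (ZMod p) k.fixingSubgroup (ZMod p)

/-- `Hⁱ(U, 𝔽_p)` -/
abbrev HK (p : ℕ) (S : Finset Nat.Primes) (k : IF) (i : ℕ) : Type := Hlc (levK S k) (trivK p k) i

/-- the raw cochain `f` represents the class `x ∈ H²(U,𝔽_p)`. -/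
def Rep2 (p : ℕ) (S : Finset Nat.Primes) (k : IF) (x : HK p S k 2)
    (f : k.fixingSubgroup × k.fixingSubgroup → ZMod p) : Prop :=
  ∃ z : (lcCpx (levK S k) (trivK p k)).Z 2, (lcCpx (levK S k) (trivK p k)).cls 2 z = x ∧
    ∀ g : Fin 2 → k.fixingSubgroup,
      (show ↥(lcCochains (levK S k) (trivK p k) 2) from z.1).1 g = f (g 0, g 1)

/-- the levels of `D_A ∩ U` (all finite levels) -/
abbrev levD (k : IF) (A : ValuationSubring Qb) :
    LevelSys ((A.decompositionSubgroup ℚ).subgroupOf k.fixingSubgroup) :=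
  levAll.comap (k.fixingSubgroup.subtype.comp
    ((A.decompositionSubgroup ℚ).subgroupOf k.fixingSubgroup).subtype)

lemma isCont_levD (S : Finset Nat.Primes) (k : IF) (A : ValuationSubring Qb) :
    LevelSys.IsCont (levD k A) (levK S k)
      ((A.decompositionSubgroup ℚ).subgroupOf k.fixingSubgroup).subtype := by
  rintro _ ⟨U, hU, rfl⟩
  exact ⟨_, ⟨U, levS_subset_levAll S hU, rfl⟩, le_rfl⟩

/-- `Sha²(U,𝔽_p)`: classes which vanish on `D_A ∩ U` for all `A` over `S`. -/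
def Sha2K (p : ℕ) (S : Finset Nat.Primes) (k : IF) : Submodule (ZMod p) (HK p S k 2) :=
  ⨅ (q : Nat.Primes) (_ : q ∈ S) (A : ValuationSubring Qb) (_ : A.LiesOverPrime (q : ℕ)),
    LinearMap.ker ((lcRes _ (isCont_levD S k A) (trivK p k)).mapH 2)

/-! ### Statements: dictionary valuation subrings of `ℚ̄` <-> primes of `𝓞 k` -/

/-- (DICT-A) existence in both directions. -/
def Stmt_DictA : Prop :=
  ∀ (k : IF) [NumberField k],
    (∀ v : HeightOneSpectrum (𝓞 k), ∃ A : ValuationSubring Qb, Over A v) ∧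
    (∀ (A : ValuationSubring Qb) (q : ℕ), q.Prime → A.LiesOverPrime q →
      ∃ v : HeightOneSpectrum (𝓞 k), Over A v) ∧
    (∀ v : HeightOneSpectrum (𝓞 k), ∃ q : ℕ, q.Prime ∧ (q : 𝓞 k) ∈ v.asIdeal) ∧
    (∀ S : Finset Nat.Primes, (TS S k).Finite)

/-- (DICT-B) `A ∩ k` is the valuation ring of `v`. -/
def Stmt_DictB : Prop :=
  ∀ (k : IF) [NumberField k] (A : ValuationSubring Qb) (v : HeightOneSpectrum (𝓞 k)), Over A v →
    ∀ x : k, v.valuation k x ≤ 1 ↔ (x : Qb) ∈ A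

/-- (DICT-C) the value group of `ℚ_S` at a place over `q ∉ S` is generated by the value of `q`. -/
def Stmt_DictC : Prop :=
  ∀ (S : Finset Nat.Primes) (q : Nat.Primes), q ∉ S → ∀ A : ValuationSubring Qb,
    A.LiesOverPrime (q : ℕ) → ∀ θ ∈ QS S, ∃ m : ℤ, A.valuation (θ : Qb) = A.valuation (q : Qb) ^ m

/-- (DICT-D) `Gal(ℚ̄/k)` permutes transitively the valuation subrings over a prime of `k`. -/
def Stmt_DictD : Prop :=
  ∀ (k : IF) [NumberField k] (A A' : ValuationSubring Qb) (v : HeightOneSpectrum (𝓞 k)),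
    Over A v → Over A' v → ∃ g ∈ k.fixingSubgroup, ∀ x : Qb, g x ∈ A' ↔ x ∈ A

/-- (DICT-E) comparison of `ord_A` (normalised by `q`) with `ord_v` outside `S`. -/
def Stmt_DictE : Prop :=
  ∀ (S : Finset Nat.Primes) (k : IF) [NumberField k], k.IsUnramifiedOutside S →
    ∀ (v : HeightOneSpectrum (𝓞 k)), v ∉ TS S k → ∀ (A : ValuationSubring Qb) (q : ℕ), q.Prime →
    A.LiesOverPrime q → Over A v → ∀ (x : kˣ) (m : ℤ),
      A.valuation (((x : k) : Qb)) = A.valuation (q : Qb) ^ m ↔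
        v.valuationOfNeZero x = Multiplicative.ofAdd (-m)

/-- (NC) normal closures stay unramified outside `S`. -/
def Stmt_NC : Prop :=
  ∀ (S : Finset Nat.Primes) (F : IF), F.IsUnramifiedOutside S →
    ∃ F' : IF, F ≤ F' ∧ F'.IsUnramifiedOutside S ∧ Normal ℚ F'

/-- (CLS) divisors and the class group (Mathlib-native). -/
def Stmt_Cls : Prop :=
  ∀ (R K : Type) [CommRing R] [IsDedekindDomain R] [Field K] [Algebra R K] [IsFractionRing R K],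
    (∀ c : ClassGroup R, ∃ a : HeightOneSpectrum R →₀ ℤ, clsDiv a = c) ∧
    (∀ a : HeightOneSpectrum R →₀ ℤ, clsDiv a = 1 ↔
      ∃ x : Kˣ, ∀ v : HeightOneSpectrum R,
        v.valuationOfNeZero x = Multiplicative.ofAdd (-(a v)))

/-! ### Statements: ramification of Kummer extensions -/

/-- (RAM1) a `p`-th root of `θ ∈ ℚ_Sˣ` whose divisor outside `S` is divisible by `p` lies in
`ℚ_S` (`p ∈ S`). -/
def Stmt_Ram1 : Prop :=
  ∀ (p : ℕ) (S : Finset Nat.Primes), p.Prime → (∃ q ∈ S, (q : ℕ) = p) → ∀ θ t : Qbˣ, θ ∈ QS S →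
    t ^ p = θ →
    (∀ q : Nat.Primes, q ∉ S → ∀ A : ValuationSubring Qb, A.LiesOverPrime (q : ℕ) →
      ∃ m : ℤ, A.valuation (θ : Qb) = A.valuation (q : Qb) ^ ((p : ℤ) * m)) →
    t ∈ QS S

/-- (RAM1') roots of unity of `p`-power order lie in `ℚ_S`. -/
def Stmt_Roots : Prop :=
  ∀ (p : ℕ) (S : Finset Nat.Primes), p.Prime → (∃ q ∈ S, (q : ℕ) = p) → ∀ (j : ℕ) (ω : Qbˣ),
    ω ^ p ^ j = 1 → ω ∈ QS S

/-! ### Statements: cochains -/

/-- (H90) Hilbert 90 for `S`-level cocycles `U → ℚ_Sˣ`. -/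
def Stmt_H90 : Prop :=
  ∀ (S : Finset Nat.Primes) (k : IF), k.IsUnramifiedOutside S → ∀ c : k.fixingSubgroup → Qbˣ,
    SLev1 S k c → (∀ g, c g ∈ QS S) →
    (∀ g h : k.fixingSubgroup, (c (g * h) : Qb) = (c g : Qb) * (g : GQ) (c h : Qb)) →
    ∃ θ ∈ QS S, ∀ g : k.fixingSubgroup, (g : GQ) (θ : Qb) = θ * (c g : Qb)

/-- (Q1a) `Ψ` is defined on `Θ`. -/
def Stmt_Q1a : Prop :=
  ∀ (p : ℕ) (S : Finset Nat.Primes) (k : IF) (ζ : Qb), Base p S k ζ → ∀ θ : Qbˣ,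
    IsTheta p S k θ → ∃ f, IsZ2 p S k f ∧ IsPsi p S k ζ θ f

/-- (Q1b) `Ψ` is injective on `Θ/Θ₀`. -/
def Stmt_Q1b : Prop :=
  ∀ (p : ℕ) (S : Finset Nat.Primes) (k : IF) (ζ : Qb), Base p S k ζ → ∀ (θ θ' : Qbˣ) (f f'),
    IsPsi p S k ζ θ f → IsPsi p S k ζ θ' f' → IsB2 p S k (f - f') → IsTheta0 p S k (θ / θ')

/-- (Q1c) `Ψ` is well defined on `Θ/Θ₀`. -/
def Stmt_Q1c : Prop :=
  ∀ (p : ℕ) (S : Finset Nat.Primes) (k : IF) (ζ : Qb), Base p S k ζ → ∀ (θ θ' : Qbˣ) (f f'),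
    IsPsi p S k ζ θ f → IsPsi p S k ζ θ' f' → IsTheta0 p S k (θ / θ') → IsB2 p S k (f - f')

/-- (HP) **input from [GLOB-HP] + [LOC]**: a locally trivial `S`-level 2-cocycle with values in
`μ_p` splits in `ℚ_Sˣ` at some `S`-level. -/
def Stmt_HPraw : Prop :=
  ∀ (p : ℕ) (S : Finset Nat.Primes) (k : IF) (ζ : Qb), Base p S k ζ → ∀ f, IsZ2 p S k f →
    LocTriv p S k f → ∃ γ, IsSplit p S k ζ f γ

/-- (Q2) `Sha² ⊆ im Ψ`. -/
def Stmt_Q2 : Prop :=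
  ∀ (p : ℕ) (S : Finset Nat.Primes) (k : IF) (ζ : Qb), Base p S k ζ → ∀ f, IsZ2 p S k f →
    LocTriv p S k f → ∃ θ, IsTheta p S k θ ∧ IsPsi p S k ζ θ f

/-- (Q3a) elements of `Θ` have a divisor mod `p`. -/
def Stmt_Q3a : Prop :=
  ∀ (p : ℕ) (S : Finset Nat.Primes) (k : IF) [NumberField k] (ζ : Qb), Base p S k ζ →
    ∀ θ : Qbˣ, IsTheta p S k θ → ∃ a : HeightOneSpectrum (𝓞 k) →₀ ℤ, IsDiv p S θ a

/-- (Q3b) `Θ/Θ₀ → Cl/(⟨T⟩ Clᵖ)` is well defined and injective. -/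
def Stmt_Q3b : Prop :=
  ∀ (p : ℕ) (S : Finset Nat.Primes) (k : IF) [NumberField k] (ζ : Qb), Base p S k ζ →
    ∀ (θ θ' : Qbˣ) (a a' : HeightOneSpectrum (𝓞 k) →₀ ℤ), IsTheta p S k θ → IsTheta p S k θ' →
    IsDiv p S θ a → IsDiv p S θ' a' →
    (clsDiv a / clsDiv a' ∈ clTn (TS S k) p ↔ IsTheta0 p S k (θ / θ'))

/-- (Q4) `Θ → Cl/(⟨T⟩ Clᵖ)` is surjective (`p`-capitulation in `ℚ_S`). -/
def Stmt_Q4 : Prop :=
  ∀ (p : ℕ) (S : Finset Nat.Primes) (k : IF) [NumberField k] (ζ : Qb), Base p S k ζ →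
    ∀ c : ClassGroup (𝓞 k), ∃ (θ : Qbˣ) (a : HeightOneSpectrum (𝓞 k) →₀ ℤ),
      IsTheta p S k θ ∧ IsDiv p S θ a ∧ clsDiv a / c ∈ clTn (TS S k) p

/-! ### Statements: Kummer theory -/

/-- continuous characters `U → 𝔽_p` -/
def IsContChar {p : ℕ} {k : IF} (χ : k.fixingSubgroup →* Multiplicative (ZMod p)) : Prop :=
  ∃ F : IF, FiniteDimensional ℚ F ∧ ∀ s : k.fixingSubgroup, (s : GQ) ∈ F.fixingSubgroup → χ s = 1

/-- `χ` is the Kummer character of `x ∈ kˣ` (with respect to `ζ`). -/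
def IsKum {p : ℕ} {k : IF} (ζ : Qb) (x : kˣ) (χ : k.fixingSubgroup →* Multiplicative (ZMod p)) :
    Prop :=
  ∀ t : Qb, t ^ p = ((x : k) : Qb) → ∀ g : k.fixingSubgroup,
    (g : GQ) t = ζ ^ (Multiplicative.toAdd (χ g)).val * t

/-- (KUM-alg) Kummer theory: `kˣ/kˣᵖ ≅ Hom_cont(U, 𝔽_p)`. -/
def Stmt_KumAlg : Prop :=
  ∀ (p : ℕ) (k : IF) (ζ : Qb), p.Prime → FiniteDimensional ℚ k → IsPrimitiveRoot ζ p → ζ ∈ k →
    (∀ x : kˣ, ∃ χ : k.fixingSubgroup →* Multiplicative (ZMod p), IsContChar χ ∧ IsKum ζ x χ) ∧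
    (∀ χ : k.fixingSubgroup →* Multiplicative (ZMod p), IsContChar χ → ∃ x : kˣ, IsKum ζ x χ) ∧
    (∀ (x x' : kˣ) (χ : k.fixingSubgroup →* Multiplicative (ZMod p)), IsKum ζ x χ →
      (IsKum ζ x' χ ↔ x / x' ∈ (powMonoidHom p : kˣ →* kˣ).range))

/-- (KUM-ram) `k(x^{1/p}) ⊆ ℚ_S` iff `x` lies in the Selmer group `k(T_S, p)`. -/
def Stmt_KumRam : Prop :=
  ∀ (p : ℕ) (S : Finset Nat.Primes) (k : IF) [NumberField k] (ζ : Qb), Base p S k ζ →
    ∀ (x : kˣ) (χ : k.fixingSubgroup →* Multiplicative (ZMod p)), IsKum ζ x χ →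
      (SLev1 S k χ ↔
        (x : kˣ ⧸ (powMonoidHom p : kˣ →* kˣ).range) ∈
          selmerGroup (R := 𝓞 k) (K := k) (S := TS S k) (n := p))

/-- (KUM) `#Hom_S(U,𝔽_p) = #k(T_S,p)`. -/
def Stmt_Kum : Prop :=
  ∀ (p : ℕ) (S : Finset Nat.Primes) (k : IF) [NumberField k] (ζ : Qb), Base p S k ζ →
    Nat.card {χ : k.fixingSubgroup →* Multiplicative (ZMod p) // SLev1 S k χ} =
      Nat.card (selmerGroup (R := 𝓞 k) (K := k) (S := TS S k) (n := p))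

/-! ### Statements: bridge raw cochains <-> `Hlc` -/

/-- (RAW1) -/
def Stmt_Raw1 : Prop :=
  ∀ (p : ℕ) (S : Finset Nat.Primes) (k : IF), p.Prime →
    Nat.card (HK p S k 1) =
      Nat.card {χ : k.fixingSubgroup →* Multiplicative (ZMod p) // SLev1 S k χ}

/-- (RAW2) -/
def Stmt_Raw2 : Prop :=
  ∀ (p : ℕ) (S : Finset Nat.Primes) (k : IF), p.Prime →
    (∀ x : HK p S k 2, ∃ f, IsZ2 p S k f ∧ Rep2 p S k x f) ∧
    (∀ f, IsZ2 p S k f → ∃ x : HK p S k 2, Rep2 p S k x f) ∧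
    (∀ (x x' : HK p S k 2) (f f'), Rep2 p S k x f → Rep2 p S k x' f' →
      (x = x' ↔ IsB2 p S k (f - f'))) ∧
    (∀ (x : HK p S k 2) (f), Rep2 p S k x f → (x ∈ Sha2K p S k ↔ LocTriv p S k f))

/-- (K3f) a number field containing `μ_p`, `p` odd, is totally complex. -/
def Stmt_K3f : Prop :=
  ∀ (K : Type) [Field K] [NumberField K] (p : ℕ), p.Prime → p ≠ 2 →
    (∃ ζ : K, IsPrimitiveRoot ζ p) → 2 * (Units.rank K + 1) = Module.finrank ℚ K

/-! ### The deliverable -/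

/-- **(GN)** in counting form. -/
def Stmt_GNcard : Prop :=
  ∀ (p : ℕ) (S : Finset Nat.Primes) (k : IF) [NumberField k] (ζ : Qb), Base p S k ζ →
    Nat.card (HK p S k 1) =
      p ^ (Module.finrank ℚ k / 2 + (TS S k).ncard) * (clTn (TS S k) p).index ∧
    Finite (Sha2K p S k) ∧ Nat.card (Sha2K p S k) ≤ (clTn (TS S k) p).index ∧
    (Finite (HK p S k 2) → (clTn (TS S k) p).index ≤ Nat.card (HK p S k 2))

/-- **(GN+), (GN-)** in dimension form. -/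
def Stmt_GN : Prop :=
  ∀ (p : ℕ) [Fact p.Prime] (S : Finset Nat.Primes) (k : IF) [NumberField k] (ζ : Qb),
    Base p S k ζ →
    Module.Finite (ZMod p) (HK p S k 1) ∧ Module.Finite (ZMod p) (Sha2K p S k) ∧
    Module.finrank (ZMod p) (Sha2K p S k) + (Module.finrank ℚ k / 2 + (TS S k).ncard) ≤
      Module.finrank (ZMod p) (HK p S k 1) ∧
    (Module.Finite (ZMod p) (HK p S k 2) →
      Module.finrank (ZMod p) (HK p S k 1) ≤
        Module.finrank (ZMod p) (HK p S k 2) + (Module.finrank ℚ k / 2 + (TS S k).ncard))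

end Fermat.Agent.CFT.GN

end
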