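/-
TEAM CFT -> S55, layer [GLOB-GN]: assembly of (GN) from the packages of `Interface.lean`.
-/
import Fermat.Agent.CFT.GN.Interface

set_option autoImplicit false

noncomputable section

namespace Fermat.Agent.CFT.GN

open IsDedekindDomain NumberField Fermat.Agent.CFT.Top

/-- `#H¹`. -/
theorem card_HK1 (hK3 : Stmt_K3) (hK3f : Stmt_K3f) (hKum : Stmt_Kum) (hRaw1 : Stmt_Raw1)
    (hA : Stmt_DictA)
    (p : ℕ) (S : Finset Nat.Primes) (k : IF) [NumberField k] (ζ : Qb) (hB : Base p S k ζ) :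
    Nat.card (HK p S k 1) =
      p ^ (Module.finrank ℚ k / 2 + (TS S k).ncard) * (clTn (TS S k) p).index := by
  have hζ : ∃ z : k, IsPrimitiveRoot z p :=
    ⟨⟨ζ, hB.zeta_mem⟩, IsPrimitiveRoot.of_map_of_injective (f := algebraMap k Qb)
      (hf := (algebraMap k Qb).injective) hB.zeta⟩
  rw [hRaw1 p S k hB.prime, hKum p S k ζ hB, hK3 k p hB.prime hζ (TS S k) ((hA k).2.2.2 S)]
  have h := hK3f k p hB.prime hB.odd hζ
  have h2 : Module.finrank ℚ k / 2 = Units.rank k + 1 := by omega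
  rw [h2]

/-- `#Sha² ≤ I`. -/
theorem card_Sha2K_le (hRaw2 : Stmt_Raw2) (hQ1c : Stmt_Q1c) (hQ2 : Stmt_Q2) (hQ3a : Stmt_Q3a)
    (hQ3b : Stmt_Q3b)
    (p : ℕ) (S : Finset Nat.Primes) (k : IF) [NumberField k] (ζ : Qb) (hB : Base p S k ζ) :
    Finite (Sha2K p S k) ∧ Nat.card (Sha2K p S k) ≤ (clTn (TS S k) p).index := by
  obtain ⟨r1, -, r3, r4⟩ := hRaw2 p S k hB.prime
  have key : ∀ x : Sha2K p S k, ∃ (f : _) (θ : Qbˣ) (a : HeightOneSpectrum (𝓞 k) →₀ ℤ),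
      Rep2 p S k x.1 f ∧ IsTheta p S k θ ∧ IsPsi p S k ζ θ f ∧ IsDiv p S θ a := by
    intro x
    obtain ⟨f, hf, hx⟩ := r1 x.1
    obtain ⟨θ, hθ, hψ⟩ := hQ2 p S k ζ hB f hf ((r4 x.1 f hx).1 x.2)
    obtain ⟨a, ha⟩ := hQ3a p S k ζ hB θ hθ
    exact ⟨f, θ, a, hx, hθ, hψ, ha⟩
  choose f θ a h1 h2 h3 h4 using key
  let Φ : Sha2K p S k → ClassGroup (𝓞 k) ⧸ clTn (TS S k) p := fun x => (clsDiv (a x) : _)
  have hΦ : Function.Injective Φ := by
    intro x x' hxx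
    have h5 : (clsDiv (a x'))⁻¹ * clsDiv (a x) ∈ clTn (TS S k) p :=
      QuotientGroup.eq.1 hxx.symm
    have h6 : clsDiv (a x) / clsDiv (a x') ∈ clTn (TS S k) p := by
      rwa [div_eq_mul_inv, mul_comm]
    have h7 := (hQ3b p S k ζ hB (θ x) (θ x') (a x) (a x') (h2 x) (h2 x') (h4 x) (h4 x')).1 h6
    have h8 := hQ1c p S k ζ hB (θ x) (θ x') (f x) (f x') (h3 x) (h3 x') h7
    exact Subtype.ext ((r3 x.1 x'.1 (f x) (f x') (h1 x) (h1 x')).2 h8)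
  refine ⟨Finite.of_injective Φ hΦ, ?_⟩
  rw [Subgroup.index]
  exact Nat.card_le_card_of_injective Φ hΦ

/-- `I ≤ #H²`. -/
theorem index_le_card_HK2 (hRaw2 : Stmt_Raw2) (hQ1a : Stmt_Q1a) (hQ1b : Stmt_Q1b)
    (hQ3b : Stmt_Q3b) (hQ4 : Stmt_Q4)
    (p : ℕ) (S : Finset Nat.Primes) (k : IF) [NumberField k] (ζ : Qb) (hB : Base p S k ζ)
    (hfin : Finite (HK p S k 2)) : (clTn (TS S k) p).index ≤ Nat.card (HK p S k 2) := by
  obtain ⟨-, r2, r3, -⟩ := hRaw2 p S k hB.prime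
  have key : ∀ c : ClassGroup (𝓞 k), ∃ (θ : Qbˣ) (a : HeightOneSpectrum (𝓞 k) →₀ ℤ) (f : _)
      (x : HK p S k 2), IsTheta p S k θ ∧ IsDiv p S θ a ∧ clsDiv a / c ∈ clTn (TS S k) p ∧
        IsPsi p S k ζ θ f ∧ Rep2 p S k x f := by
    intro c
    obtain ⟨θ, a, hθ, ha, hc⟩ := hQ4 p S k ζ hB c
    obtain ⟨f, hf, hψ⟩ := hQ1a p S k ζ hB θ hθ
    obtain ⟨x, hx⟩ := r2 f hf
    exact ⟨θ, a, f, x, hθ, ha, hc, hψ, hx⟩
  choose θ a f x h1 h2 h3 h4 h5 using key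
  let Φ : ClassGroup (𝓞 k) ⧸ clTn (TS S k) p → HK p S k 2 := fun c => x c.out
  have hΦ : Function.Injective Φ := by
    intro c c' hcc
    have h6 := (r3 _ _ _ _ (h5 c.out) (h5 c'.out)).1 hcc
    have h7 := hQ1b p S k ζ hB _ _ _ _ (h4 c.out) (h4 c'.out) h6
    have h8 := (hQ3b p S k ζ hB _ _ _ _ (h1 c.out) (h1 c'.out) (h2 c.out) (h2 c'.out)).2 h7
    have h9 : c.out⁻¹ * c'.out ∈ clTn (TS S k) p := by
      have e : c.out⁻¹ * c'.out = (clsDiv (a c.out) / c.out) *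
          (clsDiv (a c.out) / clsDiv (a c'.out))⁻¹ * (clsDiv (a c'.out) / c'.out)⁻¹ := by
        simp only [div_eq_mul_inv, mul_inv_rev, inv_inv]
        have : ∀ u v w z : ClassGroup (𝓞 k),
            u⁻¹ * v = w * u⁻¹ * (z * w⁻¹) * (v * z⁻¹) := by
          intro u v w z
          have e2 : w * u⁻¹ * (z * w⁻¹) * (v * z⁻¹) = (w * w⁻¹) * (z * z⁻¹) * (u⁻¹ * v) := by
            ac_rfl
          rw [e2]
          simp
        exact this _ _ _ _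
      rw [e]
      exact mul_mem (mul_mem (h3 _) (inv_mem h8)) (inv_mem (h3 _))
    have h10 : (c.out : ClassGroup (𝓞 k) ⧸ clTn (TS S k) p) = c'.out := QuotientGroup.eq.2 h9
    rwa [QuotientGroup.out_eq', QuotientGroup.out_eq'] at h10
  rw [Subgroup.index]
  exact Nat.card_le_card_of_injective Φ hΦ

/-- **(GN)** in counting form. -/
theorem gnCard (hK3 : Stmt_K3) (hK3f : Stmt_K3f) (hKum : Stmt_Kum) (hRaw1 : Stmt_Raw1)
    (hRaw2 : Stmt_Raw2) (hA : Stmt_DictA) (hQ1a : Stmt_Q1a) (hQ1b : Stmt_Q1b) (hQ1c : Stmt_Q1c)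
    (hQ2 : Stmt_Q2) (hQ3a : Stmt_Q3a) (hQ3b : Stmt_Q3b) (hQ4 : Stmt_Q4) : Stmt_GNcard := by
  intro p S k _ ζ hB
  obtain ⟨h1, h2⟩ := card_Sha2K_le hRaw2 hQ1c hQ2 hQ3a hQ3b p S k ζ hB
  exact ⟨card_HK1 hK3 hK3f hKum hRaw1 hA p S k ζ hB, h1, h2,
    index_le_card_HK2 hRaw2 hQ1a hQ1b hQ3b hQ4 p S k ζ hB⟩

/-- **(GN+), (GN-)** in dimension form. -/
theorem gn (h : Stmt_GNcard) : Stmt_GN := by
  intro p _ S k _ ζ hB
  obtain ⟨h1, h2, h3, h4⟩ := h p S k ζ hB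
  have hp : 1 < p := hB.prime.one_lt
  have hI : (clTn (TS S k) p).index ≠ 0 := Subgroup.index_ne_zero_of_finite
  have hfin1 : Finite (HK p S k 1) := by
    apply Nat.finite_of_card_ne_zero
    rw [h1]
    exact mul_ne_zero (pow_ne_zero _ hB.prime.ne_zero) hI
  have hM1 : Module.Finite (ZMod p) (HK p S k 1) := Module.Finite.of_finite
  have hM2 : Module.Finite (ZMod p) (Sha2K p S k) := Module.Finite.of_finite
  have c1 : Nat.card (HK p S k 1) = p ^ Module.finrank (ZMod p) (HK p S k 1) := by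
    rw [Module.natCard_eq_pow_finrank (K := ZMod p), Nat.card_zmod]
  have c2 : Nat.card (Sha2K p S k) = p ^ Module.finrank (ZMod p) (Sha2K p S k) := by
    rw [Module.natCard_eq_pow_finrank (K := ZMod p), Nat.card_zmod]
  refine ⟨hM1, hM2, ?_, ?_⟩
  · rw [← Nat.pow_le_pow_iff_right hp, ← c1, h1, pow_add, ← c2, mul_comm]
    exact Nat.mul_le_mul_left _ h3
  · intro hM3
    have hfin3 : Finite (HK p S k 2) := Module.finite_of_finite (ZMod p)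
    have c3 : Nat.card (HK p S k 2) = p ^ Module.finrank (ZMod p) (HK p S k 2) := by
      rw [Module.natCard_eq_pow_finrank (K := ZMod p), Nat.card_zmod]
    rw [← Nat.pow_le_pow_iff_right hp, ← c1, h1,
      pow_add p (Module.finrank (ZMod p) (HK p S k 2)), ← c3, mul_comm]
    exact Nat.mul_le_mul_right _ (h4 hfin3)

end Fermat.Agent.CFT.GN

end
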