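/-
TEAM CFT -> S55, layer [GLOB-GN], task GN-K3c (helper35):
`1 → K(∅,n) → K(T,n) → (ℤ/n)^T → Cl/n → Cl/(n,T) → 1` in counting form (`k3c : Stmt_K3c`).

Reusable (namespace `Fermat.Agent.CFT.GN.K3c`):
* `count_spanSingleton` : `count K v (x) = - toAdd (v.valuationOfNeZero x)`;
* `valMod_mk` : `valuationOfNeZeroMod n (mk x) = ofAdd ((toAdd (valuationOfNeZero x) : ℤ) : ZMod n)`;
* `cnt v` : the order at `v` as a hom on invertible fractional ideals;
* `exists_pow_eq` : a fractional ideal all of whose orders are divisible by `n` is an `n`-th power;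
* `mem_range_val_iff` : the image of `K(T,n) → (ℤ/n)^T`.
-/
import Fermat.Agent.CFT.GN.K3Interface

set_option autoImplicit false
set_option linter.unusedSectionVars false

noncomputable section

namespace Fermat.Agent.CFT.GN.K3c

open IsDedekindDomain FractionalIdeal
open scoped nonZeroDivisors

variable {R K : Type} [CommRing R] [IsDedekindDomain R] [Field K] [Algebra R K] [IsFractionRing R K]

/-- `ord_v (x) = - valuationOfNeZero`. -/
theorem count_spanSingleton (v : HeightOneSpectrum R) (x : Kˣ) :
    count K v (spanSingleton R⁰ (x : K)) = -(Multiplicative.toAdd (v.valuationOfNeZero x)) := by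
  classical
  have hs := IsLocalization.sec_spec R⁰ (x : K)
  set a := (IsLocalization.sec R⁰ (x : K)).1 with ha
  set b := (IsLocalization.sec R⁰ (x : K)).2 with hb
  have hb0 : algebraMap R K (b : R) ≠ 0 := by
    have := nonZeroDivisors.coe_ne_zero b
    simp
  have h1 : spanSingleton R⁰ (x : K) =
      spanSingleton R⁰ ((algebraMap R K) (b : R))⁻¹ * ((Ideal.span {a} : Ideal R) : FractionalIdeal R⁰ K) := by
    rw [coeIdeal_span_singleton, spanSingleton_mul_spanSingleton, ← hs]
    congr 1
    field_simp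
  have h0 : spanSingleton R⁰ (x : K) ≠ 0 := by
    rw [Ne, spanSingleton_eq_zero_iff]
    exact x.ne_zero
  rw [count_well_defined K v h0 h1]
  change _ = -(Multiplicative.toAdd (v.valuationOfNeZeroToFun x))
  simp only [HeightOneSpectrum.valuationOfNeZeroToFun, toAdd_ofAdd]
  ring

theorem valMod_mk (v : HeightOneSpectrum R) (n : ℕ) (x : Kˣ) :
    v.valuationOfNeZeroMod n (QuotientGroup.mk x : Kˣ ⧸ (powMonoidHom n : Kˣ →* Kˣ).range) =
      Multiplicative.ofAdd ((Multiplicative.toAdd (v.valuationOfNeZero x) : ℤ) : ZMod n) := by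
  rfl

/-- the order at `v` as a homomorphism on invertible fractional ideals -/
def cnt (v : HeightOneSpectrum R) : (FractionalIdeal R⁰ K)ˣ →* Multiplicative ℤ where
  toFun I := Multiplicative.ofAdd (count K v (I : FractionalIdeal R⁰ K))
  map_one' := by simp [count_one]
  map_mul' I J := by
    rw [Units.val_mul, count_mul K v I.ne_zero J.ne_zero, ofAdd_add]

theorem cnt_apply (v : HeightOneSpectrum R) (I : (FractionalIdeal R⁰ K)ˣ) :
    Multiplicative.toAdd (cnt v I) = count K v (I : FractionalIdeal R⁰ K) := rfl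

/-- a fractional ideal all of whose orders are divisible by `n` is an `n`-th power. -/
theorem exists_pow_eq (n : ℕ) (hn : 0 < n) (A : (FractionalIdeal R⁰ K)ˣ)
    (h : ∀ v : HeightOneSpectrum R, (n : ℤ) ∣ count K v (A : FractionalIdeal R⁰ K)) :
    ∃ B : (FractionalIdeal R⁰ K)ˣ, B ^ n = A := by
  classical
  set B₀ : FractionalIdeal R⁰ K := ∏ᶠ v : HeightOneSpectrum R,
    (v.asIdeal : FractionalIdeal R⁰ K) ^ (count K v (A : FractionalIdeal R⁰ K) / n) with hB₀
  have hfin : (Function.mulSupport fun v : HeightOneSpectrum R =>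
      (v.asIdeal : FractionalIdeal R⁰ K) ^ (count K v (A : FractionalIdeal R⁰ K) / n)).Finite := by
    refine (finite_factors (A : FractionalIdeal R⁰ K)).subset ?_
    intro v hv h0
    apply hv
    simp only [Set.mem_ofPred_eq] at h0
    simp [h0]
  have hpow : B₀ ^ n = (A : FractionalIdeal R⁰ K) := by
    rw [hB₀, finprod_pow hfin]
    conv_rhs => rw [← finprod_heightOneSpectrum_factorization' K A.ne_zero]
    refine finprod_congr fun v => ?_
    rw [← zpow_natCast, ← zpow_mul, Int.ediv_mul_cancel (h v)]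
  have hB0 : B₀ ≠ 0 := by
    intro h0
    rw [h0, zero_pow hn.ne'] at hpow
    exact A.ne_zero hpow.symm
  exact ⟨Units.mk0 B₀ hB0, Units.ext (by simpa using hpow)⟩

/-- a prime as an invertible fractional ideal -/
def pU (v : HeightOneSpectrum R) : (FractionalIdeal R⁰ K)ˣ :=
  FractionalIdeal.mk0 K ⟨v.asIdeal, mem_nonZeroDivisors_of_ne_zero v.ne_bot⟩

theorem mk_pU (v : HeightOneSpectrum R) : ClassGroup.mk K (pU (K := K) v) = clsOf v :=
  ClassGroup.mk_mk0 K _

theorem cnt_pU_self (v : HeightOneSpectrum R) : cnt v (pU (K := K) v) = Multiplicative.ofAdd 1 := by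
  change Multiplicative.ofAdd (count K v (v.asIdeal : FractionalIdeal R⁰ K)) = _
  rw [count_self]

theorem cnt_pU_ne (v w : HeightOneSpectrum R) (h : w ≠ v) : cnt v (pU (K := K) w) = 1 := by
  change Multiplicative.ofAdd (count K v (w.asIdeal : FractionalIdeal R⁰ K)) = _
  rw [count_maximal_coprime K v h]
  rfl

variable (K) (T : Set (HeightOneSpectrum R)) [Fintype T]

/-- `e ↦ ∏_{v ∈ T} v ^ e_v` -/
def UU : (T → Multiplicative ℤ) →* (FractionalIdeal R⁰ K)ˣ where
  toFun e := ∏ v : T, pU (K := K) (v : HeightOneSpectrum R) ^ (Multiplicative.toAdd (e v))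
  map_one' := by simp
  map_mul' e f := by
    simp only [Pi.mul_apply, toAdd_mul, zpow_add, Finset.prod_mul_distrib]

theorem UU_apply (e : T → Multiplicative ℤ) :
    UU K T e = ∏ v : T, pU (K := K) (v : HeightOneSpectrum R) ^ (Multiplicative.toAdd (e v)) := rfl

theorem cnt_UU_mem (e : T → Multiplicative ℤ) (w : T) :
    cnt (w : HeightOneSpectrum R) (UU K T e) = e w := by
  classical
  rw [UU_apply, map_prod, Finset.prod_eq_single w]
  · rw [map_zpow, cnt_pU_self, ← ofAdd_zsmul, smul_eq_mul, mul_one, ofAdd_toAdd]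
  · intro v _ hv
    rw [map_zpow, cnt_pU_ne _ _ (fun h => hv (Subtype.ext h)), one_zpow]
  · intro h
    exact absurd (Finset.mem_univ w) h

theorem cnt_UU_not_mem (e : T → Multiplicative ℤ) (w : HeightOneSpectrum R) (hw : w ∉ T) :
    cnt w (UU K T e) = 1 := by
  rw [UU_apply, map_prod]
  refine Finset.prod_eq_one fun v _ => ?_
  have hvw : (v : HeightOneSpectrum R) ≠ w := fun h => hw (h ▸ v.2)
  rw [map_zpow, cnt_pU_ne _ _ hvw, one_zpow]

/-- `e ↦ ∏_{v ∈ T} [v] ^ e_v` -/
def Psi0 : (T → Multiplicative ℤ) →* ClassGroup R := (ClassGroup.mk K).comp (UU K T)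

theorem Psi0_apply (e : T → Multiplicative ℤ) :
    Psi0 K T e = ∏ v : T, clsOf (v : HeightOneSpectrum R) ^ (Multiplicative.toAdd (e v)) := by
  simp only [Psi0, MonoidHom.comp_apply, UU_apply, map_prod, map_zpow, mk_pU]

/-- reduction mod `n` -/
def rho (n : ℕ) : (T → Multiplicative ℤ) →* (T → Multiplicative (ZMod n)) :=
  MonoidHom.compLeft (AddMonoidHom.toMultiplicative (Int.castAddHom (ZMod n))) T

theorem rho_apply (n : ℕ) (e : T → Multiplicative ℤ) (v : T) :
    rho T n e v = Multiplicative.ofAdd ((Multiplicative.toAdd (e v) : ℤ) : ZMod n) := rfl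

theorem rho_surjective (n : ℕ) : Function.Surjective (rho T n) := by
  intro f
  choose g hg using fun v : T => ZMod.intCast_surjective (Multiplicative.toAdd (f v))
  refine ⟨fun v => Multiplicative.ofAdd (g v), funext fun v => ?_⟩
  rw [rho_apply, toAdd_ofAdd, hg, ofAdd_toAdd]

theorem mem_range_val_iff (n : ℕ) (hn : 0 < n) (e : T → Multiplicative ℤ) :
    rho T n e ∈ (selmerGroup.valuation (R := R) (K := K) (S := T) (n := n)).range ↔
      Psi0 K T e ∈ (powMonoidHom n : ClassGroup R →* ClassGroup R).range := by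
  constructor
  · rintro ⟨⟨x, hx⟩, hxe⟩
    induction x using QuotientGroup.induction_on with
    | H y =>
    -- the ideal `(y) * U_e`
    have hdiv : ∀ w : HeightOneSpectrum R, (n : ℤ) ∣
        count K w ((toPrincipalIdeal R K y * UU K T e : (FractionalIdeal R⁰ K)ˣ) :
          FractionalIdeal R⁰ K) := by
      intro w
      rw [← cnt_apply, map_mul, toAdd_mul, cnt_apply, coe_toPrincipalIdeal, count_spanSingleton]
      by_cases hw : w ∈ T
      · have h1 := congrFun hxe ⟨w, hw⟩
        change w.valuationOfNeZeroMod n (QuotientGroup.mk y) = _ at h1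
        rw [valMod_mk, rho_apply] at h1
        have h2 := Multiplicative.ofAdd.injective h1
        rw [cnt_UU_mem K T e ⟨w, hw⟩]
        rw [ZMod.intCast_eq_intCast_iff_dvd_sub] at h2
        simpa [neg_add_eq_sub] using h2
      · have h1 := hx w hw
        rw [valMod_mk] at h1
        have h2 : ((Multiplicative.toAdd (w.valuationOfNeZero y) : ℤ) : ZMod n) = 0 :=
          Multiplicative.ofAdd.injective h1
        rw [ZMod.intCast_zmod_eq_zero_iff_dvd] at h2
        rw [cnt_UU_not_mem K T e w hw]
        simpa using h2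
    obtain ⟨B, hB⟩ := exists_pow_eq n hn _ hdiv
    refine ⟨ClassGroup.mk K B, ?_⟩
    rw [powMonoidHom_apply, ← map_pow, hB, map_mul, Psi0, MonoidHom.comp_apply]
    have : ClassGroup.mk K (toPrincipalIdeal R K y) = 1 := by
      rw [ClassGroup.mk_eq_one_iff, coe_toPrincipalIdeal, coe_spanSingleton]
      exact ⟨⟨_, rfl⟩⟩
    rw [this, one_mul]
  · rintro ⟨c, hc⟩
    obtain ⟨J, rfl⟩ : ∃ J : (FractionalIdeal R⁰ K)ˣ, ClassGroup.mk K J = c :=
      ClassGroup.induction K (P := fun c => ∃ J : (FractionalIdeal R⁰ K)ˣ, ClassGroup.mk K J = c)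
        (fun I => ⟨I, rfl⟩) c
    rw [powMonoidHom_apply, Psi0, MonoidHom.comp_apply, ← map_pow] at hc
    have h1 : ClassGroup.mk K (UU K T e * (J ^ n)⁻¹) = 1 := by
      rw [map_mul, map_inv, hc, mul_inv_cancel]
    rw [ClassGroup.mk_eq_one_iff] at h1
    obtain ⟨y, hy⟩ := (FractionalIdeal.isPrincipal_iff _).mp h1
    have hy0 : y ≠ 0 := by
      rintro rfl
      rw [spanSingleton_zero] at hy
      exact Units.ne_zero _ hy
    -- valuations of `y`
    have hval : ∀ w : HeightOneSpectrum R,
        Multiplicative.toAdd (w.valuationOfNeZero (Units.mk0 y hy0)⁻¹) =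
          Multiplicative.toAdd (cnt w (UU K T e)) - n * Multiplicative.toAdd (cnt w J) := by
      intro w
      have h2 := count_spanSingleton w (Units.mk0 y hy0)
      rw [Units.val_mk0, ← hy, ← cnt_apply, map_mul, map_inv, map_pow] at h2
      rw [map_inv, toAdd_inv, ← h2]
      simp [sub_eq_add_neg]
    refine ⟨⟨QuotientGroup.mk (Units.mk0 y hy0)⁻¹, ?_⟩, ?_⟩
    · intro w hw
      rw [valMod_mk, hval, cnt_UU_not_mem K T e w hw]
      simp
    · funext w
      change (w : HeightOneSpectrum R).valuationOfNeZeroMod n (QuotientGroup.mk _) = _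
      rw [valMod_mk, hval, cnt_UU_mem K T e w, rho_apply]
      simp

theorem range_Psi0 : (Psi0 K T).range = Subgroup.closure (clsOf '' T) := by
  classical
  apply le_antisymm
  · rintro _ ⟨e, rfl⟩
    rw [Psi0_apply]
    exact Subgroup.prod_mem _ fun v _ =>
      Subgroup.zpow_mem _ (Subgroup.subset_closure (Set.mem_image_of_mem clsOf v.2)) _
  · rw [Subgroup.closure_le]
    rintro _ ⟨v, hv, rfl⟩
    refine ⟨Pi.mulSingle (⟨v, hv⟩ : T) (Multiplicative.ofAdd 1), ?_⟩
    rw [Psi0_apply, Finset.prod_eq_single (⟨v, hv⟩ : T)]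
    · simp
    · intro w _ hw
      rw [Pi.mulSingle_eq_of_ne hw]
      simp
    · intro h
      exact absurd (Finset.mem_univ _) h

end Fermat.Agent.CFT.GN.K3c

namespace Fermat.Agent.CFT.GN

open IsDedekindDomain K3c

theorem k3c : Stmt_K3c := by
  intro R K _ _ _ _ _ _ T hT n hn
  have : Fintype T := hT.fintype
  set val := selmerGroup.valuation (R := R) (K := K) (S := T) (n := n) with hval
  set N := (powMonoidHom n : ClassGroup R →* ClassGroup R).range with hN
  -- (1), (2)
  have h1 : Nat.card (selmerGroup (R := R) (K := K) (S := T) (n := n)) =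
      Nat.card (selmerGroup (R := R) (K := K) (S := ∅) (n := n)) * Nat.card val.range := by
    rw [← Subgroup.card_mul_index val.ker, Subgroup.index_ker, hval, selmerGroup.valuation_ker_eq]
    congr 1
    exact Nat.card_congr
      (Subgroup.subgroupOfEquivOfLe (selmerGroup.monotone (Set.empty_subset T))).toEquiv
  -- (3)
  have h3 : Nat.card val.range * val.range.index = n ^ T.ncard := by
    rw [Subgroup.card_mul_index, Nat.card_fun, Nat.card_coe_set_eq]
    congr 1
    rw [Nat.card_congr Multiplicative.toAdd, Nat.card_zmod]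
  -- (4)
  set Psi := (QuotientGroup.mk' N).comp (Psi0 K T) with hPsi
  have h4 : val.range.index = Nat.card Psi.range := by
    rw [← Subgroup.index_comap_of_surjective _ (rho_surjective T n), ← Subgroup.index_ker]
    congr 1
    ext e
    rw [Subgroup.mem_comap, mem_range_val_iff K T n hn, MonoidHom.mem_ker, hPsi,
      MonoidHom.comp_apply, QuotientGroup.mk'_apply, QuotientGroup.eq_one_iff]
  -- (5)
  have h5 : Nat.card Psi.range * (clTn T n).index = N.index := by
    have h6 : Psi.range.index = (clTn T n).index := by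
      rw [hPsi, ← MonoidHom.map_range, Subgroup.index_map, QuotientGroup.ker_mk', range_Psi0,
        (MonoidHom.range_eq_top.mpr (QuotientGroup.mk'_surjective N)), Subgroup.index_top, mul_one]
      rfl
    rw [← h6, Subgroup.card_mul_index]
    rfl
  rw [h1, ← h5, ← h3, h4]
  ring

end Fermat.Agent.CFT.GN
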