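/-
TEAM CFT -> S55, layer [GLOB-GN], task GN-CLS: divisors and the class group (`cls : Stmt_Cls`).
-/
import Fermat.Agent.CFT.GN.Interface
import Fermat.Agent.CFT.GN.K3c

set_option autoImplicit false
set_option linter.unusedSectionVars false

noncomputable section

namespace Fermat.Agent.CFT.GN

namespace Cls

open IsDedekindDomain FractionalIdeal K3c
open scoped nonZeroDivisors

variable {R K : Type} [CommRing R] [IsDedekindDomain R] [Field K] [Algebra R K] [IsFractionRing R K]

/-- an invertible fractional ideal is determined by its orders -/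
theorem ext_count {I J : (FractionalIdeal R⁰ K)ˣ}
    (h : ∀ v : HeightOneSpectrum R, count K v (I : FractionalIdeal R⁰ K) = count K v J) :
    I = J := by
  apply Units.ext
  rw [← finprod_heightOneSpectrum_factorization' K I.ne_zero,
    ← finprod_heightOneSpectrum_factorization' K J.ne_zero]
  exact finprod_congr fun v => by rw [h v]

variable (K) in
/-- the fractional ideal of a divisor -/
def divU (a : HeightOneSpectrum R →₀ ℤ) : (FractionalIdeal R⁰ K)ˣ :=
  a.prod fun v m => pU (K := K) v ^ m

theorem mk_divU (a : HeightOneSpectrum R →₀ ℤ) : ClassGroup.mk K (divU K a) = clsDiv a := by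
  unfold divU clsDiv
  rw [map_finsuppProd]
  refine Finsupp.prod_congr fun v _ => ?_
  rw [map_zpow, mk_pU]

theorem cnt_divU (a : HeightOneSpectrum R →₀ ℤ) (w : HeightOneSpectrum R) :
    cnt w (divU K a) = Multiplicative.ofAdd (a w) := by
  classical
  unfold divU
  rw [map_finsuppProd, Finsupp.prod]
  by_cases hw : w ∈ a.support
  · rw [Finset.prod_eq_single w]
    · rw [map_zpow, cnt_pU_self, ← ofAdd_zsmul, smul_eq_mul, mul_one]
    · intro v _ hv
      rw [map_zpow, cnt_pU_ne _ _ hv, one_zpow]
    · intro h
      exact absurd hw h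
  · rw [Finsupp.notMem_support_iff.mp hw]
    refine Finset.prod_eq_one fun v hv => ?_
    have hvw : v ≠ w := fun h => hw (h ▸ hv)
    rw [map_zpow, cnt_pU_ne _ _ hvw, one_zpow]

theorem count_divU (a : HeightOneSpectrum R →₀ ℤ) (w : HeightOneSpectrum R) :
    count K w (divU K a : FractionalIdeal R⁰ K) = a w := by
  have := cnt_divU (K := K) a w
  exact Multiplicative.ofAdd.injective this

/-- the divisor of an invertible fractional ideal -/
def divOf (I : (FractionalIdeal R⁰ K)ˣ) : HeightOneSpectrum R →₀ ℤ :=
  Finsupp.ofSupportFinite (fun v => count K v (I : FractionalIdeal R⁰ K))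
    (finite_factors (I : FractionalIdeal R⁰ K))

theorem divU_divOf (I : (FractionalIdeal R⁰ K)ˣ) : divU K (divOf I) = I := by
  apply ext_count
  intro v
  rw [count_divU]
  rfl

end Cls

open IsDedekindDomain FractionalIdeal K3c Cls
open scoped nonZeroDivisors

theorem cls : Stmt_Cls := by
  intro R K _ _ _ _ _
  refine ⟨fun c => ?_, fun a => ?_⟩
  · refine ClassGroup.induction (R := R) K (P := fun c => ∃ a, clsDiv a = c) (fun I => ?_) c
    exact ⟨divOf I, by rw [← mk_divU (K := K), divU_divOf]⟩
  · rw [← mk_divU (K := K)]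
    constructor
    · intro h
      have h1 : divU K a ∈ (toPrincipalIdeal R K).range := by
        rw [mem_principal_ideals_iff]
        obtain ⟨⟨x, hx⟩⟩ := ClassGroup.mk_eq_one_iff.mp h
        refine ⟨x, ?_⟩
        apply FractionalIdeal.coeToSubmodule_injective
        show ((spanSingleton R⁰ x : FractionalIdeal R⁰ K) : Submodule R K) = _
        rw [coe_spanSingleton]
        exact hx.symm
      obtain ⟨x, hx⟩ := h1
      refine ⟨x, fun v => ?_⟩
      have h2 := count_spanSingleton v x
      rw [← coe_toPrincipalIdeal, hx, count_divU] at h2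
      rw [h2, neg_neg, ofAdd_toAdd]
    · rintro ⟨x, hx⟩
      have h1 : divU K a = toPrincipalIdeal R K x := by
        apply ext_count
        intro v
        rw [count_divU, coe_toPrincipalIdeal, count_spanSingleton, hx v, toAdd_ofAdd, neg_neg]
      rw [h1, ClassGroup.mk_eq_one_iff, coe_toPrincipalIdeal, coe_spanSingleton]
      exact ⟨⟨_, rfl⟩⟩

end Fermat.Agent.CFT.GN
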