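import Fermat.Agent.CFT.GN.Interface
import Fermat.Agent.S13.Minkowski

/-!
# CFT, layer [GLOB-GN], (DICT-D): `Gal(ℚ̄/k)` permutes transitively the valuation subrings of `ℚ̄`
over a prime of `k`.
-/

set_option autoImplicit false

namespace Fermat.Agent.CFT.GN

open IsDedekindDomain NumberField
open Fermat.Agent.S54.Frob95 Fermat.Agent.S13.Mink
open scoped Pointwise

namespace DictD

/-- a prime ideal containing a nonzero natural number contains a prime number. -/
theorem exists_prime_mem {R : Type*} [CommRing R] (I : Ideal R) [hI : I.IsPrime] (m : ℕ)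
    (hm : m ≠ 0) (hmI : (m : R) ∈ I) : ∃ l : ℕ, l.Prime ∧ (l : R) ∈ I := by
  induction m using Nat.recOnMul with
  | zero => exact absurd rfl hm
  | one =>
    exfalso
    apply hI.ne_top
    rw [Ideal.eq_top_iff_one]
    simpa using hmI
  | prime p hp => exact ⟨p, hp, hmI⟩
  | mul a b iha ihb =>
    rw [Nat.cast_mul] at hmI
    rcases hI.mem_or_mem hmI with h | h
    · exact iha (by rintro rfl; simp at hm) h
    · exact ihb (by rintro rfl; simp at hm) h

/-- generalisation of `map_mem_of_stabilizer`. -/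
theorem map_mem_of_smul_eq (V V' : ValuationSubring (AlgebraicClosure ℚ)) {l : ℕ}
    (hl : l.Prime) (hlV : (l : AlgebraicClosure ℚ) ∈ V.nonunits) (τ : GQ)
    (hτ : τ • primeOf V = primeOf V') (x : AlgebraicClosure ℚ) (hx : x ∈ V) : τ x ∈ V' := by
  obtain ⟨s, hs, hsu, hsx⟩ := exists_unit_mul_isIntegral V hl hlV x hx
  have hτs : τ s ∉ V'.nonunits := by
    intro h
    apply hsu
    have h1 : τ • (⟨s, hs⟩ : Zbar) ∈ τ • primeOf V := by
      rw [hτ, mem_primeOf]
      exact h
    rw [Ideal.smul_mem_pointwise_smul_iff, mem_primeOf] at h1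
    exact h1
  have hτs1 : V'.valuation (τ s) = 1 :=
    val_eq_one V' (mem_of_isIntegral V' (map_isIntegral_int τ hs)) hτs
  have h2 : τ s * τ x ∈ V' := by
    rw [← map_mul]
    exact mem_of_isIntegral V' (map_isIntegral_int τ hsx)
  rw [← ValuationSubring.valuation_le_one_iff] at h2 ⊢
  rwa [map_mul, hτs1, one_mul] at h2

/-- a valuation subring over a prime of `k` lies over a rational prime. -/
theorem exists_prime_of_over {k : IF} [NumberField k] {A : ValuationSubring Qb}
    {v : HeightOneSpectrum (𝓞 k)} (hA : Over A v) :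
    ∃ l : ℕ, l.Prime ∧ (l : Qb) ∈ A.nonunits := by
  have h1 : ((Ideal.absNorm v.asIdeal : ℕ) : 𝓞 k) ∈ v.asIdeal := Ideal.absNorm_mem _
  have h0 : Ideal.absNorm v.asIdeal ≠ 0 := by
    rw [Ne, Ideal.absNorm_eq_zero_iff]
    exact v.ne_bot
  have := v.isPrime
  obtain ⟨l, hl, hlv⟩ := exists_prime_mem v.asIdeal _ h0 h1
  refine ⟨l, hl, ?_⟩
  have := (hA (l : 𝓞 k)).1 hlv
  simpa using this

/-- the primes of `Zbar` cut out by two valuation subrings over `v` agree on the integers fixed by
`Gal(ℚ̄/k)`. -/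
theorem under_eq {k : IF} [NumberField k] {A A' : ValuationSubring Qb}
    {v : HeightOneSpectrum (𝓞 k)} (hA : Over A v) (hA' : Over A' v) :
    (primeOf A).under (OH k.fixingSubgroup) = (primeOf A').under (OH k.fixingSubgroup) := by
  ext a
  rw [Ideal.mem_comap, Ideal.mem_comap]
  change (a : Zbar) ∈ primeOf A ↔ (a : Zbar) ∈ primeOf A'
  rw [mem_primeOf, mem_primeOf]
  -- `a` lies in `k`
  have hak : (((a : Zbar) : Qb)) ∈ k := by
    have hmem : (((a : Zbar) : Qb)) ∈ IntermediateField.fixedField k.fixingSubgroup := by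
      rw [IntermediateField.mem_fixedField_iff]
      intro g hg
      exact congrArg Subtype.val (a.2 ⟨g, hg⟩)
    rwa [InfiniteGalois.fixedField_fixingSubgroup k] at hmem
  have hint : IsIntegral ℤ (⟨((a : Zbar) : Qb), hak⟩ : k) := by
    have h1 : IsIntegral ℤ (((a : Zbar) : Qb)) := (a : Zbar).2
    exact (isIntegral_algebraMap_iff (algebraMap k Qb).injective).1 h1
  let x : 𝓞 k := ⟨⟨((a : Zbar) : Qb), hak⟩, hint⟩
  exact (hA x).symm.trans (hA' x)

end DictD

open DictD in
theorem dictD : Stmt_DictD := by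
  intro k _ A A' v hA hA'
  have hclosed : IsClosed (k.fixingSubgroup : Set GQ) := k.fixingSubgroup_isClosed
  have : CompactSpace k.fixingSubgroup := isCompact_iff_compactSpace.mp hclosed.isCompact
  obtain ⟨h, hh⟩ := Algebra.IsInvariant.exists_smul_of_under_eq_of_profinite
    (A := OH k.fixingSubgroup) (G := k.fixingSubgroup) (primeOf A) (primeOf A') (under_eq hA hA')
  have hh' : (h : GQ) • primeOf A = primeOf A' := hh.symm
  have hinv : (h : GQ)⁻¹ • primeOf A' = primeOf A := by
    rw [← hh', ← ideal_mul_smul, inv_mul_cancel]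
    exact (Ideal.pointwiseDistribMulAction (M := GQ) (R := Zbar)).one_smul _
  obtain ⟨l, hl, hlA⟩ := exists_prime_of_over hA
  obtain ⟨l', hl', hlA'⟩ := exists_prime_of_over hA'
  refine ⟨h, h.2, fun x => ⟨fun hx => ?_, fun hx => ?_⟩⟩
  · have := map_mem_of_smul_eq A' A hl' hlA' (h : GQ)⁻¹ hinv _ hx
    simpa using this
  · exact map_mem_of_smul_eq A A' hl hlA h hh' x hx

end Fermat.Agent.CFT.GN
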