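import Fermat.Agent.CFT.GN.Interface2
import Fermat.Agent.CFT.GN.DictAB
import Fermat.Agent.CFT.GN.DictD

/-!
# CFT, layer [GLOB-GN], (DC), (DC'): orbits of a decomposition group on `G_ℚ/Gal(ℚ̄/k)` and primes
of `k` over `q` (helper70)
-/

set_option autoImplicit false

namespace Fermat.Agent.CFT.GN

open IsDedekindDomain NumberField
open Fermat.Agent.S54.Frob95 Fermat.Agent.S13.Mink
open scoped Pointwise

namespace DC

/-- counting through two surjections with the same fibres -/
theorem card_eq_of_surj {α β γ : Type*} (π : α → β) (Φ : α → γ) (hπ : Function.Surjective π)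
    (hΦ : Function.Surjective Φ) (h : ∀ a a', π a = π a' ↔ Φ a = Φ a') :
    Nat.card β = Nat.card γ := by
  have hker : Setoid.ker π = Setoid.ker Φ := by
    ext a a'
    exact h a a'
  have e1 := Setoid.quotientKerEquivOfSurjective π hπ
  have e2 := Setoid.quotientKerEquivOfSurjective Φ hΦ
  rw [← Nat.card_congr e1, ← Nat.card_congr e2, hker]

theorem mem_nonunits_iff' {L : Type*} [Field L] (A : ValuationSubring L) (x : L) :
    x ∈ A.nonunits ↔ x = 0 ∨ x⁻¹ ∉ A := by
  rw [ValuationSubring.mem_nonunits_iff]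
  rcases eq_or_ne x 0 with rfl | hx
  · simp
  · rw [← ValuationSubring.valuation_le_one_iff, map_inv₀, or_iff_right hx,
      inv_le_one₀ (zero_lt_iff.mpr ((Valuation.ne_zero_iff _).mpr hx)), not_le]

/-- `g⁻¹ • A` -/
noncomputable def cm (A : ValuationSubring Qb) (g : GQ) : ValuationSubring Qb :=
  A.comap (g : Qb ≃ₐ[ℚ] Qb).toAlgHom.toRingHom

theorem mem_cm (A : ValuationSubring Qb) (g : GQ) (x : Qb) : x ∈ cm A g ↔ g x ∈ A := Iff.rfl

theorem mem_nonunits_of_iff {A A' : ValuationSubring Qb} {g : GQ}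
    (h : ∀ x : Qb, g x ∈ A' ↔ x ∈ A) (x : Qb) : g x ∈ A'.nonunits ↔ x ∈ A.nonunits := by
  rw [mem_nonunits_iff', mem_nonunits_iff', ← map_inv₀, h]
  simp

theorem mem_nonunits_cm (A : ValuationSubring Qb) (g : GQ) (x : Qb) :
    x ∈ (cm A g).nonunits ↔ g x ∈ A.nonunits :=
  (mem_nonunits_of_iff (A := cm A g) (A' := A) (g := g) (fun _ => Iff.rfl) x).symm

theorem mem_decomp_iff (A : ValuationSubring Qb) (d : GQ) :
    d ∈ A.decompositionSubgroup ℚ ↔ ∀ x : Qb, d x ∈ A ↔ x ∈ A := by
  constructor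
  · intro hd x
    have hd' : d • A = A := MulAction.mem_stabilizer_iff.mp hd
    constructor
    · intro hx
      have h1 : d • x ∈ d • A := by rw [hd']; exact hx
      exact (ValuationSubring.smul_mem_pointwise_smul_iff).mp h1
    · intro hx
      have h1 : d • x ∈ d • A := ValuationSubring.smul_mem_pointwise_smul d x A hx
      rw [hd'] at h1
      exact h1
  · intro h
    show d ∈ MulAction.stabilizer _ A
    rw [MulAction.mem_stabilizer_iff]
    apply le_antisymm
    · rw [ValuationSubring.pointwise_smul_subset_iff]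
      intro x hx
      rw [ValuationSubring.mem_inv_pointwise_smul_iff]
      exact (h x).mpr hx
    · intro x hx
      rw [ValuationSubring.mem_pointwise_smul_iff_inv_smul_mem]
      apply (h _).mp
      show d (d⁻¹ x) ∈ A
      have : d (d⁻¹ x) = x := by
        show (d * d⁻¹) x = x
        rw [mul_inv_cancel]
        rfl
      rw [this]
      exact hx

theorem intCast_mem_nonunits_iff (A : ValuationSubring Qb) {q : ℕ} (hq : q.Prime)
    (hA : (q : Qb) ∈ A.nonunits) (n : ℤ) : (n : Qb) ∈ A.nonunits ↔ (q : ℤ) ∣ n := by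
  constructor
  · intro h
    by_contra hcon
    exact intCast_not_mem_nonunits A hq hA hcon h
  · rintro ⟨m, rfl⟩
    push_cast
    exact mul_mem_nonunits A hA (intCast_mem A m)

set_option synthInstance.maxHeartbeats 400000 in
/-- `G_ℚ` permutes transitively the valuation subrings of `ℚ̄` over `q`. -/
theorem exists_conj (A A' : ValuationSubring Qb) {q : ℕ} (hq : q.Prime)
    (hA : (q : Qb) ∈ A.nonunits) (hA' : (q : Qb) ∈ A'.nonunits) :
    ∃ h : GQ, ∀ x : Qb, h x ∈ A' ↔ x ∈ A := by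
  have hunder : (primeOf A).under ℤ = (primeOf A').under ℤ := by
    ext n
    rw [Ideal.mem_comap, Ideal.mem_comap, mem_primeOf, mem_primeOf]
    have h1 : ((algebraMap ℤ Zbar n : Zbar) : Qb) = (n : Qb) := by simp
    rw [h1, intCast_mem_nonunits_iff A hq hA, intCast_mem_nonunits_iff A' hq hA']
  obtain ⟨h, hh⟩ := Algebra.IsInvariant.exists_smul_of_under_eq_of_profinite
    (A := ℤ) (G := GQ) (primeOf A) (primeOf A') hunder
  have hh' : h • primeOf A = primeOf A' := hh.symm
  have hinv : h⁻¹ • primeOf A' = primeOf A := by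
    rw [← hh', ← ideal_mul_smul, inv_mul_cancel]
    exact (Ideal.pointwiseDistribMulAction (M := GQ) (R := Zbar)).one_smul _
  refine ⟨h, fun x => ⟨fun hx => ?_, fun hx => ?_⟩⟩
  · have := DictD.map_mem_of_smul_eq A' A hq hA' h⁻¹ hinv _ hx
    simpa using this
  · exact DictD.map_mem_of_smul_eq A A' hq hA h hh' x hx

theorem over_unique {k : IF} [NumberField k] {A : ValuationSubring Qb}
    {v v' : HeightOneSpectrum (𝓞 k)} (h : Over A v) (h' : Over A v') : v = v' := by
  apply HeightOneSpectrum.ext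
  ext x
  rw [h x, h' x]

theorem natCast_mem_of_over {k : IF} [NumberField k] {A : ValuationSubring Qb}
    {v : HeightOneSpectrum (𝓞 k)} (h : Over A v) (q : ℕ) :
    (q : 𝓞 k) ∈ v.asIdeal ↔ (q : Qb) ∈ A.nonunits := by
  rw [h (q : 𝓞 k)]
  simp

theorem over_cm_iff {k : IF} [NumberField k] (A : ValuationSubring Qb) (g : GQ)
    (v : HeightOneSpectrum (𝓞 k)) :
    Over (cm A g) v ↔ ∀ x : 𝓞 k, x ∈ v.asIdeal ↔ g (((x : k) : Qb)) ∈ A.nonunits := by
  unfold Over
  simp only [mem_nonunits_cm]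

end DC

open DC in
theorem dc (hA : Stmt_DictA) (hD : Stmt_DictD) : Stmt_DC := by
  intro k _ q hq A hAq
  have hAq' : (q : Qb) ∈ A.nonunits := hAq
  have hcmq : ∀ g : GQ, (cm A g).LiesOverPrime q := by
    intro g
    show (q : Qb) ∈ (cm A g).nonunits
    rw [mem_nonunits_cm, map_natCast]
    exact hAq'
  have hex : ∀ g : GQ, ∃ v : HeightOneSpectrum (𝓞 k), Over (cm A g) v := fun g =>
    (hA k).2.1 (cm A g) q hq (hcmq g)
  choose Φ₀ hΦ₀ using hex
  let Φ : GQ → {v : HeightOneSpectrum (𝓞 k) | (q : 𝓞 k) ∈ v.asIdeal} := fun g =>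
    ⟨Φ₀ g, (natCast_mem_of_over (hΦ₀ g) q).mpr (hcmq g)⟩
  let π : GQ → MulAction.orbitRel.Quotient (A.decompositionSubgroup ℚ) (GQ ⧸ k.fixingSubgroup) :=
    fun g => Quotient.mk'' (g : GQ ⧸ k.fixingSubgroup)
  rw [← Nat.card_coe_set_eq]
  refine card_eq_of_surj π Φ ?_ ?_ ?_
  · intro x
    induction x using Quotient.inductionOn' with
    | h y =>
      induction y using QuotientGroup.induction_on with
      | H g => exact ⟨g, rfl⟩
  · rintro ⟨v, hv⟩
    obtain ⟨A', hA'⟩ := (hA k).1 v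
    have hA'q : (q : Qb) ∈ A'.nonunits := (natCast_mem_of_over hA' q).mp hv
    obtain ⟨h, hh⟩ := exists_conj A' A hq hA'q hAq'
    refine ⟨h, Subtype.ext ?_⟩
    apply over_unique (hΦ₀ h)
    rw [over_cm_iff]
    intro x
    rw [hA' x, mem_nonunits_of_iff hh]
  · intro g g'
    constructor
    · intro hπ
      have h1 : (g : GQ ⧸ k.fixingSubgroup) ∈
          MulAction.orbit (A.decompositionSubgroup ℚ) (g' : GQ ⧸ k.fixingSubgroup) :=
        Quotient.exact' hπ
      obtain ⟨d, hd⟩ := MulAction.mem_orbit_iff.mp h1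
      have h2 : (((d : GQ) * g' : GQ) : GQ ⧸ k.fixingSubgroup) = (g : GQ ⧸ k.fixingSubgroup) := hd
      have h3 : ((d : GQ) * g')⁻¹ * g ∈ k.fixingSubgroup := QuotientGroup.eq.mp h2
      apply Subtype.ext
      apply over_unique (hΦ₀ g)
      rw [over_cm_iff]
      intro x
      have h4 := (over_cm_iff A g' _).mp (hΦ₀ g') x
      rw [h4]
      -- `g x = d (g' x)` for `x ∈ k`
      have h5 : (((d : GQ) * g')⁻¹ * g) (((x : k) : Qb)) = (((x : k) : Qb)) :=
        (IntermediateField.mem_fixingSubgroup_iff k _).mp h3 _ (x : k).2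
      have h6 : g (((x : k) : Qb)) = (d : GQ) (g' (((x : k) : Qb))) := by
        have h7 : ((d : GQ) * g') ((((d : GQ) * g')⁻¹ * g) (((x : k) : Qb)))
            = g (((x : k) : Qb)) := by
          show (((d : GQ) * g') * (((d : GQ) * g')⁻¹ * g)) (((x : k) : Qb)) = _
          rw [mul_inv_cancel_left]
        rw [← h7, h5]
        rfl
      rw [h6, mem_nonunits_of_iff ((mem_decomp_iff A d).mp d.2)]
    · intro hΦ
      have hv : Φ₀ g = Φ₀ g' := congrArg Subtype.val hΦ
      have h1 := hΦ₀ g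
      rw [hv] at h1
      obtain ⟨u, hu, huA⟩ := hD k (cm A g) (cm A g') (Φ₀ g') h1 (hΦ₀ g')
      have hd : g' * u * g⁻¹ ∈ A.decompositionSubgroup ℚ := by
        rw [mem_decomp_iff]
        intro y
        have h2 := huA (g⁻¹ y)
        rw [mem_cm, mem_cm] at h2
        have h3 : g (g⁻¹ y) = y := by
          show (g * g⁻¹) y = y
          rw [mul_inv_cancel]
          rfl
        rw [h3] at h2
        exact h2
      apply Eq.symm
      apply Quotient.sound'
      show (g' : GQ ⧸ k.fixingSubgroup) ∈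
          MulAction.orbit (A.decompositionSubgroup ℚ) (g : GQ ⧸ k.fixingSubgroup)
      rw [MulAction.mem_orbit_iff]
      refine ⟨⟨_, hd⟩, ?_⟩
      show (((g' * u * g⁻¹) * g : GQ) : GQ ⧸ k.fixingSubgroup) = (g' : GQ ⧸ k.fixingSubgroup)
      rw [QuotientGroup.eq]
      have : (g' * u * g⁻¹ * g)⁻¹ * g' = u⁻¹ := by group
      rw [this]
      exact inv_mem hu

open DC in
theorem dc' : Stmt_DC' := by
  classical
  intro k _ S
  have hfin : ∀ q : Nat.Primes,
      {v : HeightOneSpectrum (𝓞 k) | ((q : ℕ) : 𝓞 k) ∈ v.asIdeal}.Finite := by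
    intro q
    refine ((dictA k).2.2.2 {q}).subset ?_
    intro v hv
    exact ⟨q, Finset.mem_singleton_self q, hv⟩
  have hTS : TS S k = ↑(S.biUnion fun q => (hfin q).toFinset) := by
    ext v
    simp only [TS, Set.mem_ofPred_eq, Finset.coe_biUnion, Set.Finite.coe_toFinset, Set.mem_iUnion,
      Finset.mem_coe, exists_prop]
  rw [hTS, Set.ncard_coe_finset, Finset.card_biUnion]
  · refine Finset.sum_congr rfl fun q _ => ?_
    rw [Set.ncard_eq_toFinset_card _ (hfin q)]
  · intro q _ q' _ hne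
    show Disjoint (hfin q).toFinset (hfin q').toFinset
    rw [Finset.disjoint_left]
    intro v hv hv'
    rw [Set.Finite.mem_toFinset, Set.mem_ofPred_eq] at hv hv'
    have hcop : Nat.Coprime (q : ℕ) (q' : ℕ) :=
      (Nat.coprime_primes q.2 q'.2).mpr (fun h => hne (Subtype.ext h))
    obtain ⟨a, b, hab⟩ := Nat.isCoprime_iff_coprime.mpr hcop
    have h1 : (1 : 𝓞 k) ∈ v.asIdeal := by
      have h2 : ((a : 𝓞 k)) * ((q : ℕ) : 𝓞 k) + (b : 𝓞 k) * ((q' : ℕ) : 𝓞 k) = 1 := by
        exact_mod_cast congrArg (Int.cast : ℤ → 𝓞 k) hab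
      rw [← h2]
      exact v.asIdeal.add_mem (v.asIdeal.mul_mem_left _ hv) (v.asIdeal.mul_mem_left _ hv')
    exact v.isPrime.ne_top ((Ideal.eq_top_iff_one _).mpr h1)

end Fermat.Agent.CFT.GN
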