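/-
TEAM CFT -> S55, layer [GLOB-GN] (sub-lead helper56).  Second interface file:
general Hilbert 90 for level cocycles, de-inflation (from all levels to `S`-levels), the shape of the
Hasse principle consumed by GN, and the double coset dictionary (DC).
-/
import Fermat.Agent.CFT.GN.Interface

set_option autoImplicit false

noncomputable section

namespace Fermat.Agent.CFT.GN

open IsDedekindDomain NumberField Fermat.Agent.CFT.Top

/-- A class of finite subextensions of `ℚ̄/ℚ` closed under composita and normal closures. -/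
structure FieldClass (P : IF → Prop) : Prop where
  fin : ∀ F, P F → FiniteDimensional ℚ F
  sup : ∀ F F', P F → P F' → P (F ⊔ F')
  nc : ∀ F, P F → ∃ F', F ≤ F' ∧ P F' ∧ Normal ℚ F'

/-- (H90gen) Hilbert 90 for `P`-level cocycles `Gal(ℚ̄/k) → (⋃_{P F} F)ˣ`. -/
def Stmt_H90gen : Prop :=
  ∀ (P : IF → Prop), FieldClass P → ∀ k : IF, P k → ∀ c : k.fixingSubgroup → Qbˣ,
    (∃ F, P F ∧ ∀ g s : k.fixingSubgroup, (s : GQ) ∈ F.fixingSubgroup → c (g * s) = c g) →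
    (∀ g, ∃ F, P F ∧ (c g : Qb) ∈ F) →
    (∀ g h : k.fixingSubgroup, (c (g * h) : Qb) = (c g : Qb) * (g : GQ) (c h : Qb)) →
    ∃ θ : Qbˣ, (∃ F, P F ∧ (θ : Qb) ∈ F) ∧ ∀ g : k.fixingSubgroup, (g : GQ) (θ : Qb) = θ * (c g : Qb)

/-- the `S`-version follows from the general one. -/
theorem h90_of_gen (h : Stmt_H90gen) (hN : Stmt_NC) : Stmt_H90 := by
  intro S k hk c hc hv hcoc
  obtain ⟨θ, hθ, h2⟩ := h (fun F => F.IsUnramifiedOutside S)
    ⟨fun F hF => hF.1, fun F F' hF hF' => hF.sup hF', fun F hF => hN S F hF⟩ k hk c hc hv hcoc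
  exact ⟨θ, hθ, h2⟩

/-- `γ : U → ℚ̄ˣ` is a cochain of some finite level (not necessarily an `S`-level) with
`dγ = ζ^f`. -/
def IsSplitAll (p : ℕ) (k : IF) (ζ : Qb)
    (f : k.fixingSubgroup × k.fixingSubgroup → ZMod p) (γ : k.fixingSubgroup → Qbˣ) : Prop :=
  (∃ F : IF, FiniteDimensional ℚ F ∧
    ∀ g s : k.fixingSubgroup, (s : GQ) ∈ F.fixingSubgroup → γ (g * s) = γ g) ∧
    ∀ g h : k.fixingSubgroup,
      ζ ^ (f (g, h)).val * (γ (g * h) : Qb) = (γ g : Qb) * (g : GQ) (γ h : Qb)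

/-- (DEINF) injectivity of inflation `H²(Gal(M/k),Mˣ) → H²(G_k, ℚ̄ˣ)` in raw form. -/
def Stmt_Deinf : Prop :=
  ∀ (p : ℕ) (S : Finset Nat.Primes) (k : IF) (ζ : Qb), Base p S k ζ → ∀ f, IsZ2 p S k f →
    (∃ γ, IsSplitAll p k ζ f γ) → ∃ γ, IsSplit p S k ζ f γ

/-- (HPall) **the input from [GLOB-HP] + [LOC]**, weakest form: a locally trivial `S`-level
2-cocycle with values in `μ_p` splits in `ℚ̄ˣ` (i.e. its class in `Br(k)` vanishes). -/
def Stmt_HPall : Prop :=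
  ∀ (p : ℕ) (S : Finset Nat.Primes) (k : IF) (ζ : Qb), Base p S k ζ → ∀ f, IsZ2 p S k f →
    LocTriv p S k f → ∃ γ, IsSplitAll p k ζ f γ

theorem hpraw (h1 : Stmt_HPall) (h2 : Stmt_Deinf) : Stmt_HPraw :=
  fun p S k ζ hB f hf hl => h2 p S k ζ hB f hf (h1 p S k ζ hB f hf hl)

/-- (LTO) an `S`-level cocycle with values in `𝔽_p` is locally trivial at all places outside `S`
(`H²(ℤ̂, 𝔽_p) = 0`). -/
def Stmt_LTO : Prop :=
  ∀ (p : ℕ) (S : Finset Nat.Primes) (k : IF) (ζ : Qb), Base p S k ζ → ∀ f, IsZ2 p S k f →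
    ∀ q : Nat.Primes, q ∉ S → ∀ A : ValuationSubring Qb, A.LiesOverPrime (q : ℕ) →
    ∃ x : GQ → ZMod p,
      (∃ F : IF, FiniteDimensional ℚ F ∧ ∀ g s : GQ, s ∈ F.fixingSubgroup → x (g * s) = x g) ∧
      ∀ σ τ : k.fixingSubgroup, (σ : GQ) ∈ A.decompositionSubgroup ℚ →
        (τ : GQ) ∈ A.decompositionSubgroup ℚ →
        f (σ, τ) = x τ - x (σ * τ) + x σ

/-- (DC) orbits of a decomposition group on `G_ℚ/U` <-> primes of `k` over `q`. -/
def Stmt_DC : Prop :=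
  ∀ (k : IF) [NumberField k] (q : ℕ), q.Prime → ∀ A : ValuationSubring Qb, A.LiesOverPrime q →
    Nat.card (MulAction.orbitRel.Quotient (A.decompositionSubgroup ℚ) (GQ ⧸ k.fixingSubgroup)) =
      {v : HeightOneSpectrum (𝓞 k) | (q : 𝓞 k) ∈ v.asIdeal}.ncard

/-- (DC') `s = ∑_{q ∈ S} #{v ∣ q}`. -/
def Stmt_DC' : Prop :=
  ∀ (k : IF) [NumberField k] (S : Finset Nat.Primes),
    (TS S k).ncard = ∑ q ∈ S, {v : HeightOneSpectrum (𝓞 k) | ((q : ℕ) : 𝓞 k) ∈ v.asIdeal}.ncard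

end Fermat.Agent.CFT.GN

end
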