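/-
TEAM CFT -> S55, layer [GLOB-GN], task GN-DEINF (helper53): injectivity of the inflation
`H²(Gal(M/k),Mˣ) → H²(G_k, ℚ̄ˣ)` in raw form.
-/
import Fermat.Agent.CFT.GN.Interface2

set_option autoImplicit false

noncomputable section

namespace Fermat.Agent.CFT.GN

open IsDedekindDomain NumberField Fermat.Agent.CFT.Top

namespace Deinf

lemma isAlgebraic_Qb : Algebra.IsAlgebraic ℚ Qb := AlgebraicClosure.isAlgebraic ℚ

lemma normal_Qb : Normal ℚ Qb := by
  have : Algebra.IsAlgebraic ℚ (AlgebraicClosure ℚ) := AlgebraicClosure.isAlgebraic ℚ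
  have : IsAlgClosure ℚ (AlgebraicClosure ℚ) := ⟨inferInstance, inferInstance⟩
  exact IsAlgClosure.normal ℚ (AlgebraicClosure ℚ)

lemma isGalois_Qb : IsGalois ℚ Qb := by
  have := isAlgebraic_Qb
  have := normal_Qb
  exact ⟨⟩

attribute [local instance] isAlgebraic_Qb normal_Qb isGalois_Qb

lemma fieldClass_fd : FieldClass (fun F : IF => FiniteDimensional ℚ F) where
  fin := fun _ h => h
  sup := fun F F' h h' => by
    have := h
    have := h'
    exact IntermediateField.finiteDimensional_sup F F'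
  nc := fun F h => by
    have := h
    exact ⟨IntermediateField.normalClosure ℚ F Qb, F.le_normalClosure,
      normalClosure.is_finiteDimensional ℚ F Qb, normalClosure.normal ℚ F Qb⟩

lemma exists_fd_mem (x : Qb) : ∃ F : IF, FiniteDimensional ℚ F ∧ x ∈ F :=
  ⟨IntermediateField.adjoin ℚ {x},
    IntermediateField.adjoin.finiteDimensional (Algebra.IsIntegral.isIntegral x),
    IntermediateField.mem_adjoin_simple_self ℚ x⟩

lemma conj_mem_of_normal {M : IF} (hM : Normal ℚ M) (g n : GQ) (hn : n ∈ M.fixingSubgroup) :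
    g⁻¹ * n * g ∈ M.fixingSubgroup := by
  rw [IntermediateField.mem_fixingSubgroup_iff] at hn ⊢
  intro x hx
  have h1 : g x ∈ M := by
    have h := (IntermediateField.normal_iff_forall_map_le'.1 hM) g
    exact h ⟨x, hx, rfl⟩
  change g⁻¹ (n (g x)) = x
  rw [hn _ h1]
  exact g.symm_apply_apply x

lemma mem_of_fixed {M : IF} (x : Qb)
    (hx : ∀ n ∈ M.fixingSubgroup, n x = x) : x ∈ M := by
  have h1 : x ∈ IntermediateField.fixedField M.fixingSubgroup := by
    rw [IntermediateField.mem_fixedField_iff]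
    exact hx
  rwa [InfiniteGalois.fixedField_fixingSubgroup] at h1

end Deinf

open Deinf in
/-- **(DEINF)** -/
theorem deinf (h : Stmt_H90gen) (hN : Stmt_NC) : Stmt_Deinf := by
  intro p S k ζ hB f hf hγ'
  obtain ⟨γ', ⟨F1, hF1, hγl⟩, hγ⟩ := hγ'
  obtain ⟨⟨F0, hF0, hfl⟩, hcoc⟩ := hf
  obtain ⟨M, hM0, hM, hMn⟩ := hN S (k ⊔ F0) (hB.unr.sup hF0)
  have hkM : k ≤ M := le_sup_left.trans hM0
  have hF0M : F0 ≤ M := le_sup_right.trans hM0
  have hNU : M.fixingSubgroup ≤ k.fixingSubgroup := IntermediateField.fixingSubgroup_antitone hkM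
  have hNF0 : M.fixingSubgroup ≤ F0.fixingSubgroup :=
    IntermediateField.fixingSubgroup_antitone hF0M
  have hMfd : FiniteDimensional ℚ M := hM.1
  set c₀ : ZMod p := f (1, 1) with hc₀
  have h1j : ∀ j, f (1, j) = c₀ := by
    intro j
    have := hcoc 1 1 j
    simp only [one_mul] at this
    rw [hc₀]
    linear_combination this
  have hg1 : ∀ g, f (g, 1) = c₀ := by
    intro g
    have := hcoc g 1 1
    simp only [mul_one] at this
    rw [hc₀]
    linear_combination -this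
  have hζ0 : ζ ≠ 0 := hB.zeta.ne_zero hB.prime.ne_zero
  have hUζ : ∀ g : k.fixingSubgroup, (g : GQ) ζ = ζ := fun g =>
    (IntermediateField.mem_fixingSubgroup_iff k _).1 g.2 ζ hB.zeta_mem
  let z : Qbˣ := Units.mk0 (ζ ^ c₀.val) (pow_ne_zero _ hζ0)
  have hz : (z : Qb) = ζ ^ c₀.val := rfl
  have hUz : ∀ g : k.fixingSubgroup, (g : GQ) (z : Qb) = z := fun g => by
    rw [hz, map_pow, hUζ]
  let ι : M.fixingSubgroup → k.fixingSubgroup := fun n => ⟨n, hNU n.2⟩
  have hfgn : ∀ (g : k.fixingSubgroup) (n : M.fixingSubgroup), f (g, ι n) = c₀ := by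
    intro g n
    have := hfl g 1 1 (ι n) (one_mem _) (hNF0 n.2)
    rw [mul_one, one_mul] at this
    rw [this, hg1]
  have hfng : ∀ (g : k.fixingSubgroup) (n : M.fixingSubgroup), f (ι n, g) = c₀ := by
    intro g n
    have := hfl 1 g (ι n) 1 (hNF0 n.2) (one_mem _)
    rw [mul_one, one_mul] at this
    rw [this, h1j]
  -- Hilbert 90 over `M`
  obtain ⟨θ, -, hθ⟩ := h (fun F : IF => FiniteDimensional ℚ F) fieldClass_fd M hMfd
    (fun n => γ' (ι n) / z)
    ⟨F1, hF1, fun g s hs => by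
      have : γ' (ι g * ι s) = γ' (ι g) := hγl (ι g) (ι s) hs
      change γ' (ι g * ι s) / z = _
      rw [this]⟩
    (fun g => exists_fd_mem _)
    (fun g g' => by
      have h1 := hγ (ι g) (ι g')
      rw [hfgn, ← hz] at h1
      change ((γ' (ι g * ι g') / z : Qbˣ) : Qb) = _
      have h2 : (g : GQ) (z : Qb) = z := hUz (ι g)
      have hz0 : (z : Qb) ≠ 0 := z.ne_zero
      rw [Units.val_div_eq_div_val, Units.val_div_eq_div_val, Units.val_div_eq_div_val, map_div₀,
        h2]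
      have h3 : (γ' (ι g * ι g') : Qb) = (γ' (ι g) : Qb) * (g : GQ) (γ' (ι g') : Qb) / z := by
        rw [eq_div_iff hz0, mul_comm]
        exact h1
      rw [h3]
      field_simp)
  have hθ0 : ∀ g : GQ, g (θ : Qb) ≠ 0 := fun g => by
    rw [Ne, map_eq_zero]
    exact θ.ne_zero
  let γ : k.fixingSubgroup → Qbˣ := fun g =>
    Units.mk0 ((γ' g : Qb) * θ / (g : GQ) (θ : Qb))
      (div_ne_zero (mul_ne_zero (γ' g).ne_zero θ.ne_zero) (hθ0 _))
  have hγdef : ∀ g, (γ g : Qb) = (γ' g : Qb) * θ / (g : GQ) (θ : Qb) := fun _ => rfl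
  have hid : ∀ g g' : k.fixingSubgroup,
      ζ ^ (f (g, g')).val * (γ (g * g') : Qb) = (γ g : Qb) * (g : GQ) (γ g' : Qb) := by
    intro g g'
    have h1 := hγ g g'
    rw [hγdef, hγdef, hγdef, map_div₀, map_mul]
    have h2 : ((g * g' : k.fixingSubgroup) : GQ) (θ : Qb) = (g : GQ) ((g' : GQ) (θ : Qb)) := rfl
    rw [h2]
    have h3 := hθ0 g
    have h4 : (g : GQ) ((g' : GQ) (θ : Qb)) ≠ 0 := by
      rw [Ne, map_eq_zero]
      exact hθ0 _
    rw [← mul_div_assoc, ← mul_assoc, h1]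
    field_simp
  have hγn : ∀ n : M.fixingSubgroup, (γ (ι n) : Qb) = z := by
    intro n
    rw [hγdef]
    have h1 : ((ι n : k.fixingSubgroup) : GQ) (θ : Qb) = θ * ((γ' (ι n) / z : Qbˣ) : Qb) := hθ n
    rw [h1, Units.val_div_eq_div_val]
    have hz0 : (z : Qb) ≠ 0 := z.ne_zero
    have h2 : (θ : Qb) ≠ 0 := θ.ne_zero
    have h3 : (γ' (ι n) : Qb) ≠ 0 := (γ' (ι n)).ne_zero
    field_simp
  have hz0 : (z : Qb) ≠ 0 := z.ne_zero
  have hγgn : ∀ (g : k.fixingSubgroup) (n : M.fixingSubgroup), γ (g * ι n) = γ g := by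
    intro g n
    have h1 := hid g (ι n)
    rw [hfgn, ← hz, hγn, hUz, mul_comm] at h1
    exact Units.ext (mul_right_cancel₀ hz0 h1)
  have hγng : ∀ (g : k.fixingSubgroup) (n : M.fixingSubgroup),
      (γ (ι n * g) : Qb) = (n : GQ) (γ g : Qb) := by
    intro g n
    have h1 := hid (ι n) g
    rw [hfng, ← hz, hγn] at h1
    exact mul_left_cancel₀ hz0 h1
  have hγM : ∀ g, (γ g : Qb) ∈ M := by
    intro g
    apply mem_of_fixed
    intro n hn
    have h1 := hγng g ⟨n, hn⟩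
    have h2 : ι ⟨n, hn⟩ * g = g * ι ⟨(g : GQ)⁻¹ * n * g, conj_mem_of_normal hMn g n hn⟩ := by
      apply Subtype.ext
      change n * (g : GQ) = (g : GQ) * ((g : GQ)⁻¹ * n * g)
      group
    rw [h2, hγgn] at h1
    exact h1.symm
  exact ⟨γ, ⟨M, hM, fun g s hs => hγgn g ⟨s, hs⟩⟩, fun g => ⟨M, hM, hγM g⟩, hid⟩

end Fermat.Agent.CFT.GN

end
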