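/-
TEAM CFT -> S55, layer [GLOB-GN]: (NC) normal closures stay unramified outside `S`;
(DICT-C) the value group of `ℚ_S` at a place over `q ∉ S` is generated by the value of `q`.
-/
import Fermat.Agent.CFT.GN.Interface
import Fermat.Agent.CFT.Top.BridgeLevels
import Fermat.Agent.S14.DIC

set_option autoImplicit false

noncomputable section

namespace Fermat.Agent.CFT.GN

open IsDedekindDomain NumberField Fermat.Agent.CFT.Top
open scoped Pointwise

theorem nc : Stmt_NC := by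
  intro S F hF
  have : Algebra.IsAlgebraic ℚ Qb := AlgebraicClosure.isAlgebraic ℚ
  have : IsAlgClosure ℚ Qb := ⟨inferInstance, inferInstance⟩
  have : Normal ℚ Qb := IsAlgClosure.normal ℚ Qb
  have h : BrLev.ncl F = IntermediateField.normalClosure ℚ F Qb :=
    (IntermediateField.normalClosure_def'' F).symm
  refine ⟨BrLev.ncl F, ?_, BrLev.normalClosure_unram hF, ?_⟩
  · rw [h]
    exact IntermediateField.le_normalClosure F
  · rw [h]
    exact normalClosure.normal ℚ F Qb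

namespace DictC

/-- the inertia group (in `Gal(F/ℚ)`) of the prime of `F` under `A` is trivial, if the inertia
group of `A` fixes `F`. -/
theorem inertia_trivial (F : IF) [NumberField F] [hG : IsGalois ℚ F] (A : ValuationSubring Qb)
    (q : ℕ) (hq : q.Prime) (hA : A.LiesOverPrime q)
    (hin : A.inertiaSubgroupIn ℚ ≤ F.fixingSubgroup)
    (v : HeightOneSpectrum (𝓞 F)) (hv : Over A v) (h : F ≃ₐ[ℚ] F)
    (hh : ∀ x : 𝓞 F, h • x - x ∈ v.asIdeal) : h = 1 := by
  have : Algebra.IsAlgebraic ℚ Qb := AlgebraicClosure.isAlgebraic ℚ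
  have : IsAlgClosure ℚ Qb := ⟨inferInstance, inferInstance⟩
  have : Normal ℚ Qb := IsAlgClosure.normal ℚ Qb
  have : IsGalois ℚ Qb := ⟨⟩
  obtain ⟨σ₀, rfl⟩ := AlgEquiv.restrictNormalHom_surjective (F := ℚ) (K₁ := F) Qb h
  have hσ : ∀ x : F, σ₀ (x : Qb) = ((AlgEquiv.restrictNormalHom F σ₀) x : Qb) :=
    fun x => (AlgEquiv.restrictNormal_commutes σ₀ F x).symm
  have hUo : IsOpen (F.fixingSubgroup : Set GQ) := IntermediateField.fixingSubgroup_isOpen F
  have hUn : F.fixingSubgroup.Normal := (InfiniteGalois.normal_iff_isGalois F).2 hG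
  obtain ⟨u, hu, hu2⟩ := Fermat.Agent.S14.stmt_DIC F.fixingSubgroup hUo hUn A q hq hA σ₀ (by
    intro b hb hfix
    have hbF : b ∈ F := by
      rw [← InfiniteGalois.fixedField_fixingSubgroup F, IntermediateField.mem_fixedField_iff]
      exact hfix
    have hb' : IsIntegral ℤ (⟨b, hbF⟩ : F) :=
      (isIntegral_algebraMap_iff (algebraMap F Qb).injective).mp hb
    let x : 𝓞 F := ⟨⟨b, hbF⟩, hb'⟩
    have h1 := (hv _).1 (hh x)
    have h2 : ((((AlgEquiv.restrictNormalHom F σ₀) • x - x : 𝓞 F) : F) : Qb) = σ₀ b - b := by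
      have := hσ ⟨b, hbF⟩
      rw [this]
      rfl
    rwa [h2] at h1)
  have h3 : σ₀ ∈ F.fixingSubgroup := by
    have := F.fixingSubgroup.mul_mem (F.fixingSubgroup.inv_mem hu) (hin hu2)
    rwa [inv_mul_cancel_left] at this
  ext x
  have h4 := hσ x
  rw [(IntermediateField.mem_fixingSubgroup_iff F σ₀).mp h3 x x.2] at h4
  exact h4.symm

theorem lt_exp_neg_one (x : WithZero (Multiplicative ℤ)) (h : x < WithZero.exp (-1 : ℤ)) :
    x ≤ WithZero.exp (-((2 : ℕ) : ℤ)) := by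
  rcases eq_or_ne x 0 with rfl | hx
  · exact zero_le
  · obtain ⟨n, rfl⟩ : ∃ n : ℤ, x = WithZero.exp n := ⟨WithZero.log x, (WithZero.exp_log hx).symm⟩
    rw [WithZero.exp_lt_exp] at h
    rw [WithZero.exp_le_exp]
    push_cast
    omega

/-- trivial inertia at `v ∣ q` implies that `q` is a uniformiser at `v`. -/
theorem val_q (F : Type) [Field F] [NumberField F] [IsGalois ℚ F] (v : HeightOneSpectrum (𝓞 F))
    (q : ℕ) (hq : q.Prime) (hqv : (q : 𝓞 F) ∈ v.asIdeal)
    (hin : ∀ h : F ≃ₐ[ℚ] F, (∀ x : 𝓞 F, h • x - x ∈ v.asIdeal) → h = 1) :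
    v.valuation F (q : F) = WithZero.exp (-1 : ℤ) := by
  set P : Ideal (𝓞 F) := v.asIdeal with hP
  have hPmax : P.IsMaximal := v.isMaximal
  have h1 : Nat.card (P.inertia (F ≃ₐ[ℚ] F)) = 1 := by
    rw [Nat.card_eq_one_iff_unique]
    refine ⟨⟨fun a b => ?_⟩, ⟨1⟩⟩
    have ha : a.1 = 1 := hin a.1 a.2
    have hb : b.1 = 1 := hin b.1 b.2
    exact Subtype.ext (ha.trans hb.symm)
  have h2 := Ideal.card_inertia_eq_ramificationIdxIn (G := F ≃ₐ[ℚ] F) (P.under ℤ) P
  rw [Ideal.ramificationIdxIn_eq_ramificationIdx (P.under ℤ) P (F ≃ₐ[ℚ] F)] at h2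
  have hq0 : ((q : ℤ)) ∈ P.under ℤ := by
    rw [Ideal.mem_comap]
    simpa using hqv
  have hp0 : P.under ℤ ≠ ⊥ := by
    intro h0
    rw [h0, Ideal.mem_bot] at hq0
    exact hq.ne_zero (by exact_mod_cast hq0)
  have h3 := Ideal.ramificationIdx'_eq_ramificationIdx (P.under ℤ) P hp0
  rw [← h2, h1] at h3
  have hspan : P.under ℤ = Ideal.span {(q : ℤ)} := by
    have hmax : (Ideal.span {(q : ℤ)}).IsMaximal := by
      have := (Int.prime_iff_natAbs_prime (k := (q : ℤ))).2 (by simpa using hq)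
      exact PrincipalIdealRing.isMaximal_of_irreducible this.irreducible
    refine (hmax.eq_of_le ?_ ?_).symm
    · exact Ideal.IsPrime.ne_top inferInstance
    · rwa [Ideal.span_singleton_le_iff_mem]
  have h4 : ¬ (q : 𝓞 F) ∈ P ^ 2 := by
    intro h5
    have h6 : (P.under ℤ).map (algebraMap ℤ (𝓞 F)) ≤ P := Ideal.map_comap_le
    refine (Ideal.ramificationIdx'_ne_one_iff h6).2 ?_ h3
    rw [hspan, Ideal.map_span, Set.image_singleton, Ideal.span_singleton_le_iff_mem]
    simpa using h5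
  have h7 : v.valuation F (q : F) = v.intValuation (q : 𝓞 F) := by
    rw [← HeightOneSpectrum.valuation_of_algebraMap (K := F)]
    simp
  rw [h7]
  apply le_antisymm
  · have := (v.intValuation_le_pow_iff_mem (q : 𝓞 F) 1).2 (by simpa using hqv)
    simpa using this
  · by_contra hlt
    rw [not_le] at hlt
    apply h4
    rw [← v.intValuation_le_pow_iff_mem]
    exact lt_exp_neg_one _ hlt

end DictC

theorem dictC (hB : Stmt_DictB) (hA : Stmt_DictA) (hN : Stmt_NC) : Stmt_DictC := by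
  intro S q hq A hAq θ hθ
  obtain ⟨F0, hF0, hθ0⟩ := hθ
  obtain ⟨F, hle, hF, hnorm⟩ := hN S F0 hF0
  have hfd : FiniteDimensional ℚ F := hF.1
  have hNF : NumberField F := ⟨⟩
  have hG : IsGalois ℚ F := ⟨⟩
  obtain ⟨v, hv⟩ := (hA F).2.1 A q q.2 hAq
  have hin := DictC.inertia_trivial F A q q.2 hAq (hF.2 q hq A hAq) v hv
  have hqv : ((q : ℕ) : 𝓞 F) ∈ v.asIdeal := (hv _).2 (by
    have h0 : ((q : ℕ) : Qb) ∈ A.nonunits := hAq
    simpa using h0)
  have hval := DictC.val_q F v q q.2 hqv hin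
  have hq0 : ((q : ℕ) : F) ≠ 0 := by exact_mod_cast q.2.ne_zero
  let t : F := ⟨θ, hle hθ0⟩
  have ht0 : t ≠ 0 := by
    intro h0
    exact θ.ne_zero (congrArg Subtype.val h0)
  have hvt0 : v.valuation F t ≠ 0 := (Valuation.ne_zero_iff _).2 ht0
  obtain ⟨m, hm⟩ : ∃ m : ℤ, v.valuation F t = WithZero.exp (-m) :=
    ⟨-WithZero.log (v.valuation F t), by rw [neg_neg, WithZero.exp_log hvt0]⟩
  let x : F := t * ((q : ℕ) : F) ^ (-m)
  have hx : v.valuation F x = 1 := by
    simp only [x, map_mul, map_zpow₀, hval, hm]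
    rw [← WithZero.exp_zsmul, ← WithZero.exp_add]
    simp
  have hx1 : (x : Qb) ∈ A := (hB F A v hv x).1 hx.le
  have hx2 : ((x⁻¹ : F) : Qb) ∈ A := (hB F A v hv x⁻¹).1 (by rw [map_inv₀, hx, inv_one])
  have hx3 : A.valuation (x : Qb) = 1 := by
    apply le_antisymm
    · exact (A.valuation_le_one_iff _).2 hx1
    · have h5 := (A.valuation_le_one_iff _).2 hx2
      have h6 : ((x⁻¹ : F) : Qb) = (x : Qb)⁻¹ := rfl
      rw [h6, map_inv₀] at h5
      have hx0 : A.valuation (x : Qb) ≠ 0 := by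
        rw [Valuation.ne_zero_iff]
        intro h0
        have h9 : x = 0 := Subtype.ext h0
        rw [h9, map_zero] at hx
        exact zero_ne_one hx
      exact (inv_le_one₀ (zero_lt_iff.2 hx0)).1 h5
  refine ⟨m, ?_⟩
  have h8 : (θ : Qb) = (x : Qb) * ((q : ℕ) : Qb) ^ m := by
    have h9 : t = x * ((q : ℕ) : F) ^ m := by
      simp only [x]
      rw [mul_assoc, ← zpow_add₀ hq0, neg_add_cancel, zpow_zero, mul_one]
    have h10 := congrArg (algebraMap F Qb) h9
    rw [map_mul, map_zpow₀, map_natCast] at h10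
    exact h10
  rw [h8, map_mul, hx3, one_mul, map_zpow₀]

end Fermat.Agent.CFT.GN

end
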