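/-
TEAM CFT, layer [GLOB-GN], package DICT-E: `ord_A = ord_v` outside `S`.
-/
import Fermat.Agent.CFT.GN.Interface

set_option autoImplicit false

noncomputable section

namespace Fermat.Agent.CFT.GN

open IsDedekindDomain NumberField Fermat.Agent.CFT.Top

namespace DictEAux

/-- units for `A` and for `v` coincide -/
theorem unit_iff (hB : Stmt_DictB) (k : IF) [NumberField k] (A : ValuationSubring Qb)
    (v : HeightOneSpectrum (𝓞 k)) (hAv : Over A v) (y : kˣ) :
    A.valuation (((y : k) : Qb)) = 1 ↔ v.valuationOfNeZero y = 1 := by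
  have h1 : ∀ z : k, v.valuation k z ≤ 1 ↔ A.valuation ((z : k) : Qb) ≤ 1 := fun z => by
    rw [ValuationSubring.valuation_le_one_iff]
    exact hB k A v hAv z
  have hy0 : (y : k) ≠ 0 := y.ne_zero
  have hyQ : ((y : k) : Qb) ≠ 0 := by
    simp
  have e1 : A.valuation (((y : k) : Qb)) = 1 ↔
      A.valuation (((y : k) : Qb)) ≤ 1 ∧ A.valuation ((((y : k)⁻¹ : k) : Qb)) ≤ 1 := by
    have : ((((y : k)⁻¹ : k) : Qb)) = (((y : k) : Qb))⁻¹ := by simp
    rw [this, map_inv₀, inv_le_one₀ (zero_lt_iff.2 ((A.valuation.ne_zero_iff).2 hyQ))]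
    exact le_antisymm_iff
  have e2 : v.valuation k (y : k) = 1 ↔
      v.valuation k (y : k) ≤ 1 ∧ v.valuation k ((y : k)⁻¹) ≤ 1 := by
    rw [map_inv₀, inv_le_one₀ (zero_lt_iff.2 (((v.valuation k).ne_zero_iff).2 hy0))]
    exact le_antisymm_iff
  rw [e1, ← h1, ← h1, ← e2, ← HeightOneSpectrum.valuationOfNeZero_eq]
  exact WithZero.coe_inj (b := (1 : Multiplicative ℤ))

end DictEAux

theorem dictE (_hA : Stmt_DictA) (hB : Stmt_DictB) (hC : Stmt_DictC) : Stmt_DictE := by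
  intro S k _ hk v hv A q hq hAq hAv x m
  have hq0 : (q : k) ≠ 0 := by exact_mod_cast hq.ne_zero
  have hqQ : (q : Qb) ≠ 0 := by exact_mod_cast hq.ne_zero
  let qk : kˣ := Units.mk0 (q : k) hq0
  have hqk : (((qk : k)) : Qb) = (q : Qb) := by simp [qk]
  have hqv : (q : 𝓞 k) ∈ v.asIdeal := by
    rw [hAv]
    have : ((((q : 𝓞 k) : k)) : Qb) = (q : Qb) := by simp
    rw [this]
    exact hAq
  have hqS : (⟨q, hq⟩ : Nat.Primes) ∉ S := fun h => hv ⟨⟨q, hq⟩, h, hqv⟩
  have hU := DictEAux.unit_iff hB k A v hAv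
  have haq0 : A.valuation (q : Qb) ≠ 0 := (A.valuation.ne_zero_iff).2 hqQ
  -- `ord_v q ≥ 1`
  have hlt : v.valuation k (qk : k) < 1 := by
    have := (v.valuation_lt_one_iff_mem (K := k) (q : 𝓞 k)).2 hqv
    simpa [qk] using this
  -- general transfer
  have key : ∀ (y : kˣ) (j : ℤ), A.valuation (((y : k) : Qb)) = A.valuation (q : Qb) ^ j ↔
      v.valuationOfNeZero y = v.valuationOfNeZero qk ^ j := by
    intro y j
    have e1 : A.valuation ((((y * qk ^ (-j) : kˣ) : k)) : Qb) =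
        A.valuation (((y : k) : Qb)) * (A.valuation (q : Qb) ^ j)⁻¹ := by
      have : ((((y * qk ^ (-j) : kˣ) : k)) : Qb) = ((y : k) : Qb) * ((q : Qb) ^ j)⁻¹ := by
        have hz : ((((q : k) ^ j : k)) : Qb) = (q : Qb) ^ j := by
          have h1 := map_zpow₀ (algebraMap k Qb) (q : k) j
          have h2 : algebraMap k Qb (q : k) = (q : Qb) := map_natCast _ _
          rw [h2] at h1
          exact h1
        simp [qk, zpow_neg, hz]
      rw [this, map_mul, map_inv₀, map_zpow₀]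
    have e2 := hU (y * qk ^ (-j))
    rw [e1, map_mul, map_zpow, zpow_neg, mul_inv_eq_one₀ (zpow_ne_zero _ haq0),
      mul_inv_eq_one] at e2
    exact e2
  obtain ⟨π, hπ⟩ := v.valuation_exists_uniformizer k
  have hπ0 : π ≠ 0 := by
    intro h
    rw [h, map_zero] at hπ
    exact WithZero.exp_ne_zero.symm hπ
  let πu : kˣ := Units.mk0 π hπ0
  have hπQ : ((π : k) : Qb) ≠ 0 := by simpa using hπ0
  have hπS : Units.mk0 ((π : k) : Qb) hπQ ∈ QS S := ⟨k, hk, π.2⟩
  obtain ⟨j, hj⟩ := hC S ⟨q, hq⟩ hqS A hAq _ hπS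
  have hj' := (key πu j).1 hj
  have hw : v.valuationOfNeZero πu = Multiplicative.ofAdd (-1 : ℤ) := by
    rw [← WithZero.coe_inj, HeightOneSpectrum.valuationOfNeZero_eq]
    exact hπ
  have hwq : v.valuationOfNeZero qk < 1 := by
    rw [← WithZero.coe_lt_coe, HeightOneSpectrum.valuationOfNeZero_eq]
    exact hlt
  obtain ⟨t, ht⟩ : ∃ t : ℤ, v.valuationOfNeZero qk = Multiplicative.ofAdd t :=
    ⟨Multiplicative.toAdd _, rfl⟩
  have ht0 : t < 0 := by
    rw [ht] at hwq
    exact hwq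
  have htj : (-1 : ℤ) = j * t := by
    rw [hw, ht, ← ofAdd_zsmul] at hj'
    have := Multiplicative.ofAdd.injective hj'
    simpa using this
  have ht1 : t = -1 := by
    have h1 : t ∣ 1 := ⟨-j, by linarith⟩
    rcases Int.isUnit_iff.1 (isUnit_of_dvd_one h1) with h | h
    · omega
    · exact h
  rw [key x m, ht, ht1, ← ofAdd_zsmul]
  simp

end Fermat.Agent.CFT.GN

end
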