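/-
TEAM CFT -> S55, layer [GLOB-GN]: Hilbert 90 for `P`-level cocycles, `P` an abstract class of
finite subextensions of `ℚ̄/ℚ` (generalisation of `H90.lean`, same proof).
-/
import Fermat.Agent.CFT.GN.Interface2

set_option autoImplicit false

noncomputable section

namespace Fermat.Agent.CFT.GN

open IsDedekindDomain NumberField Fermat.Agent.CFT.Top

namespace H90gen

lemma sup_finset_sup {P : IF → Prop} (hP : FieldClass P) {α : Type*} (A : IF) (hA : P A)
    (s : Finset α) (F : α → IF) (h : ∀ a ∈ s, P (F a)) : P (A ⊔ s.sup F) := by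
  classical
  induction s using Finset.induction_on with
  | empty => simpa using hA
  | insert a s _ ih =>
    rw [Finset.sup_insert, sup_left_comm]
    exact hP.sup _ _ (h a (Finset.mem_insert_self a s))
      (ih fun b hb => h b (Finset.mem_insert_of_mem hb))

lemma map_mem_of_normal {M : IF} (hM : Normal ℚ M) (σ : GQ) {a : Qb} (ha : a ∈ M) : σ a ∈ M := by
  have : Algebra.IsAlgebraic ℚ (AlgebraicClosure ℚ) := AlgebraicClosure.isAlgebraic ℚ
  have : IsAlgClosure ℚ (AlgebraicClosure ℚ) := ⟨inferInstance, inferInstance⟩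
  have : Normal ℚ (AlgebraicClosure ℚ) := IsAlgClosure.normal ℚ (AlgebraicClosure ℚ)
  have h := (IntermediateField.normal_iff_forall_map_le'.1 hM) σ
  exact h ⟨a, ha, rfl⟩

end H90gen

open H90gen in
/-- **(H90gen)** -/
theorem h90gen : Stmt_H90gen := by
  classical
  intro P hP k hk c hlev hval hcoc
  obtain ⟨F₀, hF₀, hc₀⟩ := hlev
  choose Fv hFv hmem using hval
  -- the finite quotient through which `c` factors
  have hfd₀ : FiniteDimensional ℚ F₀ := hP.fin _ hF₀
  have hfi₀ : F₀.fixingSubgroup.FiniteIndex := finiteIndex_fixingSubgroup F₀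
  let H₀ : Subgroup k.fixingSubgroup := F₀.fixingSubgroup.subgroupOf k.fixingSubgroup
  have : Finite (k.fixingSubgroup ⧸ H₀) := Subgroup.finite_quotient_of_finiteIndex
  have : Fintype (k.fixingSubgroup ⧸ H₀) := Fintype.ofFinite _
  let M₀ : IF := k ⊔ F₀ ⊔ Finset.univ.sup fun x : k.fixingSubgroup ⧸ H₀ => Fv (Quotient.out x)
  have hM₀ : P M₀ := sup_finset_sup hP _ (hP.sup _ _ hk hF₀) _ _ fun x _ => hFv _
  obtain ⟨M, hM₀M, hM, hMn⟩ := hP.nc M₀ hM₀
  have hF₀M : F₀ ≤ M := (le_sup_right.trans le_sup_left : F₀ ≤ M₀).trans hM₀M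
  have hcM : ∀ g, (c g : Qb) ∈ M := by
    intro g
    obtain ⟨h, hh⟩ := QuotientGroup.mk_out_eq_mul H₀ g
    have h1 : c (Quotient.out (QuotientGroup.mk g : k.fixingSubgroup ⧸ H₀)) = c g := by
      rw [hh]
      exact hc₀ g h h.2
    rw [← h1]
    apply hM₀M
    refine (le_sup_right : _ ≤ M₀) ?_
    exact (Finset.le_sup (f := fun x : k.fixingSubgroup ⧸ H₀ => Fv (Quotient.out x))
      (Finset.mem_univ (QuotientGroup.mk g))) (hmem _)
  -- the quotient over which we sum
  have hfd : FiniteDimensional ℚ M := hP.fin _ hM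
  have hfi : M.fixingSubgroup.FiniteIndex := finiteIndex_fixingSubgroup M
  let H : Subgroup k.fixingSubgroup := M.fixingSubgroup.subgroupOf k.fixingSubgroup
  have : Finite (k.fixingSubgroup ⧸ H) := Subgroup.finite_quotient_of_finiteIndex
  have : Fintype (k.fixingSubgroup ⧸ H) := Fintype.ofFinite _
  let φ : Qb → k.fixingSubgroup → Qb := fun a g => (c g : Qb) * (g : GQ) a
  have hφ : ∀ a ∈ M, ∀ g : k.fixingSubgroup,
      φ a (Quotient.out (QuotientGroup.mk g : k.fixingSubgroup ⧸ H)) = φ a g := by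
    intro a ha g
    obtain ⟨h, hh⟩ := QuotientGroup.mk_out_eq_mul H g
    rw [hh]
    have h1 : c (g * h) = c g :=
      hc₀ g h (IntermediateField.fixingSubgroup_antitone hF₀M h.2)
    have h2 : ((h : k.fixingSubgroup) : GQ) a = a :=
      (IntermediateField.mem_fixingSubgroup_iff M _).1 h.2 a ha
    show (c (g * h) : Qb) * ((g : GQ) * ((h : k.fixingSubgroup) : GQ)) a = (c g : Qb) * (g : GQ) a
    rw [h1, AlgEquiv.mul_apply, h2]
  let b : Qb → Qb := fun a => ∑ x : k.fixingSubgroup ⧸ H, φ a (Quotient.out x)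
  have hbM : ∀ a ∈ M, b a ∈ M := fun a ha =>
    sum_mem fun x _ => mul_mem (hcM _) (map_mem_of_normal hMn _ ha)
  -- transformation law
  have hgb : ∀ a ∈ M, ∀ g : k.fixingSubgroup, (c g : Qb) * (g : GQ) (b a) = b a := by
    intro a ha g
    show (c g : Qb) * (g : GQ) (∑ x : k.fixingSubgroup ⧸ H, φ a (Quotient.out x)) = _
    rw [map_sum, Finset.mul_sum]
    have h1 : ∀ x : k.fixingSubgroup ⧸ H,
        (c g : Qb) * (g : GQ) (φ a (Quotient.out x)) = φ a (Quotient.out (g • x)) := by
      intro x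
      have h2 : g • x = (QuotientGroup.mk (g * Quotient.out x) : k.fixingSubgroup ⧸ H) := by
        conv_lhs => rw [← QuotientGroup.out_eq' x]
        rfl
      rw [h2, hφ a ha]
      show (c g : Qb) * (g : GQ) ((c (Quotient.out x) : Qb) * ((Quotient.out x : k.fixingSubgroup) : GQ) a)
        = (c (g * Quotient.out x) : Qb) * ((g : GQ) * ((Quotient.out x : k.fixingSubgroup) : GQ)) a
      rw [hcoc, map_mul, AlgEquiv.mul_apply, mul_assoc]
    rw [Finset.sum_congr rfl fun x _ => h1 x]
    exact Equiv.sum_comp (MulAction.toPerm g : Equiv.Perm (k.fixingSubgroup ⧸ H))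
      fun x => φ a (Quotient.out x)
  -- non vanishing
  have hex : ∃ a ∈ M, b a ≠ 0 := by
    by_contra hcon
    push Not at hcon
    let χ : (k.fixingSubgroup ⧸ H) → (M →* Qb) := fun x =>
      { toFun := fun a => ((Quotient.out x : k.fixingSubgroup) : GQ) (a : Qb)
        map_one' := by simp
        map_mul' := fun a a' => by simp }
    have hχ : Function.Injective χ := by
      intro x y hxy
      rw [← QuotientGroup.out_eq' x, ← QuotientGroup.out_eq' y, QuotientGroup.eq]
      show (((Quotient.out x)⁻¹ * Quotient.out y : k.fixingSubgroup) : GQ) ∈ M.fixingSubgroup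
      rw [IntermediateField.mem_fixingSubgroup_iff]
      intro a ha
      have h1 : ((Quotient.out x : k.fixingSubgroup) : GQ) a
          = ((Quotient.out y : k.fixingSubgroup) : GQ) a :=
        congrArg (fun f : M →* Qb => f ⟨a, ha⟩) hxy
      show (((Quotient.out x : k.fixingSubgroup) : GQ)⁻¹ *
        ((Quotient.out y : k.fixingSubgroup) : GQ)) a = a
      rw [AlgEquiv.mul_apply, ← h1]
      exact AlgEquiv.symm_apply_apply _ a
    have hli := (linearIndependent_monoidHom M Qb).comp χ hχ
    rw [Fintype.linearIndependent_iff] at hli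
    have h0 := hli (fun x => (c (Quotient.out x) : Qb)) (by
      funext a
      rw [Finset.sum_apply]
      exact hcon a a.2) (QuotientGroup.mk 1)
    exact (c _).ne_zero h0
  obtain ⟨a, ha, hba⟩ := hex
  refine ⟨(Units.mk0 (b a) hba)⁻¹, ⟨M, hM, ?_⟩, fun g => ?_⟩
  · rw [Units.val_inv_eq_inv_val]
    exact inv_mem (hbM a ha)
  · rw [Units.val_inv_eq_inv_val, Units.val_mk0, map_inv₀]
    have h1 := hgb a ha g
    have h2 : (g : GQ) (b a) ≠ 0 := by
      intro h0
      rw [h0, mul_zero] at h1
      exact hba h1.symm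
    have h3 : (c g : Qb) ≠ 0 := (c g).ne_zero
    have h4 : (b a)⁻¹ = ((c g : Qb) * (g : GQ) (b a))⁻¹ := by rw [h1]
    rw [h4, mul_inv]
    field_simp

/-- the class of all finite subextensions. -/
theorem fieldClass_fin : FieldClass (fun F : IF => FiniteDimensional ℚ F) where
  fin := fun _ h => h
  sup := fun F F' h h' => by
    have := h
    have := h'
    exact IntermediateField.finiteDimensional_sup F F'
  nc := fun F h => by
    have := h
    have : Algebra.IsAlgebraic ℚ (AlgebraicClosure ℚ) := AlgebraicClosure.isAlgebraic ℚ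
    have : IsAlgClosure ℚ (AlgebraicClosure ℚ) := ⟨inferInstance, inferInstance⟩
    have : Normal ℚ (AlgebraicClosure ℚ) := IsAlgClosure.normal ℚ (AlgebraicClosure ℚ)
    exact ⟨IntermediateField.normalClosure ℚ F Qb, F.le_normalClosure,
      normalClosure.is_finiteDimensional ℚ F Qb, normalClosure.normal ℚ F Qb⟩

end Fermat.Agent.CFT.GN

end
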