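import Fermat.Agent.CFT.GN.K3Interface

/-!
# (K3a) `#(𝓞_Kˣ/p) = p^(rank+1)` if `μ_p ⊆ K`
-/

set_option autoImplicit false

noncomputable section

namespace Fermat.Agent.CFT.GN

open IsDedekindDomain NumberField NumberField.Units

namespace K3a

/-- `[ℤ : pℤ] = p`, multiplicatively. -/
theorem index_pow_int (p : ℕ) [NeZero p] :
    (powMonoidHom p : Multiplicative ℤ →* Multiplicative ℤ).range.index = p := by
  let f : Multiplicative ℤ →* Multiplicative (ZMod p) :=
    AddMonoidHom.toMultiplicative (Int.castAddHom (ZMod p))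
  have hf : ∀ x : Multiplicative ℤ, f x = Multiplicative.ofAdd ((Multiplicative.toAdd x : ℤ) : ZMod p) :=
    fun _ => rfl
  have hker : f.ker = (powMonoidHom p : Multiplicative ℤ →* Multiplicative ℤ).range := by
    ext x
    rw [MonoidHom.mem_ker, MonoidHom.mem_range, hf]
    constructor
    · intro h
      have h' : ((Multiplicative.toAdd x : ℤ) : ZMod p) = 0 := h
      obtain ⟨c, hc⟩ := (ZMod.intCast_zmod_eq_zero_iff_dvd _ _).mp h'
      refine ⟨Multiplicative.ofAdd c, ?_⟩
      rw [powMonoidHom_apply, ← ofAdd_nsmul]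
      apply Multiplicative.toAdd.injective
      rw [toAdd_ofAdd, hc]
      simp
    · rintro ⟨y, rfl⟩
      rw [powMonoidHom_apply, toAdd_pow]
      simp
  have hsurj : Function.Surjective f := by
    intro y
    obtain ⟨n, hn⟩ := ZMod.intCast_surjective (Multiplicative.toAdd y)
    exact ⟨Multiplicative.ofAdd n, by rw [hf, toAdd_ofAdd, hn]; rfl⟩
  rw [← hker, Subgroup.index_ker, MonoidHom.range_eq_top.mpr hsurj, Subgroup.card_top]
  rw [Nat.card_congr Multiplicative.toAdd, Nat.card_zmod]

variable (K : Type) [Field K] [NumberField K]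

/-- the model group `μ × ℤ^r`. -/
abbrev Model : Type := torsion K × (Fin (rank K) → Multiplicative ℤ)

/-- Dirichlet's isomorphism. -/
def phi : Model K →* (𝓞 K)ˣ where
  toFun x := (x.1 : (𝓞 K)ˣ) * ∏ i, fundSystem K i ^ (Multiplicative.toAdd (x.2 i))
  map_one' := by simp
  map_mul' x y := by
    simp only [Prod.fst_mul, Prod.snd_mul, Pi.mul_apply, toAdd_mul, zpow_add, Subgroup.coe_mul,
      Finset.prod_mul_distrib]
    exact mul_mul_mul_comm _ _ _ _

theorem phi_bijective : Function.Bijective (phi K) := by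
  constructor
  · intro x y hxy
    obtain ⟨c, -, hc⟩ := exist_unique_eq_mul_prod K (phi K x)
    have hx := hc (x.1, fun i => Multiplicative.toAdd (x.2 i)) rfl
    have hy := hc (y.1, fun i => Multiplicative.toAdd (y.2 i)) hxy
    have h := hx.trans hy.symm
    rw [Prod.mk.injEq] at h
    refine Prod.ext h.1 (funext fun i => ?_)
    exact Multiplicative.toAdd.injective (congrFun h.2 i)
  · intro u
    obtain ⟨c, hc, -⟩ := exist_unique_eq_mul_prod K u
    exact ⟨(c.1, fun i => Multiplicative.ofAdd (c.2 i)), hc.symm⟩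

theorem range_pow_model (p : ℕ) :
    (powMonoidHom p : Model K →* Model K).range =
      ((powMonoidHom p : torsion K →* torsion K).range).prod
        (Subgroup.pi Set.univ fun _ : Fin (rank K) =>
          (powMonoidHom p : Multiplicative ℤ →* Multiplicative ℤ).range) := by
  ext x
  rw [Subgroup.mem_prod, Subgroup.mem_pi]
  constructor
  · rintro ⟨y, rfl⟩
    exact ⟨⟨y.1, rfl⟩, fun i _ => ⟨y.2 i, rfl⟩⟩
  · rintro ⟨⟨a, ha⟩, hb⟩
    choose b hb using fun i => hb i (Set.mem_univ i)
    exact ⟨(a, b), Prod.ext ha (funext hb)⟩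

theorem range_pow_units (p : ℕ) :
    (powMonoidHom p : (𝓞 K)ˣ →* (𝓞 K)ˣ).range =
      ((powMonoidHom p : Model K →* Model K).range).map (phi K) := by
  ext u
  constructor
  · rintro ⟨v, rfl⟩
    obtain ⟨x, rfl⟩ := (phi_bijective K).2 v
    exact ⟨x ^ p, ⟨x, rfl⟩, by simp⟩
  · rintro ⟨_, ⟨x, rfl⟩, rfl⟩
    exact ⟨phi K x, by simp⟩

end K3a

open K3a in
/-- **(K3a)** -/
theorem k3a : Stmt_K3a := by
  intro K _ _ p hp ⟨ζ, hζ⟩
  have : NeZero p := ⟨hp.ne_zero⟩
  have hdvd : p ∣ Nat.card (torsion K) := dvd_torsionOrder_of_isPrimitiveRoot hζ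
  change (powMonoidHom p : (𝓞 K)ˣ →* (𝓞 K)ˣ).range.index = _
  rw [range_pow_units, Subgroup.index_map_of_bijective (phi_bijective K), range_pow_model,
    Subgroup.index_prod, Subgroup.index_pi, IsCyclic.index_powMonoidHom_range,
    Nat.gcd_eq_right hdvd]
  simp only [index_pow_int, Finset.prod_const, Finset.card_univ, Fintype.card_fin]
  rw [pow_succ, mul_comm]

end Fermat.Agent.CFT.GN

end
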