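/-
TEAM CFT -> S55, layer [GLOB-GN], task GN-K3b (helper90):
`1 → Rˣ/n → K(∅,n) → Cl[n] → 1` in counting form (`k3b : Stmt_K3b`).
-/
import Fermat.Agent.CFT.GN.K3c

set_option autoImplicit false
set_option linter.unusedSectionVars false

noncomputable section

namespace Fermat.Agent.CFT.GN.K3b

open IsDedekindDomain FractionalIdeal K3c
open scoped nonZeroDivisors

variable {R K : Type} [CommRing R] [IsDedekindDomain R] [Field K] [Algebra R K] [IsFractionRing R K]

/-- an invertible fractional ideal is determined by its orders -/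
theorem ext_cnt {I J : (FractionalIdeal R⁰ K)ˣ}
    (h : ∀ v : HeightOneSpectrum R, cnt v I = cnt v J) : I = J := by
  apply Units.ext
  rw [← finprod_heightOneSpectrum_factorization' K I.ne_zero,
    ← finprod_heightOneSpectrum_factorization' K J.ne_zero]
  refine finprod_congr fun v => ?_
  have := congrArg Multiplicative.toAdd (h v)
  rw [cnt_apply, cnt_apply] at this
  rw [this]

/-- the group of invertible fractional ideals is torsion free -/
theorem pow_injective (n : ℕ) (hn : 0 < n) :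
    Function.Injective (powMonoidHom n : (FractionalIdeal R⁰ K)ˣ →* (FractionalIdeal R⁰ K)ˣ) := by
  intro I J h
  apply ext_cnt
  intro v
  have h1 : cnt v (I ^ n) = cnt v (J ^ n) := congrArg (cnt v) h
  rw [map_pow, map_pow] at h1
  have h2 := congrArg Multiplicative.toAdd h1
  rw [toAdd_pow, toAdd_pow, nsmul_eq_mul, nsmul_eq_mul] at h2
  apply Multiplicative.toAdd.injective
  have hn' : (n : ℤ) ≠ 0 := by exact_mod_cast hn.ne'
  exact mul_left_cancel₀ hn' h2

theorem mk_eq_one_iff_mem {I : (FractionalIdeal R⁰ K)ˣ} :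
    ClassGroup.mk K I = 1 ↔ I ∈ (toPrincipalIdeal R K).range := by
  rw [ClassGroup.mk_eq_one_iff, mem_principal_ideals_iff]
  constructor
  · rintro ⟨⟨x, hx⟩⟩
    refine ⟨x, ?_⟩
    apply FractionalIdeal.coeToSubmodule_injective
    change ((spanSingleton R⁰ x : FractionalIdeal R⁰ K) : Submodule R K) = _
    rw [coe_spanSingleton]
    exact hx.symm
  · rintro ⟨x, hx⟩
    rw [← hx, coe_spanSingleton]
    exact ⟨⟨x, rfl⟩⟩

theorem exists_of_toPrincipal_eq_one (x : Kˣ) (h : toPrincipalIdeal R K x = 1) :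
    ∃ r : R, algebraMap R K r = (x : K) := by
  rw [toPrincipalIdeal_eq_iff, Units.val_one] at h
  have h1 : (x : K) ∈ (1 : FractionalIdeal R⁰ K) := by
    rw [← h]
    exact mem_spanSingleton_self R⁰ _
  exact (mem_one_iff R⁰).1 h1

theorem toPrincipal_eq_one_iff (x : Kˣ) :
    toPrincipalIdeal R K x = 1 ↔ x ∈ (Units.map (algebraMap R K).toMonoidHom).range := by
  constructor
  · intro h
    obtain ⟨r, hr⟩ := exists_of_toPrincipal_eq_one x h
    obtain ⟨s, hs⟩ := exists_of_toPrincipal_eq_one (R := R) x⁻¹ (by rw [map_inv, h, inv_one])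
    have hrs : r * s = 1 := by
      apply FaithfulSMul.algebraMap_injective R K
      rw [map_mul, hr, hs, map_one, Units.mul_inv]
    refine ⟨⟨r, s, hrs, by rw [mul_comm, hrs]⟩, ?_⟩
    apply Units.ext
    exact hr
  · rintro ⟨u, rfl⟩
    apply ext_cnt
    intro v
    apply Multiplicative.toAdd.injective
    rw [cnt_apply, coe_toPrincipalIdeal, count_spanSingleton, map_one]
    have := v.valuation_of_unit_eq (K := K) u
    rw [RingHom.toMonoidHom_eq_coe, this]
    simp

variable (R K) in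
/-- the elements of `Kˣ` whose principal ideal is an `n`-th power -/
abbrev Q (n : ℕ) : Subgroup Kˣ :=
  (powMonoidHom n : (FractionalIdeal R⁰ K)ˣ →* (FractionalIdeal R⁰ K)ˣ).range.comap
    (toPrincipalIdeal R K)

variable (R K) in
/-- `x ↦ [𝔞]`, `(x) = 𝔞ⁿ`. -/
def theta (n : ℕ) (hn : 0 < n) : Q R K n →* ClassGroup R :=
  (ClassGroup.mk K).comp ((MonoidHom.ofInjective (pow_injective (R := R) (K := K) n hn)).symm.toMonoidHom.comp
    ((toPrincipalIdeal R K).subgroupComap _))

theorem theta_eq (n : ℕ) (hn : 0 < n) (x : Q R K n) (B : (FractionalIdeal R⁰ K)ˣ)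
    (hB : B ^ n = toPrincipalIdeal R K x) : theta R K n hn x = ClassGroup.mk K B := by
  unfold theta
  rw [MonoidHom.comp_apply, MonoidHom.comp_apply, MulEquiv.coe_toMonoidHom]
  congr 1
  rw [MulEquiv.symm_apply_eq]
  apply Subtype.ext
  rw [MonoidHom.ofInjective_apply]
  exact hB.symm

theorem mem_Q_iff (n : ℕ) (hn : 0 < n) (x : Kˣ) :
    x ∈ Q R K n ↔ ∀ v : HeightOneSpectrum R,
      (n : ℤ) ∣ Multiplicative.toAdd (v.valuationOfNeZero x) := by
  constructor
  · rintro ⟨B, hB⟩ v
    have h1 : count K v ((B ^ n : (FractionalIdeal R⁰ K)ˣ) : FractionalIdeal R⁰ K) =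
        count K v (toPrincipalIdeal R K x : FractionalIdeal R⁰ K) := by
      have : B ^ n = toPrincipalIdeal R K x := hB
      rw [this]
    rw [Units.val_pow_eq_pow_val, count_pow, coe_toPrincipalIdeal, count_spanSingleton] at h1
    exact ⟨-count K v (B : FractionalIdeal R⁰ K), by linarith⟩
  · intro h
    obtain ⟨B, hB⟩ := exists_pow_eq n hn (toPrincipalIdeal R K x) (fun v => by
      rw [coe_toPrincipalIdeal, count_spanSingleton]
      exact (dvd_neg).2 (h v))
    exact ⟨B, hB⟩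

end K3b

open IsDedekindDomain FractionalIdeal K3c K3b
open scoped nonZeroDivisors

theorem k3b : Stmt_K3b := by
  intro R K _ _ _ _ _ n hn
  have : Fact (0 < n) := ⟨hn⟩
  set N : Subgroup Kˣ := (powMonoidHom n : Kˣ →* Kˣ).range with hN
  set ι : Rˣ →* Kˣ := Units.map (algebraMap R K).toMonoidHom with hι
  -- the Selmer group is the image of `Q`
  have hx : ∀ x : Kˣ, (QuotientGroup.mk x : Kˣ ⧸ N) ∈
      selmerGroup (R := R) (K := K) (S := ∅) (n := n) ↔ x ∈ Q R K n := by
    intro x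
    rw [mem_Q_iff n hn]
    constructor
    · intro h v
      have h1 := h v (Set.notMem_empty v)
      rw [valMod_mk] at h1
      have h2 := congrArg Multiplicative.toAdd h1
      rw [toAdd_ofAdd, toAdd_one] at h2
      exact (ZMod.intCast_zmod_eq_zero_iff_dvd _ _).1 h2
    · intro h v _
      rw [valMod_mk, (ZMod.intCast_zmod_eq_zero_iff_dvd _ _).2 (h v)]
      rfl
  have hSel : selmerGroup (R := R) (K := K) (S := ∅) (n := n) =
      (Q R K n).map (QuotientGroup.mk' N) := by
    ext y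
    obtain ⟨x, rfl⟩ := QuotientGroup.mk_surjective y
    constructor
    · intro h
      exact ⟨x, (hx x).1 h, rfl⟩
    · rintro ⟨x', hx', hxx'⟩
      rw [← hxx']
      exact (hx x').2 hx'
  have h1 : Nat.card (selmerGroup (R := R) (K := K) (S := ∅) (n := n)) =
      N.relIndex (Q R K n) := by
    rw [hSel, ← Subgroup.relIndex_bot_left, ← Subgroup.relIndex_comap, MonoidHom.comap_bot,
      QuotientGroup.ker_mk']
  set θ := theta R K n hn with hθ
  set Kθ : Subgroup Kˣ := θ.ker.map (Q R K n).subtype with hKθ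
  have hKQ : Kθ ≤ Q R K n := Subgroup.map_subtype_le _
  -- description of the kernel
  have hker : Kθ = N ⊔ ι.range := by
    apply le_antisymm
    · rintro _ ⟨⟨x, hxQ⟩, hxk, rfl⟩
      obtain ⟨B, hB⟩ := hxQ
      have hB' : B ^ n = toPrincipalIdeal R K x := hB
      have h2 : θ ⟨x, ⟨B, hB⟩⟩ = ClassGroup.mk K B := theta_eq n hn ⟨x, ⟨B, hB⟩⟩ B hB'
      have h3 : ClassGroup.mk K B = 1 := by rw [← h2]; exact hxk
      obtain ⟨y, hy⟩ := mk_eq_one_iff_mem.1 h3
      have h4 : toPrincipalIdeal R K (x * (y ^ n)⁻¹) = 1 := by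
        rw [map_mul, map_inv, map_pow, hy, hB', mul_inv_cancel]
      have h5 := (toPrincipal_eq_one_iff (R := R) _).1 h4
      have h6 : x = y ^ n * (x * (y ^ n)⁻¹) := by
        rw [mul_comm x, mul_inv_cancel_left]
      show x ∈ N ⊔ ι.range
      rw [h6]
      exact Subgroup.mul_mem_sup ⟨y, rfl⟩ h5
    · rw [sup_le_iff]
      constructor
      · rintro _ ⟨y, rfl⟩
        have hB : (toPrincipalIdeal R K y) ^ n = toPrincipalIdeal R K (y ^ n) := by rw [map_pow]
        have hQ : y ^ n ∈ Q R K n := ⟨toPrincipalIdeal R K y, hB⟩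
        refine ⟨⟨y ^ n, hQ⟩, ?_, rfl⟩
        show θ ⟨y ^ n, hQ⟩ = 1
        rw [hθ, theta_eq n hn ⟨y ^ n, hQ⟩ _ hB, mk_eq_one_iff_mem]
        exact ⟨y, rfl⟩
      · rintro _ ⟨u, rfl⟩
        have h2 : toPrincipalIdeal R K (ι u) = 1 := (toPrincipal_eq_one_iff (R := R) _).2 ⟨u, rfl⟩
        have hB : (1 : (FractionalIdeal R⁰ K)ˣ) ^ n = toPrincipalIdeal R K (ι u) := by
          rw [h2, one_pow]
        have hQ : ι u ∈ Q R K n := ⟨1, hB⟩
        refine ⟨⟨ι u, hQ⟩, ?_, rfl⟩
        show θ ⟨ι u, hQ⟩ = 1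
        rw [hθ, theta_eq n hn ⟨ι u, hQ⟩ _ hB, map_one]
  have hNK : N ≤ Kθ := by rw [hker]; exact le_sup_left
  -- the range
  have hrange : θ.range = (powMonoidHom n : ClassGroup R →* ClassGroup R).ker := by
    ext c
    constructor
    · rintro ⟨⟨x, ⟨B, hB⟩⟩, rfl⟩
      have hB' : B ^ n = toPrincipalIdeal R K x := hB
      rw [hθ, theta_eq n hn ⟨x, ⟨B, hB⟩⟩ B hB', MonoidHom.mem_ker, powMonoidHom_apply, ← map_pow,
        hB', mk_eq_one_iff_mem]
      exact ⟨x, rfl⟩
    · intro hc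
      refine ClassGroup.induction (R := R) K
        (P := fun c => c ∈ (powMonoidHom n : ClassGroup R →* ClassGroup R).ker → c ∈ θ.range)
        (fun B hB => ?_) c hc
      rw [MonoidHom.mem_ker, powMonoidHom_apply, ← map_pow, mk_eq_one_iff_mem] at hB
      obtain ⟨x, hx'⟩ := hB
      exact ⟨⟨x, ⟨B, hx'.symm⟩⟩, theta_eq n hn ⟨x, ⟨B, hx'.symm⟩⟩ B hx'.symm⟩
  have h3 : Kθ.relIndex (Q R K n) =
      Nat.card (powMonoidHom n : ClassGroup R →* ClassGroup R).ker := by
    have h4 : Kθ.subgroupOf (Q R K n) = θ.ker :=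
      Subgroup.comap_map_eq_self_of_injective (Subgroup.subtype_injective _) _
    rw [Subgroup.relIndex, h4, Subgroup.index_ker, hrange]
  have h2 : N.relIndex Kθ = Nat.card (Rˣ ⧸ (powMonoidHom n : Rˣ →* Rˣ).range) := by
    have h5 : N.comap ι = (powMonoidHom n : Rˣ →* Rˣ).range := by
      rw [← selmerGroup.fromUnit_ker (R := R) (K := K)]
      ext u
      rw [Subgroup.mem_comap, MonoidHom.mem_ker, ← QuotientGroup.eq_one_iff, Subtype.ext_iff]
      rfl
    rw [hker, Subgroup.relIndex_sup_left, MonoidHom.range_eq_map, ← Subgroup.relIndex_comap, h5,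
      Subgroup.relIndex_top_right, Subgroup.index_eq_card]
  rw [h1, ← Subgroup.relIndex_mul_relIndex N Kθ (Q R K n) hNK hKQ, h2, h3]

end Fermat.Agent.CFT.GN

end
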