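/-
TEAM CFT, layer [GLOB-GN], task GN-K3f (helper96): number fields containing `μ_p`, `p` odd, are
totally complex, so `2 (rank + 1) = degree`.
-/
import Fermat.Agent.CFT.GN.Interface

set_option autoImplicit false

namespace Fermat.Agent.CFT.GN

open NumberField NumberField.InfinitePlace

theorem k3f_isComplex {K : Type} [Field K] [NumberField K] {p : ℕ} (hp : p.Prime) (hp2 : p ≠ 2)
    {ζ : K} (hζ : IsPrimitiveRoot ζ p) (v : InfinitePlace K) : v.IsComplex := by
  rw [← not_isReal_iff_isComplex]
  intro hv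
  have h1 : ComplexEmbedding.IsReal v.embedding := isReal_iff.mp hv
  have h2 : (starRingEnd ℂ) (v.embedding ζ) = v.embedding ζ := RingHom.congr_fun h1 ζ
  obtain ⟨x, hx⟩ := Complex.conj_eq_iff_real.mp h2
  have h3 : (v.embedding ζ) ^ p = 1 := by rw [← map_pow, hζ.pow_eq_one, map_one]
  have h4 : x ^ p = 1 := by
    rw [hx] at h3
    exact_mod_cast h3
  have hodd : Odd p := hp.odd_of_ne_two hp2
  have h5 : x = 1 := by
    have := hodd.strictMono_pow (R := ℝ)
    exact this.injective (by simpa using h4)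
  have h6 : v.embedding ζ = 1 := by rw [hx, h5]; simp
  have h7 : ζ = 1 := v.embedding.injective (by rw [h6, map_one])
  exact hp.one_lt.ne' (hζ.unique (h7 ▸ IsPrimitiveRoot.one))

theorem k3f : Stmt_K3f := by
  intro K _ _ p hp hp2 ⟨ζ, hζ⟩
  have h0 : nrRealPlaces K = 0 := by
    rw [nrRealPlaces_eq_zero_iff]
    exact ⟨fun v => k3f_isComplex hp hp2 hζ v⟩
  have h1 := card_add_two_mul_card_eq_rank K
  have h2 := card_eq_nrRealPlaces_add_nrComplexPlaces K
  have h3 : 0 < Fintype.card (InfinitePlace K) := Fintype.card_pos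
  rw [Units.rank]
  omega

end Fermat.Agent.CFT.GN
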