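import Fermat.Agent.CFT.GN.Interface

/-!
# CFT / GN-KUMalg : Kummer theory `kˣ/kˣᵖ ≅ Hom_cont(Gal(ℚ̄/k), 𝔽_p)`
-/

set_option autoImplicit false

noncomputable section

namespace Fermat.Agent.CFT.GN

open IsDedekindDomain NumberField Fermat.Agent.CFT.Top

namespace KumAlg

local instance isAlgebraicQb : Algebra.IsAlgebraic ℚ (AlgebraicClosure ℚ) :=
  AlgebraicClosure.isAlgebraic ℚ
local instance isAlgClosureQb : IsAlgClosure ℚ (AlgebraicClosure ℚ) :=
  ⟨inferInstance, inferInstance⟩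
local instance normalQb : Normal ℚ (AlgebraicClosure ℚ) :=
  IsAlgClosure.normal ℚ (AlgebraicClosure ℚ)
local instance isGaloisQb : IsGalois ℚ (AlgebraicClosure ℚ) := ⟨⟩

variable {p : ℕ} {k : IF} {ζ : Qb}

theorem zeta_val_add (hp : p.Prime) (hζ : IsPrimitiveRoot ζ p) (a b : ZMod p) :
    ζ ^ (a + b).val = ζ ^ a.val * ζ ^ b.val := by
  have : NeZero p := ⟨hp.ne_zero⟩
  rw [ZMod.val_add, ← pow_add]
  conv_rhs => rw [← Nat.div_add_mod (a.val + b.val) p, pow_add, pow_mul, hζ.pow_eq_one, one_pow,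
    one_mul]

theorem zeta_val_inj (hp : p.Prime) (hζ : IsPrimitiveRoot ζ p) {a b : ZMod p}
    (h : ζ ^ a.val = ζ ^ b.val) : a = b := by
  have : NeZero p := ⟨hp.ne_zero⟩
  exact ZMod.val_injective p (hζ.pow_inj (ZMod.val_lt a) (ZMod.val_lt b) h)

theorem zeta_ne_zero (hp : p.Prime) (hζ : IsPrimitiveRoot ζ p) : ζ ≠ 0 :=
  hζ.ne_zero hp.ne_zero

/-- two `p`-th roots of the same element differ by a power of `ζ`. -/
theorem exists_eq_zeta_pow_mul (hp : p.Prime) (hζ : IsPrimitiveRoot ζ p) {t t' : Qb} (ht : t ≠ 0)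
    (h : t' ^ p = t ^ p) : ∃ a : ZMod p, t' = ζ ^ a.val * t := by
  have : NeZero p := ⟨hp.ne_zero⟩
  have h1 : (t' / t) ^ p = 1 := by
    rw [div_pow, h, div_self (pow_ne_zero _ ht)]
  obtain ⟨i, hi, hi'⟩ := hζ.eq_pow_of_pow_eq_one h1
  refine ⟨(i : ZMod p), ?_⟩
  rw [ZMod.val_natCast, Nat.mod_eq_of_lt hi, hi']
  field_simp

theorem fix_of_mem (g : k.fixingSubgroup) {y : Qb} (hy : y ∈ k) : (g : GQ) y = y :=
  (IntermediateField.mem_fixingSubgroup_iff k _).mp g.2 y hy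

theorem mem_of_fix {y : Qb} (h : ∀ g : k.fixingSubgroup, (g : GQ) y = y) : y ∈ k := by
  rw [← InfiniteGalois.fixedField_fixingSubgroup k, IntermediateField.mem_fixedField_iff]
  exact fun g hg => h ⟨g, hg⟩

/-- an eigenvector gives `IsKum`. -/
theorem isKum_of_eigen (hp : p.Prime) (hζ : IsPrimitiveRoot ζ p) (hζk : ζ ∈ k) (x : kˣ)
    (χ : k.fixingSubgroup →* Multiplicative (ZMod p)) (t : Qb) (ht : t ^ p = ((x : k) : Qb))
    (h : ∀ g : k.fixingSubgroup, (g : GQ) t = ζ ^ (Multiplicative.toAdd (χ g)).val * t) :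
    IsKum ζ x χ := by
  have hx0 : ((x : k) : Qb) ≠ 0 := by
    simp
  have ht0 : t ≠ 0 := by
    rintro rfl
    rw [zero_pow hp.ne_zero] at ht
    exact hx0 ht.symm
  intro t' ht' g
  obtain ⟨a, rfl⟩ := exists_eq_zeta_pow_mul hp hζ ht0 (ht'.trans ht.symm)
  rw [map_mul, map_pow, fix_of_mem g hζk, h g]
  ring

/-- part (1) -/
theorem exists_char (hp : p.Prime) (hζ : IsPrimitiveRoot ζ p) (hζk : ζ ∈ k) (x : kˣ) :
    ∃ χ : k.fixingSubgroup →* Multiplicative (ZMod p), IsContChar χ ∧ IsKum ζ x χ := by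
  have : NeZero p := ⟨hp.ne_zero⟩
  obtain ⟨t, ht⟩ := IsAlgClosed.exists_pow_nat_eq (((x : k) : Qb)) hp.pos
  have hx0 : ((x : k) : Qb) ≠ 0 := by simp
  have ht0 : t ≠ 0 := by
    rintro rfl
    rw [zero_pow hp.ne_zero] at ht
    exact hx0 ht.symm
  have hex : ∀ g : k.fixingSubgroup, ∃ a : ZMod p, (g : GQ) t = ζ ^ a.val * t := by
    intro g
    refine exists_eq_zeta_pow_mul hp hζ ht0 ?_
    rw [← map_pow, ht, fix_of_mem g (x : k).2]
  choose e he using hex
  have hmul : ∀ g h : k.fixingSubgroup, e (g * h) = e g + e h := by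
    intro g h
    refine zeta_val_inj hp hζ ?_
    have h1 : ((g * h : k.fixingSubgroup) : GQ) t = (g : GQ) ((h : GQ) t) := rfl
    rw [he, he h, map_mul, map_pow, fix_of_mem g hζk, he g] at h1
    rw [zeta_val_add hp hζ]
    have h2 : ζ ^ (e (g * h)).val * t = (ζ ^ (e g).val * ζ ^ (e h).val) * t := by
      rw [h1]; ring
    exact mul_right_cancel₀ ht0 h2
  have hone : e 1 = 0 := by
    have := hmul 1 1
    rw [mul_one] at this
    exact (add_eq_left.mp this.symm)
  let χ : k.fixingSubgroup →* Multiplicative (ZMod p) :=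
    { toFun := fun g => Multiplicative.ofAdd (e g)
      map_one' := by rw [hone]; rfl
      map_mul' := fun g h => by rw [hmul]; rfl }
  refine ⟨χ, ⟨IntermediateField.adjoin ℚ {t}, ?_, ?_⟩, isKum_of_eigen hp hζ hζk x χ t ht he⟩
  · exact IntermediateField.adjoin.finiteDimensional (Algebra.IsIntegral.isIntegral t)
  · intro s hs
    have h1 : (s : GQ) t = t :=
      (IntermediateField.mem_fixingSubgroup_iff _ _).mp hs t
        (IntermediateField.mem_adjoin_simple_self ℚ t)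
    rw [he s] at h1
    have h2 : ζ ^ (e s).val = ζ ^ (0 : ZMod p).val := by
      rw [ZMod.val_zero, pow_zero]
      exact mul_right_cancel₀ ht0 (by rw [h1, one_mul])
    have h3 := zeta_val_inj hp hζ h2
    show Multiplicative.ofAdd (e s) = 1
    rw [h3]; rfl

/-- part (3) -/
theorem isKum_iff (hp : p.Prime) (hζ : IsPrimitiveRoot ζ p) (hζk : ζ ∈ k) (x x' : kˣ)
    (χ : k.fixingSubgroup →* Multiplicative (ZMod p)) (h : IsKum ζ x χ) :
    IsKum ζ x' χ ↔ x / x' ∈ (powMonoidHom p : kˣ →* kˣ).range := by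
  obtain ⟨t, ht⟩ := IsAlgClosed.exists_pow_nat_eq (((x : k) : Qb)) hp.pos
  obtain ⟨t', ht'⟩ := IsAlgClosed.exists_pow_nat_eq (((x' : k) : Qb)) hp.pos
  have hx0 : ((x : k) : Qb) ≠ 0 := by simp
  have hx0' : ((x' : k) : Qb) ≠ 0 := by simp
  have ht0 : t ≠ 0 := by
    rintro rfl
    rw [zero_pow hp.ne_zero] at ht
    exact hx0 ht.symm
  have ht0' : t' ≠ 0 := by
    rintro rfl
    rw [zero_pow hp.ne_zero] at ht'
    exact hx0' ht'.symm
  constructor
  · intro h'
    have hu : t / t' ∈ k := by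
      refine mem_of_fix fun g => ?_
      rw [map_div₀, h t ht g, h' t' ht' g]
      have := pow_ne_zero (Multiplicative.toAdd (χ g)).val (zeta_ne_zero hp hζ)
      field_simp
    have hu0 : (⟨t / t', hu⟩ : k) ≠ 0 := by
      intro h0
      have := congrArg Subtype.val h0
      exact (div_ne_zero ht0 ht0') this
    refine ⟨Units.mk0 ⟨t / t', hu⟩ hu0, ?_⟩
    ext
    simp only [powMonoidHom_apply, Units.val_pow_eq_pow_val, Units.val_mk0,
      SubmonoidClass.mk_pow, Units.val_div_eq_div_val, IntermediateField.coe_div]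
    rw [div_pow, ht, ht']
  · rintro ⟨y, hy⟩
    have hy' : ((y : k) : Qb) ^ p = ((x : k) : Qb) / ((x' : k) : Qb) := by
      have := congrArg (fun u : kˣ => ((u : k) : Qb)) hy
      simpa using this
    have hy0 : ((y : k) : Qb) ≠ 0 := by simp
    refine isKum_of_eigen hp hζ hζk x' χ t' ht' fun g => ?_
    have h1 : (t' * ((y : k) : Qb)) ^ p = ((x : k) : Qb) := by
      rw [mul_pow, ht', hy']
      field_simp
    have h2 := h _ h1 g
    rw [map_mul, fix_of_mem g (y : k).2, ← mul_assoc] at h2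
    exact mul_right_cancel₀ hy0 h2

/-- every embedding of an intermediate field extends to an automorphism of `ℚ̄`. -/
theorem exists_lift (M : IF) (τ : M →ₐ[ℚ] Qb) : ∃ g : GQ, ∀ y : M, g (y : Qb) = τ y := by
  let φ : Qb →ₐ[ℚ] Qb := τ.liftNormal Qb
  have hφ : ∀ y : M, φ (y : Qb) = τ y := fun y => τ.liftNormal_commutes Qb y
  exact ⟨AlgEquiv.ofBijective φ (Algebra.IsAlgebraic.algHom_bijective φ), hφ⟩

/-- Hilbert 90 for a continuous character with values in `μ_p ⊆ k`. -/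
theorem exists_eigen (hp : p.Prime) (hfd : FiniteDimensional ℚ k) (hζ : IsPrimitiveRoot ζ p)
    (hζk : ζ ∈ k) (χ : k.fixingSubgroup →* Multiplicative (ZMod p)) (hχ : IsContChar χ) :
    ∃ t : Qb, t ≠ 0 ∧
      ∀ g : k.fixingSubgroup, (g : GQ) t = ζ ^ (Multiplicative.toAdd (χ g)).val * t := by
  classical
  obtain ⟨F, hF, hFχ⟩ := hχ
  let M : IF := F ⊔ k
  have hM : FiniteDimensional ℚ M := IntermediateField.finiteDimensional_sup F k
  have hkM : k ≤ M := le_sup_right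
  have hFM : F ≤ M := le_sup_left
  let c : k.fixingSubgroup → Qb := fun g => ζ ^ (Multiplicative.toAdd (χ g)).val
  have hc0 : ∀ g, c g ≠ 0 := fun g => pow_ne_zero _ (zeta_ne_zero hp hζ)
  have hck : ∀ g, c g ∈ k := fun g => pow_mem hζk _
  have hcmul : ∀ g h, c (g * h) = c g * c h := by
    intro g h
    show ζ ^ (Multiplicative.toAdd (χ (g * h))).val = _
    rw [map_mul, toAdd_mul, zeta_val_add hp hζ]
  -- the embeddings of `M` over `k`
  let H : Type := {τ : M →ₐ[ℚ] Qb // ∀ y : M, (y : Qb) ∈ k → τ y = y}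
  have : Finite H := Subtype.finite
  have : Fintype H := Fintype.ofFinite H
  let act : k.fixingSubgroup → H → H := fun g τ =>
    ⟨((g : GQ) : Qb →ₐ[ℚ] Qb).comp τ.1, fun y hy => by
      show (g : GQ) (τ.1 y) = y
      rw [τ.2 y hy, fix_of_mem g hy]⟩
  have hact : ∀ (g : k.fixingSubgroup) (τ : H) (y : M), (act g τ).1 y = (g : GQ) (τ.1 y) :=
    fun _ _ _ => rfl
  let res : k.fixingSubgroup → H := fun g =>
    ⟨((g : GQ) : Qb →ₐ[ℚ] Qb).comp M.val, fun y hy => fix_of_mem g hy⟩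
  have hres : ∀ (g : k.fixingSubgroup) (y : M), (res g).1 y = (g : GQ) (y : Qb) := fun _ _ => rfl
  have hsurj : ∀ τ : H, ∃ g : k.fixingSubgroup, res g = τ := by
    intro τ
    obtain ⟨g, hg⟩ := exists_lift M τ.1
    refine ⟨⟨g, (IntermediateField.mem_fixingSubgroup_iff k g).mpr fun y hy => ?_⟩, ?_⟩
    · rw [hg ⟨y, hkM hy⟩]
      exact τ.2 ⟨y, hkM hy⟩ hy
    · exact Subtype.ext (AlgHom.ext fun y => hg y)
  choose lft hlft using hsurj
  have hres_eq : ∀ g h : k.fixingSubgroup, res g = res h → c g = c h := by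
    intro g h hgh
    have h1 : ((g⁻¹ * h : k.fixingSubgroup) : GQ) ∈ F.fixingSubgroup := by
      rw [IntermediateField.mem_fixingSubgroup_iff]
      intro y hy
      have h2 : (g : GQ) y = (h : GQ) y := by
        have := congrArg (fun τ : H => τ.1 ⟨y, hFM hy⟩) hgh
        exact this
      show (g : GQ)⁻¹ ((h : GQ) y) = y
      rw [← h2]
      exact (g : GQ).symm_apply_apply y
    have h3 := hFχ _ h1
    rw [map_mul, map_inv, inv_mul_eq_one] at h3
    show ζ ^ (Multiplicative.toAdd (χ g)).val = ζ ^ (Multiplicative.toAdd (χ h)).val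
    rw [h3]
  let ct : H → Qb := fun τ => c (lft τ)
  have hct_res : ∀ g, ct (res g) = c g := fun g => hres_eq _ _ (hlft (res g))
  have hact_res : ∀ g h, act g (res h) = res (g * h) := fun g h => rfl
  have hct_act : ∀ g τ, ct (act g τ) = c g * ct τ := by
    intro g τ
    conv_lhs => rw [← hlft τ, hact_res, hct_res, hcmul]
  let actE : k.fixingSubgroup → H ≃ H := fun g =>
    { toFun := act g
      invFun := act g⁻¹
      left_inv := fun τ => Subtype.ext (AlgHom.ext fun y => by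
        show (g : GQ)⁻¹ ((g : GQ) (τ.1 y)) = τ.1 y
        exact (g : GQ).symm_apply_apply _)
      right_inv := fun τ => Subtype.ext (AlgHom.ext fun y => by
        show (g : GQ) ((g : GQ)⁻¹ (τ.1 y)) = τ.1 y
        exact (g : GQ).apply_symm_apply _) }
  let T : M → Qb := fun a => ∑ τ : H, (ct τ)⁻¹ * τ.1 a
  have hT : ∀ (g : k.fixingSubgroup) (a : M), (g : GQ) (T a) = c g * T a := by
    intro g a
    show (g : GQ) (∑ τ : H, (ct τ)⁻¹ * τ.1 a) = c g * ∑ τ : H, (ct τ)⁻¹ * τ.1 a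
    rw [map_sum, Finset.mul_sum, ← Equiv.sum_comp (actE g) (fun τ => c g * ((ct τ)⁻¹ * τ.1 a))]
    refine Finset.sum_congr rfl fun τ _ => ?_
    show _ = c g * ((ct (act g τ))⁻¹ * (act g τ).1 a)
    rw [map_mul, map_inv₀, fix_of_mem g (hck (lft τ)), hct_act, hact]
    have h1 := hc0 g
    have h2 : ct τ ≠ 0 := hc0 _
    have h3 : c (lft τ) = ct τ := rfl
    rw [h3]
    field_simp
  -- non-vanishing
  have hne : ∃ a : M, T a ≠ 0 := by
    by_contra hcon
    push Not at hcon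
    have hli : LinearIndependent Qb (fun τ : H => (((τ.1 : M →* Qb)) : M → Qb)) := by
      refine (linearIndependent_monoidHom M Qb).comp (fun τ : H => (τ.1 : M →* Qb)) ?_
      intro τ τ' h
      refine Subtype.ext (AlgHom.ext fun y => ?_)
      exact congrArg (fun f : M →* Qb => f y) h
    have h0 : ∑ τ : H, (ct τ)⁻¹ • (((τ.1 : M →* Qb)) : M → Qb) = 0 := by
      funext a
      rw [Finset.sum_apply]
      exact hcon a
    have := Fintype.linearIndependent_iff.mp hli _ h0 (res 1)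
    exact inv_ne_zero (hc0 _) this
  obtain ⟨a, ha⟩ := hne
  exact ⟨T a, ha, fun g => hT g a⟩

/-- part (2) -/
theorem exists_isKum (hp : p.Prime) (hfd : FiniteDimensional ℚ k) (hζ : IsPrimitiveRoot ζ p)
    (hζk : ζ ∈ k) (χ : k.fixingSubgroup →* Multiplicative (ZMod p)) (hχ : IsContChar χ) :
    ∃ x : kˣ, IsKum ζ x χ := by
  obtain ⟨t, ht0, ht⟩ := exists_eigen hp hfd hζ hζk χ hχ
  have hmem : t ^ p ∈ k := by
    refine mem_of_fix fun g => ?_
    rw [map_pow, ht g, mul_pow, ← pow_mul, mul_comm _ p, pow_mul, hζ.pow_eq_one, one_pow, one_mul]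
  have hx0 : (⟨t ^ p, hmem⟩ : k) ≠ 0 := by
    intro h0
    exact pow_ne_zero p ht0 (congrArg Subtype.val h0)
  exact ⟨Units.mk0 ⟨t ^ p, hmem⟩ hx0, isKum_of_eigen hp hζ hζk _ χ t rfl ht⟩

end KumAlg

/-- (KUM-alg) Kummer theory. -/
theorem kumAlg : Stmt_KumAlg := fun _ _ _ hp hfd hζ hζk =>
  ⟨KumAlg.exists_char hp hζ hζk, KumAlg.exists_isKum hp hfd hζ hζk, KumAlg.isKum_iff hp hζ hζk⟩

end Fermat.Agent.CFT.GN
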