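/-
TEAM CFT -> S55, layer [GLOB-GN], task GN-KUMram (helper47):
Kummer characters unramified outside `S` = Selmer group; the count.
-/
import Fermat.Agent.CFT.GN.Interface
import Fermat.Agent.CFT.GN.K3c

set_option autoImplicit false

noncomputable section

namespace Fermat.Agent.CFT.GN

open IsDedekindDomain NumberField Fermat.Agent.CFT.Top

namespace KumRam

/-- a valuation subring of `ℚ̄` lies over at most one prime. -/
theorem prime_unique (A : ValuationSubring Qb) {q q' : ℕ} (hq : q.Prime) (hq' : q'.Prime)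
    (h : (q : Qb) ∈ A.nonunits) (h' : (q' : Qb) ∈ A.nonunits) : q = q' := by
  by_contra hne
  have hcop : IsCoprime (q : ℤ) (q' : ℤ) :=
    Nat.isCoprime_iff_coprime.2 ((Nat.coprime_primes hq hq').2 hne)
  obtain ⟨a, b, hab⟩ := hcop
  obtain ⟨h1, h2⟩ := ValuationSubring.mem_nonunits_iff_exists_mem_maximalIdeal.1 h
  obtain ⟨h1', h2'⟩ := ValuationSubring.mem_nonunits_iff_exists_mem_maximalIdeal.1 h'
  have h3 : (1 : A) ∈ IsLocalRing.maximalIdeal A := by
    have e : (1 : A) = (a : A) * ⟨q, h1⟩ + (b : A) * ⟨q', h1'⟩ := by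
      ext
      push_cast
      exact_mod_cast hab.symm
    rw [e]
    exact add_mem (Ideal.mul_mem_left _ _ h2) (Ideal.mul_mem_left _ _ h2')
  exact (Ideal.ne_top_iff_one _).1 (IsLocalRing.maximalIdeal.isMaximal A).ne_top h3

/-- membership in the Selmer group. -/
theorem mem_selmer_iff {R K : Type} [CommRing R] [IsDedekindDomain R] [Field K] [Algebra R K]
    [IsFractionRing R K] (T : Set (HeightOneSpectrum R)) (p : ℕ) (x : Kˣ) :
    (x : Kˣ ⧸ (powMonoidHom p : Kˣ →* Kˣ).range) ∈ selmerGroup (R := R) (K := K) (S := T) (n := p)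
      ↔ ∀ v : HeightOneSpectrum R, v ∉ T →
        (p : ℤ) ∣ Multiplicative.toAdd (v.valuationOfNeZero x) := by
  refine forall_congr' fun v => forall_congr' fun _ => ?_
  rw [K3c.valMod_mk, ← ofAdd_zero, Multiplicative.ofAdd.injective.eq_iff,
    ZMod.intCast_zmod_eq_zero_iff_dvd]

/-- exponents of a primitive root. -/
theorem zeta_pow_eq_one {p : ℕ} [NeZero p] {ζ : Qb} (hζ : IsPrimitiveRoot ζ p) (a : ZMod p)
    (h : ζ ^ a.val = 1) : a = 0 := by
  have h1 := hζ.dvd_of_pow_eq_one _ h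
  have h2 := ZMod.val_lt a
  have h3 : a.val = 0 := Nat.eq_zero_of_dvd_of_lt h1 h2
  exact (ZMod.val_eq_zero a).1 h3

theorem zeta_pow_inj {p : ℕ} [NeZero p] {ζ : Qb} (hζ : IsPrimitiveRoot ζ p) (a b : ZMod p)
    (h : ζ ^ a.val = ζ ^ b.val) : a = b :=
  ZMod.val_injective p (hζ.pow_inj (ZMod.val_lt a) (ZMod.val_lt b) h)

theorem isGaloisQb : IsGalois ℚ Qb := by
  have : Algebra.IsAlgebraic ℚ (AlgebraicClosure ℚ) := AlgebraicClosure.isAlgebraic ℚ
  have : IsAlgClosure ℚ (AlgebraicClosure ℚ) := ⟨inferInstance, inferInstance⟩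
  have : Normal ℚ (AlgebraicClosure ℚ) := IsAlgClosure.normal ℚ (AlgebraicClosure ℚ)
  exact ⟨⟩

/-- Step 1 : `χ` has an `S`-level iff the `p`-th root lies in `ℚ_S`. -/
theorem sLev1_iff {p : ℕ} {S : Finset Nat.Primes} {k : IF} {ζ : Qb} (hB : Base p S k ζ)
    (x : kˣ) (χ : k.fixingSubgroup →* Multiplicative (ZMod p)) (hK : IsKum ζ x χ)
    (t : Qbˣ) (ht : (t : Qb) ^ p = ((x : k) : Qb)) :
    SLev1 S k χ ↔ t ∈ QS S := by
  have : NeZero p := ⟨hB.prime.ne_zero⟩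
  have := isGaloisQb
  constructor
  · rintro ⟨F, hF, h⟩
    refine ⟨F ⊔ k, hF.sup hB.unr, ?_⟩
    rw [← InfiniteGalois.fixedField_fixingSubgroup (F ⊔ k), IntermediateField.mem_fixedField_iff]
    intro σ hσ
    rw [IntermediateField.fixingSubgroup_sup] at hσ
    have h1 := h 1 ⟨σ, hσ.2⟩ hσ.1
    rw [one_mul, map_one] at h1
    have h2 := hK t ht ⟨σ, hσ.2⟩
    rw [h1] at h2
    simpa using h2
  · rintro ⟨F, hF, htF⟩
    refine ⟨F, hF, fun g s hs => ?_⟩
    have h1 : (s : GQ) (t : Qb) = t := (IntermediateField.mem_fixingSubgroup_iff F _).1 hs _ htF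
    have h2 := hK t ht s
    rw [h1] at h2
    have h3 : ζ ^ (Multiplicative.toAdd (χ s)).val = 1 := by
      have := mul_right_cancel₀ t.ne_zero ((one_mul (t : Qb)).trans h2)
      exact this.symm
    have h4 : χ s = 1 := zeta_pow_eq_one hB.zeta _ h3
    rw [map_mul, h4, mul_one]

/-- Step 2 : the `p`-th root lies in `ℚ_S` iff the divisor outside `S` is divisible by `p`. -/
theorem mem_QS_iff (hC : Stmt_DictC) (hR : Stmt_Ram1) {p : ℕ} {S : Finset Nat.Primes} {k : IF}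
    {ζ : Qb} (hB : Base p S k ζ) (x : kˣ) (t : Qbˣ) (ht : (t : Qb) ^ p = ((x : k) : Qb)) :
    t ∈ QS S ↔ ∀ q : Nat.Primes, q ∉ S → ∀ A : ValuationSubring Qb, A.LiesOverPrime (q : ℕ) →
      ∃ m : ℤ, A.valuation (((x : k) : Qb)) = A.valuation (q : Qb) ^ ((p : ℤ) * m) := by
  constructor
  · intro htS q hq A hA
    obtain ⟨m, hm⟩ := hC S q hq A hA t htS
    refine ⟨m, ?_⟩
    rw [← ht, map_pow, hm, ← zpow_natCast, ← zpow_mul, mul_comm]
  · intro h
    have hx0 : ((x : k) : Qb) ≠ 0 := by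
      simp
    refine hR p S hB.prime hB.mem (Units.mk0 _ hx0) t ⟨k, hB.unr, (x : k).2⟩ ?_ h
    exact Units.ext ht

/-- Step 3 : translation to the primes of `k`. -/
theorem div_iff (hA : Stmt_DictA) (hE : Stmt_DictE) {p : ℕ} {S : Finset Nat.Primes} {k : IF}
    [NumberField k] {ζ : Qb} (hB : Base p S k ζ) (x : kˣ) :
    (∀ q : Nat.Primes, q ∉ S → ∀ A : ValuationSubring Qb, A.LiesOverPrime (q : ℕ) →
      ∃ m : ℤ, A.valuation (((x : k) : Qb)) = A.valuation (q : Qb) ^ ((p : ℤ) * m)) ↔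
    ∀ v : HeightOneSpectrum (𝓞 k), v ∉ TS S k →
      (p : ℤ) ∣ Multiplicative.toAdd (v.valuationOfNeZero x) := by
  obtain ⟨hA1, hA2, hA3, -⟩ := hA k
  constructor
  · intro h v hv
    obtain ⟨A, hAv⟩ := hA1 v
    obtain ⟨q, hq, hqv⟩ := hA3 v
    have hAq : A.LiesOverPrime q := by
      have := (hAv (q : 𝓞 k)).1 hqv
      unfold ValuationSubring.LiesOverPrime
      simpa using this
    have hqS : (⟨q, hq⟩ : Nat.Primes) ∉ S := fun hmem => hv ⟨⟨q, hq⟩, hmem, hqv⟩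
    obtain ⟨m, hm⟩ := h ⟨q, hq⟩ hqS A hAq
    have := (hE S k hB.unr v hv A q hq hAq hAv x _).1 hm
    rw [this, toAdd_ofAdd]
    exact (dvd_mul_right _ _).neg_right
  · intro h q hq A hAq
    obtain ⟨v, hAv⟩ := hA2 A q q.2 hAq
    have hv : v ∉ TS S k := by
      rintro ⟨q', hq'S, hq'v⟩
      have h1 : ((q' : ℕ) : Qb) ∈ A.nonunits := by
        have := (hAv ((q' : ℕ) : 𝓞 k)).1 hq'v
        simpa using this
      have h2 : (q : ℕ) = q' := prime_unique A q.2 q'.2 hAq h1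
      exact hq ((Subtype.ext h2 : q = q') ▸ hq'S)
    obtain ⟨c, hc⟩ := h v hv
    refine ⟨-c, ?_⟩
    refine (hE S k hB.unr v hv A q q.2 hAq hAv x _).2 ?_
    apply Multiplicative.toAdd.injective
    rw [hc, toAdd_ofAdd]
    ring

end KumRam

open KumRam in
theorem kumRam (hA : Stmt_DictA) (hC : Stmt_DictC) (hE : Stmt_DictE) (hR : Stmt_Ram1) :
    Stmt_KumRam := by
  intro p S k _ ζ hB x χ hK
  obtain ⟨t, ht⟩ := IsAlgClosed.exists_pow_nat_eq (((x : k) : Qb)) hB.prime.pos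
  have hx0 : ((x : k) : Qb) ≠ 0 := by
    simp
  have ht0 : t ≠ 0 := by
    rintro rfl
    rw [zero_pow hB.prime.ne_zero] at ht
    exact hx0 ht.symm
  rw [sLev1_iff hB x χ hK (Units.mk0 t ht0) ht, mem_QS_iff hC hR hB x (Units.mk0 t ht0) ht,
    div_iff hA hE hB x, mem_selmer_iff]

open KumRam in
theorem kum (h1 : Stmt_KumAlg) (h2 : Stmt_KumRam) : Stmt_Kum := by
  intro p S k _ ζ hB
  have : NeZero p := ⟨hB.prime.ne_zero⟩
  obtain ⟨ha, hb, hc⟩ := h1 p k ζ hB.prime hB.unr.1 hB.zeta hB.zeta_mem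
  have hcont : ∀ χ : k.fixingSubgroup →* Multiplicative (ZMod p), SLev1 S k χ → IsContChar χ := by
    rintro χ ⟨F, hF, h⟩
    refine ⟨F, hF.1, fun s hs => ?_⟩
    have := h 1 s hs
    rwa [one_mul, map_one] at this
  -- uniqueness of the Kummer character
  have huniq : ∀ (x : kˣ) (χ χ' : k.fixingSubgroup →* Multiplicative (ZMod p)),
      IsKum ζ x χ → IsKum ζ x χ' → χ = χ' := by
    intro x χ χ' hχ hχ'
    obtain ⟨t, ht⟩ := IsAlgClosed.exists_pow_nat_eq (((x : k) : Qb)) hB.prime.pos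
    have hx0 : ((x : k) : Qb) ≠ 0 := by
      simp
    have ht0 : t ≠ 0 := by
      rintro rfl
      rw [zero_pow hB.prime.ne_zero] at ht
      exact hx0 ht.symm
    ext g
    have e1 := hχ t ht g
    have e2 := hχ' t ht g
    rw [e1] at e2
    exact zeta_pow_inj hB.zeta _ _ (mul_right_cancel₀ ht0 e2)
  choose X hX using fun χ : {χ : k.fixingSubgroup →* Multiplicative (ZMod p) // SLev1 S k χ} =>
    hb χ.1 (hcont χ.1 χ.2)
  let Φ : {χ : k.fixingSubgroup →* Multiplicative (ZMod p) // SLev1 S k χ} →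
      selmerGroup (R := 𝓞 k) (K := k) (S := TS S k) (n := p) :=
    fun χ => ⟨(X χ : kˣ ⧸ (powMonoidHom p : kˣ →* kˣ).range), (h2 p S k ζ hB (X χ) χ.1 (hX χ)).1 χ.2⟩
  refine Nat.card_congr (Equiv.ofBijective Φ ⟨?_, ?_⟩)
  · intro χ χ' hΦ
    have e1 : (X χ : kˣ ⧸ (powMonoidHom p : kˣ →* kˣ).range) = X χ' := congrArg Subtype.val hΦ
    have e2 : X χ / X χ' ∈ (powMonoidHom p : kˣ →* kˣ).range := by
      have := QuotientGroup.eq.1 e1.symm
      rwa [mul_comm, ← div_eq_mul_inv] at this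
    have e3 : IsKum ζ (X χ') χ.1 := (hc (X χ) (X χ') χ.1 (hX χ)).2 e2
    exact Subtype.ext (huniq (X χ') χ.1 χ'.1 e3 (hX χ'))
  · rintro ⟨c, hcS⟩
    obtain ⟨x, rfl⟩ := QuotientGroup.mk_surjective c
    obtain ⟨χ, -, hχ⟩ := ha x
    have hlev : SLev1 S k χ := (h2 p S k ζ hB x χ hχ).2 hcS
    refine ⟨⟨χ, hlev⟩, Subtype.ext ?_⟩
    have e1 : x / X ⟨χ, hlev⟩ ∈ (powMonoidHom p : kˣ →* kˣ).range :=
      (hc x (X ⟨χ, hlev⟩) χ hχ).1 (hX ⟨χ, hlev⟩)
    change (X ⟨χ, hlev⟩ : kˣ ⧸ (powMonoidHom p : kˣ →* kˣ).range) = x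
    rw [QuotientGroup.eq, mul_comm, ← div_eq_mul_inv]
    exact e1

end Fermat.Agent.CFT.GN

end
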