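/-
TEAM CFT -> S55, layer [GLOB-GN], package GN-LTO (helper32).

`lto (hN : Stmt_NC) (hRo : Stmt_Roots) : Stmt_LTO`: an `S`-level 2-cocycle `U × U → 𝔽_p`
(`U = Gal(ℚ̄/k)`, `μ_p ⊆ k`) is a coboundary on `D_A ∩ U` for every place `A` outside `S`
(`H²(ℤ̂, 𝔽_p) = 0`).

Route: a global Frobenius `φ ∈ D_A`; `D_A` is generated by `φ` modulo every open normal subgroup
containing the inertia group (`LTO.mk_mem_zpowers`); `φ ω = ω ^ q` on `μ_{p^r}`, so the order of `φ`
modulo `Fix M(μ_{p^r})` is divisible by `p *` (the order of `φ` modulo `Fix M`) for `r` large;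
explicit primitive on a cyclic group (`LTO.abstract_split`).
-/
import Fermat.Agent.CFT.GN.Interface2
import Fermat.Agent.S14.DIC
import Fermat.Agent.CFT.Top.BridgeLevels

set_option autoImplicit false

noncomputable section

namespace Fermat.Agent.CFT.GN

open Fermat.Agent.S54.Frob95 (Zbar primeOf mem_primeOf)
open Fermat.Agent.CFT.Top
open scoped Pointwise

namespace LTO

/-! ### periodic sums and the explicit primitive of a cocycle on a cyclic group -/

section Sums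

variable {R : Type*} [AddCommGroup R]

theorem sum_range_add_period (a : ℕ → R) (n : ℕ) (ha : ∀ l, a (l + n) = a l) (i : ℕ) :
    ∑ l ∈ Finset.range (i + n), a l
      = ∑ l ∈ Finset.range i, a l + ∑ l ∈ Finset.range n, a l := by
  induction i with
  | zero => simp
  | succ i ih =>
    rw [Nat.add_right_comm, Finset.sum_range_succ, ih, ha, Finset.sum_range_succ]
    abel

theorem sum_range_add_mul_period (a : ℕ → R) (n : ℕ) (ha : ∀ l, a (l + n) = a l) (e i : ℕ) :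
    ∑ l ∈ Finset.range (i + n * e), a l
      = ∑ l ∈ Finset.range i, a l + e • ∑ l ∈ Finset.range n, a l := by
  induction e with
  | zero => simp
  | succ e ih =>
    rw [Nat.mul_succ, ← Nat.add_assoc, sum_range_add_period a n ha, ih, succ_nsmul]
    abel

end Sums

theorem sum_range_eq_of_modEq {p : ℕ} (a : ℕ → ZMod p) (n e : ℕ) (ha : ∀ l, a (l + n) = a l)
    (hpe : p ∣ e) {i j : ℕ} (hij : i ≡ j [MOD n * e]) :
    ∑ l ∈ Finset.range i, a l = ∑ l ∈ Finset.range j, a l := by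
  wlog h : i ≤ j generalizing i j
  · exact (this hij.symm (le_of_not_ge h)).symm
  obtain ⟨t, ht⟩ := (Nat.modEq_iff_dvd' h).1 hij
  have hj : j = i + n * (e * t) := by
    rw [← mul_assoc, ← ht]; omega
  rw [hj, sum_range_add_mul_period a n ha]
  have h0 : ((e * t : ℕ) : ZMod p) = 0 :=
    (ZMod.natCast_eq_zero_iff _ _).2 (Dvd.dvd.mul_right hpe t)
  rw [nsmul_eq_mul, h0, zero_mul, add_zero]

section Cocycle

variable {G : Type*} [Group G] {R : Type*} [AddCommGroup R]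

/-- the explicit primitive on the powers of `c`. -/
def prim (f : G × G → R) (c : G) (i : ℕ) : R := f (1, 1) - ∑ l ∈ Finset.range i, f (c ^ l, c)

theorem prim_succ (f : G × G → R) (c : G) (i : ℕ) :
    prim f c (i + 1) = prim f c i - f (c ^ i, c) := by
  unfold prim
  rw [Finset.sum_range_succ]
  abel

theorem cocycle_pow (f : G × G → R)
    (hf : ∀ g h j, f (h, j) - f (g * h, j) + f (g, h * j) - f (g, h) = 0) (c : G) (i j : ℕ) :
    f (c ^ i, c ^ j) = prim f c j - prim f c (i + j) + prim f c i := by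
  induction j with
  | zero =>
    have h1 := hf (c ^ i) 1 1
    rw [mul_one, mul_one] at h1
    have h2 : f (c ^ i, 1) = f (1, 1) := by
      have : f (1, 1) - f (c ^ i, 1) = 0 := by
        rw [← h1]; abel
      exact (sub_eq_zero.1 this).symm
    rw [pow_zero, h2, add_zero]
    simp [prim]
  | succ j ih =>
    have h1 := hf (c ^ i) (c ^ j) c
    rw [← pow_add, ← pow_succ] at h1
    have h2 : f (c ^ i, c ^ (j + 1)) = f (c ^ i, c ^ j) - f (c ^ j, c) + f (c ^ (i + j), c) := by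
      rw [← sub_eq_zero, ← h1]; abel
    rw [h2, ih, ← add_assoc, prim_succ, prim_succ]
    abel

end Cocycle

open Classical in
theorem abstract_split {Γ : Type*} [Group Γ] (p : ℕ) (U W W' D : Subgroup Γ) [W.Normal]
    [W'.Normal] [Finite (Γ ⧸ W')] (hW'W : W' ≤ W) (hWU : W ≤ U)
    (f : U × U → ZMod p)
    (hcoc : ∀ g h j, f (h, j) - f (g * h, j) + f (g, h * j) - f (g, h) = 0)
    (hlev : ∀ g g' s s' : U, (s : Γ) ∈ W → (s' : Γ) ∈ W → f (g * s, g' * s') = f (g, g'))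
    (φ : Γ)
    (hgen : ∀ σ ∈ D, (σ : Γ ⧸ W') ∈ Subgroup.zpowers ((φ : Γ) : Γ ⧸ W'))
    (hdiv : p * orderOf ((φ : Γ) : Γ ⧸ W) ∣ orderOf ((φ : Γ) : Γ ⧸ W')) :
    ∃ x : Γ ⧸ W' → ZMod p, ∀ σ τ : U, (σ : Γ) ∈ D → (τ : Γ) ∈ D →
      f (σ, τ) = x ((τ : Γ) : Γ ⧸ W') - x (((σ * τ : U) : Γ) : Γ ⧸ W') + x ((σ : Γ) : Γ ⧸ W') := by
  set N' := orderOf ((φ : Γ) : Γ ⧸ W') with hN'
  set N := orderOf ((φ : Γ) : Γ ⧸ W) with hN
  have hN'pos : 0 < N' := orderOf_pos _
  have hφN' : φ ^ N' ∈ W' := by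
    rw [← QuotientGroup.eq_one_iff, QuotientGroup.mk_pow, hN', pow_orderOf_eq_one]
  have hφN : φ ^ N ∈ W := by
    rw [← QuotientGroup.eq_one_iff, QuotientGroup.mk_pow, hN, pow_orderOf_eq_one]
  have hex : ∃ i, 0 < i ∧ φ ^ i ∈ U := ⟨N', hN'pos, hWU (hW'W hφN')⟩
  set g := Nat.find hex with hg
  have hg0 : 0 < g := (Nat.find_spec hex).1
  have hgU : φ ^ g ∈ U := (Nat.find_spec hex).2
  have hgdvd : ∀ i, φ ^ i ∈ U → g ∣ i := by
    intro i hi
    have h1 : φ ^ i = φ ^ (i % g) * (φ ^ g) ^ (i / g) := by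
      rw [← pow_mul, ← pow_add, Nat.mod_add_div]
    have h2 : φ ^ (i % g) = φ ^ i * ((φ ^ g) ^ (i / g))⁻¹ := by
      rw [h1]; group
    have h3 : φ ^ (i % g) ∈ U := by
      rw [h2]; exact U.mul_mem hi (U.inv_mem (U.pow_mem hgU _))
    by_contra hnd
    have h4 : 0 < i % g := Nat.pos_of_ne_zero fun h0 => hnd (Nat.dvd_of_mod_eq_zero h0)
    exact Nat.find_min hex (Nat.mod_lt i hg0) ⟨h4, h3⟩
  obtain ⟨n, hn⟩ := hgdvd N (hWU hφN)
  obtain ⟨n', hn'⟩ := hgdvd N' (hWU (hW'W hφN'))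
  set c : U := ⟨φ ^ g, hgU⟩ with hc
  set c' : Γ ⧸ W' := ((φ ^ g : Γ) : Γ ⧸ W') with hc'
  have hordc' : orderOf c' = n' := by
    rw [hc', QuotientGroup.mk_pow, orderOf_pow_of_dvd hg0.ne' (by rw [← hN', hn']; exact dvd_mul_right _ _),
      ← hN', hn', Nat.mul_div_cancel_left _ hg0]
  obtain ⟨e, hpe, he⟩ : ∃ e, p ∣ e ∧ n' = n * e := by
    rw [hn, hn'] at hdiv
    have h1 : g * (p * n) ∣ g * n' := by
      rw [show g * (p * n) = p * (g * n) by ring]; exact hdiv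
    obtain ⟨s, hs⟩ := Nat.dvd_of_mul_dvd_mul_left hg0 h1
    exact ⟨p * s, dvd_mul_right _ _, by rw [hs]; ring⟩
  have hcn : ((c ^ n : U) : Γ) ∈ W := by
    have : ((c ^ n : U) : Γ) = φ ^ N := by
      rw [hn, pow_mul]; rfl
    rw [this]; exact hφN
  have hper : ∀ l, f (c ^ (l + n), c) = f (c ^ l, c) := by
    intro l
    have := hlev (c ^ l) c (c ^ n) 1 hcn W.one_mem
    rwa [← pow_add, mul_one] at this
  let x : Γ ⧸ W' → ZMod p := fun γ =>
    if h : ∃ i : ℕ, γ = c' ^ i then prim f c h.choose else 0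
  have hx : ∀ i : ℕ, x (c' ^ i) = prim f c i := by
    intro i
    have h : ∃ i' : ℕ, c' ^ i = c' ^ i' := ⟨i, rfl⟩
    have h1 : x (c' ^ i) = prim f c h.choose := dif_pos h
    rw [h1]
    have h2 : i ≡ h.choose [MOD n * e] := by
      rw [← he, ← hordc']
      exact pow_eq_pow_iff_modEq.1 h.choose_spec
    unfold prim
    rw [sum_range_eq_of_modEq (fun l => f (c ^ l, c)) n e hper hpe h2]
  have hdec : ∀ σ : U, (σ : Γ) ∈ D → ∃ (j : ℕ) (s : U), (s : Γ) ∈ W' ∧ σ = c ^ j * s := by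
    intro σ hσ
    obtain ⟨i, hi⟩ := (mem_powers_iff_mem_zpowers.2 (hgen σ hσ))
    have hi' : ((φ ^ i : Γ) : Γ ⧸ W') = ((σ : Γ) : Γ ⧸ W') := by
      rw [QuotientGroup.mk_pow]; exact hi
    have hw : (φ ^ i)⁻¹ * (σ : Γ) ∈ W' := QuotientGroup.eq.1 hi'
    have hφi : φ ^ i ∈ U := by
      have : φ ^ i = (σ : Γ) * ((φ ^ i)⁻¹ * (σ : Γ))⁻¹ := by group
      rw [this]
      exact U.mul_mem σ.2 (U.inv_mem (hWU (hW'W hw)))
    obtain ⟨j, rfl⟩ := hgdvd i hφi
    refine ⟨j, ⟨_, hWU (hW'W hw)⟩, hw, Subtype.ext ?_⟩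
    show (σ : Γ) = (φ ^ g) ^ j * ((φ ^ (g * j))⁻¹ * (σ : Γ))
    rw [pow_mul]; group
  have hmk : ∀ (j : ℕ) (s : U), (s : Γ) ∈ W' → (((c ^ j * s : U) : Γ) : Γ ⧸ W') = c' ^ j := by
    intro j s hs
    have : ((c ^ j * s : U) : Γ) = (φ ^ g) ^ j * (s : Γ) := rfl
    rw [this, QuotientGroup.mk_mul_of_mem _ hs, QuotientGroup.mk_pow]
  refine ⟨x, fun σ τ hσ hτ => ?_⟩
  obtain ⟨i, s, hs, rfl⟩ := hdec σ hσ
  obtain ⟨j, s', hs', rfl⟩ := hdec τ hτ
  have h1 : ((((c ^ i * s) * (c ^ j * s') : U) : Γ) : Γ ⧸ W') = c' ^ (i + j) := by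
    have : (((c ^ i * s) * (c ^ j * s') : U) : Γ) = ((c ^ i * s : U) : Γ) * ((c ^ j * s' : U) : Γ) :=
      rfl
    rw [this, QuotientGroup.mk_mul, hmk i s hs, hmk j s' hs', pow_add]
  rw [h1, hmk i s hs, hmk j s' hs', hx, hx, hx, hlev _ _ _ _ (hW'W hs) (hW'W hs')]
  exact cocycle_pow f hcoc c i j

/-! ### number theory -/

theorem nt_dvd {p r d e : ℕ} (hp : p.Prime) (hpd : p ∣ d) (h : p ^ r ∣ (d + 1) ^ e - 1)
    (hn : ¬ p ^ r ∣ d) : p ∣ e := by
  by_contra hpe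
  have h1 := geom_sum_mul_add d e
  set G := ∑ i ∈ Finset.range e, (d + 1) ^ i with hG
  have h2 : (d + 1) ^ e - 1 = G * d := by omega
  rw [h2] at h
  have hd0 : (d : ZMod p) = 0 := (ZMod.natCast_eq_zero_iff _ _).2 hpd
  have h3 : (G : ZMod p) = e := by
    rw [hG]
    push_cast
    rw [hd0]
    simp
  have h4 : ¬ p ∣ G := by
    rw [← ZMod.natCast_eq_zero_iff, h3, ZMod.natCast_eq_zero_iff]
    exact hpe
  have h5 : Nat.Coprime (p ^ r) G :=
    Nat.Coprime.pow_left r ((Nat.Prime.coprime_iff_not_dvd hp).2 h4)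
  exact hn (h5.dvd_of_dvd_mul_left h)

/-! ### Frobenius-like endomorphisms and roots of unity -/

/-- copy of `AlgHom.IsArithFrobAt.apply_of_pow_eq_one` with a free exponent `q`. -/
theorem frob_apply_root {S : Type*} [CommRing S] [IsDomain S] (φ : S →+* S) (Q : Ideal S) (q : ℕ)
    (H : ∀ x, φ x - x ^ q ∈ Q) {ζ : S} {m : ℕ} (hζ : ζ ^ m = 1) (hk' : (m : S) ∉ Q) :
    φ ζ = ζ ^ q := by
  have hm : m ≠ 0 := by rintro rfl; exact hk' (by simp)
  obtain ⟨k, hk, hζ⟩ := IsPrimitiveRoot.exists_pos hζ hm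
  have hk' : ↑k ∉ Q := fun h ↦ hk' (Q.mem_of_dvd (Nat.cast_dvd_cast (hζ.2 m ‹_›)) h)
  have : NeZero k := ⟨hk.ne'⟩
  obtain ⟨i, hi, e⟩ := hζ.eq_pow_of_pow_eq_one (ξ := φ ζ) (by rw [← map_pow, hζ.1, map_one])
  have (j : _) : 1 - ζ ^ ((q + k - i) * j) ∈ Q := by
    rw [← Ideal.mul_unit_mem_iff_mem _ ((hζ.isUnit NeZero.out).pow (i * j)),
      sub_mul, one_mul, ← pow_add, ← add_mul, tsub_add_cancel_of_le (by linarith), add_mul,
        pow_add, pow_mul _ k, hζ.1, one_pow, mul_one, pow_mul, e, ← map_pow, mul_comm, pow_mul]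
    exact H _
  have h₁ := sum_mem (t := Finset.range k) fun j _ ↦ this j
  have h₂ := geom_sum_mul (ζ ^ (q + k - i)) k
  rw [pow_right_comm, hζ.1, one_pow, sub_self, mul_eq_zero, sub_eq_zero] at h₂
  rcases h₂ with h₂ | h₂
  · simp [h₂, pow_mul, hk'] at h₁
  replace h₂ := congr($h₂ * ζ ^ i)
  rw [one_mul, ← pow_add, tsub_add_cancel_of_le (by linarith), pow_add, hζ.1, mul_one] at h₂
  rw [h₂, e]

/-! ### lifting from the residue field, for an arbitrary open subgroup -/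

/-- steps 3-4 of `S14.dic_abstract` for an element of the stabiliser of `Q`; the open subgroup `U`
need not be normal. -/
theorem dic_stab {B : Type*} [CommRing B] {G : Type*} [Group G] [MulSemiringAction G B]
    [TopologicalSpace G] [CompactSpace G] [IsTopologicalGroup G] [TotallyDisconnectedSpace G]
    [TopologicalSpace B] [DiscreteTopology B] [ContinuousSMul G B]
    (U : Subgroup G) (hUo : IsOpen (U : Set G)) (Q : Ideal B) [Q.IsPrime]
    (s1 : G) (hs1 : s1 • Q = Q) (h0 : ∀ b : B, (∀ u ∈ U, u • b = b) → s1 • b - b ∈ Q) :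
    ∃ u ∈ U, u • Q = Q ∧ ∀ b : B, u • b - s1 • b ∈ Q := by
  have := S14.dic_compactSpace U hUo
  set A0 := FixedPoints.subalgebra ℤ B ↥U with hA0
  have hs1A : ∀ a : B, a ∈ A0 → s1 • a - a ∈ Q := fun a ha => h0 _ ((S14.dic_mem_A0 U _).mp ha)
  let P0 : Ideal A0 := Q.under A0
  let ψ : (B ⧸ Q) ≃+* (B ⧸ Q) :=
    (Ideal.Quotient.stabilizerHom Q (Q.under ℤ) G ⟨s1, hs1⟩).toRingEquiv
  have hψ : ∀ b : B, ψ (Ideal.Quotient.mk Q b) = Ideal.Quotient.mk Q (s1 • b) := by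
    intro b
    exact Ideal.Quotient.stabilizerHom_apply Q (Q.under ℤ) G ⟨s1, hs1⟩ b
  let φ : (B ⧸ Q) ≃ₐ[A0 ⧸ P0] (B ⧸ Q) := AlgEquiv.ofRingEquiv (f := ψ) (by
    intro r
    obtain ⟨a, rfl⟩ := Ideal.Quotient.mk_surjective r
    have h4 : algebraMap (A0 ⧸ P0) (B ⧸ Q) (Ideal.Quotient.mk P0 a) =
        Ideal.Quotient.mk Q (a : B) := rfl
    rw [h4, hψ]
    exact Ideal.Quotient.eq.mpr (hs1A _ a.2))
  obtain ⟨u2, hu2⟩ := Ideal.Quotient.stabilizerHom_surjective_of_profinite (G := ↥U) P0 Q φ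
  obtain ⟨g2, hg2⟩ : ∃ g2 : G, g2 = ((u2 : ↥U) : G) := ⟨_, rfl⟩
  have hg2U : g2 ∈ U := hg2 ▸ (u2 : ↥U).2
  have hu2Q : g2 • Q = Q := hg2 ▸ u2.2
  refine ⟨g2, hg2U, hu2Q, fun b => ?_⟩
  have h5 := DFunLike.congr_fun hu2 (Ideal.Quotient.mk Q b)
  rw [Ideal.Quotient.stabilizerHom_apply] at h5
  have h6 : φ (Ideal.Quotient.mk Q b) = Ideal.Quotient.mk Q (s1 • b) := hψ b
  rw [h6] at h5
  exact hg2 ▸ Ideal.Quotient.eq.mp h5

/-! ### decomposition groups and the stabiliser of the prime of `Zbar` -/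

theorem inv_smul_ideal {B : Type*} [CommRing B] {G : Type*} [Group G] [MulSemiringAction G B]
    {Q : Ideal B} {u : G} (h : u • Q = Q) : u⁻¹ • Q = Q := by
  conv_lhs => rw [← h]
  rw [inv_smul_smul]

theorem mul_smul_ideal {B : Type*} [CommRing B] {G : Type*} [Group G] [MulSemiringAction G B]
    {Q : Ideal B} {u v : G} (hu : u • Q = Q) (hv : v • Q = Q) : (u * v) • Q = Q := by
  rw [mul_smul, hv, hu]

theorem stab_of_mem_decomp (A : ValuationSubring Qb) (σ : GQ)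
    (hσ : σ ∈ A.decompositionSubgroup ℚ) : σ • primeOf A = primeOf A := by
  have hσ' : σ • A = A := hσ
  have hinv : σ⁻¹ • A = A := by
    conv_lhs => rw [← hσ']
    rw [inv_smul_smul]
  ext b
  rw [Ideal.mem_pointwise_smul_iff_inv_smul_mem, mem_primeOf, mem_primeOf]
  constructor
  · intro h
    have h1 := BrLev.smul_mem_nonunits A σ h
    rw [hσ'] at h1
    have h2 : σ ((σ⁻¹ • b : Zbar) : Qb) = (b : Qb) := σ.apply_symm_apply _
    rwa [h2] at h1
  · intro h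
    have h1 := BrLev.smul_mem_nonunits A σ⁻¹ h
    rw [hinv] at h1
    exact h1

theorem mem_decomp_of_stab (A : ValuationSubring Qb) {q : ℕ} (hq : q.Prime)
    (hA : A.LiesOverPrime q) (s : GQ) (hsQ : s • primeOf A = primeOf A) :
    s ∈ A.decompositionSubgroup ℚ := by
  have hsinv : s⁻¹ • primeOf A = primeOf A := inv_smul_ideal hsQ
  rw [MulAction.mem_stabilizer_iff]
  apply le_antisymm
  · rw [ValuationSubring.pointwise_smul_subset_iff]
    intro x hx
    rw [ValuationSubring.mem_inv_pointwise_smul_iff]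
    exact S54.Frob95.map_mem_of_stabilizer A hq hA s hsQ x hx
  · intro x hx
    rw [ValuationSubring.mem_pointwise_smul_iff_inv_smul_mem]
    exact S54.Frob95.map_mem_of_stabilizer A hq hA s⁻¹ hsinv x hx

/-- an algebraic integer fixed by Frobenius modulo `𝔪_A` is congruent to a rational integer. -/
theorem exists_int_of_pow_sub (A : ValuationSubring Qb) {q : ℕ} (hq : q.Prime)
    (hA : A.LiesOverPrime q) (b : Zbar) (hb : b ^ q - b ∈ primeOf A) :
    ∃ n : ℤ, b - (n : Zbar) ∈ primeOf A := by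
  have : Fact q.Prime := ⟨hq⟩
  have hq0 : (q : IsLocalRing.ResidueField A) = 0 := by
    obtain ⟨hqA, hqm⟩ := A.mem_nonunits_iff_exists_mem_maximalIdeal.mp hA
    have := (IsLocalRing.residue_eq_zero_iff _).mpr hqm
    rw [← this, ← map_natCast (IsLocalRing.residue A) q]
    congr 1
  have hchar : CharP (IsLocalRing.ResidueField A) q := (CharP.charP_iff_prime_eq_zero hq).mpr hq0
  let x : A := ⟨b, S54.Frob95.mem_of_isIntegral A b.2⟩
  have h1 : IsLocalRing.residue A x ^ q = IsLocalRing.residue A x := by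
    rw [← map_pow, ← sub_eq_zero, ← map_sub, IsLocalRing.residue_eq_zero_iff,
      ← ValuationSubring.coe_mem_nonunits_iff]
    exact (mem_primeOf A _).1 hb
  obtain ⟨n, hn⟩ := (mem_bot_iff_intCast q (IsLocalRing.ResidueField A)).1
    ((Subfield.mem_bot_iff_pow_eq_self (IsLocalRing.ResidueField A) q).2 h1)
  refine ⟨n, ?_⟩
  rw [mem_primeOf]
  have h2 : IsLocalRing.residue A (x - (n : A)) = 0 := by
    rw [map_sub, map_intCast, hn, sub_self]
  rw [IsLocalRing.residue_eq_zero_iff, ← ValuationSubring.coe_mem_nonunits_iff] at h2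
  simpa using h2

/-- **procyclicity of `D_A / I_A`**: modulo an open normal subgroup containing the inertia group,
the decomposition group is generated by a Frobenius element. -/
theorem mk_mem_zpowers (A : ValuationSubring Qb) {q : ℕ} (hq : q.Prime) (hA : A.LiesOverPrime q)
    (φ : GQ) (hφ : ∀ b : Zbar, φ • b - b ^ q ∈ primeOf A)
    (W : Subgroup GQ) (hWo : IsOpen (W : Set GQ)) [W.Normal] (hI : A.inertiaSubgroupIn ℚ ≤ W)
    (σ : GQ) (hσ : σ • primeOf A = primeOf A) :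
    (σ : GQ ⧸ W) ∈ Subgroup.zpowers ((φ : GQ) : GQ ⧸ W) := by
  set T : Subgroup GQ := (Subgroup.zpowers ((φ : GQ) : GQ ⧸ W)).comap (QuotientGroup.mk' W) with hT
  have hWT : W ≤ T := by
    intro w hw
    rw [hT, Subgroup.mem_comap]
    have : QuotientGroup.mk' W w = 1 := (QuotientGroup.eq_one_iff w).2 hw
    rw [this]
    exact Subgroup.one_mem _
  have hφT : φ ∈ T := by
    rw [hT, Subgroup.mem_comap]
    exact Subgroup.mem_zpowers _
  have hTo : IsOpen (T : Set GQ) := Subgroup.isOpen_mono hWT hWo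
  obtain ⟨u, huT, huQ, hu⟩ := dic_stab (B := Zbar) (G := GQ) T hTo (primeOf A) σ hσ (by
    intro b hb
    have h1 : b ^ q - b ∈ primeOf A := by
      have h2 := hφ b
      rw [hb φ hφT] at h2
      have := (primeOf A).neg_mem h2
      rwa [neg_sub] at this
    obtain ⟨n, hn⟩ := exists_int_of_pow_sub A hq hA b h1
    have h3 : σ • (b - (n : Zbar)) ∈ primeOf A := by
      have := (Ideal.smul_mem_pointwise_smul_iff (a := σ)).2 hn
      rwa [hσ] at this
    have h4 : σ • (n : Zbar) = (n : Zbar) := by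
      apply Subtype.ext
      show σ ((n : Zbar) : Qb) = ((n : Zbar) : Qb)
      simp
    have h5 : σ • b - b = σ • (b - (n : Zbar)) - (b - (n : Zbar)) := by
      rw [smul_sub, h4]; ring
    rw [h5]
    exact (primeOf A).sub_mem h3 hn)
  have huQ' : u⁻¹ • primeOf A = primeOf A := inv_smul_ideal huQ
  have hs : u⁻¹ * σ ∈ A.inertiaSubgroupIn ℚ := by
    refine S14.dic_val A q hq hA _ ?_ ?_
    · exact mul_smul_ideal huQ' hσ
    · intro b
      have h1 : u⁻¹ • (u • b - σ • b) ∈ primeOf A := by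
        have := (Ideal.smul_mem_pointwise_smul_iff (a := u⁻¹)).2 (hu b)
        rwa [huQ'] at this
      rw [smul_sub, inv_smul_smul] at h1
      have := (primeOf A).neg_mem h1
      rw [neg_sub] at this
      rwa [mul_smul]
  have hσT : σ ∈ T := by
    have : σ = u * (u⁻¹ * σ) := by group
    rw [this]
    exact T.mul_mem huT (hWT (hI hs))
  exact hσT


/-! ### Frobenius and roots of unity of `p`-power order -/

theorem natCast_pow_not_mem (A : ValuationSubring Qb) {q p : ℕ} (hq : q.Prime) (hp : p.Prime)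
    (hqp : q ≠ p) (hA : A.LiesOverPrime q) (j : ℕ) : ((p ^ j : ℕ) : Zbar) ∉ primeOf A := by
  rw [mem_primeOf]
  have h1 : ¬ (q : ℤ) ∣ ((p ^ j : ℕ) : ℤ) := by
    rw [Int.natCast_dvd_natCast]
    intro h
    exact hqp ((Nat.prime_dvd_prime_iff_eq hq hp).1 (hq.dvd_of_dvd_pow h))
  have h2 := S54.Frob95.intCast_not_mem_nonunits A hq hA h1
  simpa using h2

theorem frob_root (A : ValuationSubring Qb) {q p : ℕ} (hq : q.Prime) (hp : p.Prime)
    (hqp : q ≠ p) (hA : A.LiesOverPrime q) (φ : GQ) (hφ : ∀ b : Zbar, φ • b - b ^ q ∈ primeOf A)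
    (j : ℕ) (η : Qb) (hη : η ^ p ^ j = 1) : φ η = η ^ q := by
  have hint : IsIntegral ℤ η :=
    IsIntegral.of_pow (pow_pos hp.pos j) (by rw [hη]; exact isIntegral_one)
  have h := frob_apply_root (S := Zbar) (MulSemiringAction.toRingHom GQ Zbar φ) (primeOf A) q hφ
    (ζ := ⟨η, hint⟩) (m := p ^ j) (Subtype.ext hη) (natCast_pow_not_mem A hq hp hqp hA j)
  exact congrArg Subtype.val h

theorem frob_root_iter (φ : GQ) {q n : ℕ} (h : ∀ η : Qb, η ^ n = 1 → φ η = η ^ q) (i : ℕ)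
    (η : Qb) (hη : η ^ n = 1) : (φ ^ i) η = η ^ q ^ i := by
  induction i with
  | zero => simp
  | succ i ih =>
    rw [pow_succ, AlgEquiv.mul_apply, h η hη, map_pow, ih, ← pow_mul, ← pow_succ]

theorem normal_fixing (M : IF) (h : Normal ℚ M) : M.fixingSubgroup.Normal := by
  have h1 : @Normal ℚ M _ _ (IntermediateField.algebra' M) := h
  have h2 : @IsGalois ℚ _ M _ (IntermediateField.algebra' M) := ⟨⟩
  exact IsGalois.fixingSubgroup_normal_of_isGalois (K := ℚ) (L := Qb) M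

end LTO

open LTO in
/-- **(LTO)** -/
theorem lto (hN : Stmt_NC) (hRo : Stmt_Roots) : Stmt_LTO := by
  intro p S k ζ hB f hf q hqS A hA
  obtain ⟨⟨F, hF, hlev⟩, hcoc⟩ := hf
  have hp := hB.prime
  have hq : (q : ℕ).Prime := q.2
  have hqp : (q : ℕ) ≠ p := by
    obtain ⟨q', hq'S, hq'⟩ := hB.mem
    intro h
    apply hqS
    have : q = q' := Subtype.ext (h.trans hq'.symm)
    rw [this]
    exact hq'S
  -- the level `M`
  obtain ⟨M, hFM, hM, hMn⟩ := hN S (F ⊔ k) (hF.sup hB.unr)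
  have hFM' : F ≤ M := le_trans le_sup_left hFM
  have hkM : k ≤ M := le_trans le_sup_right hFM
  have hMfd : FiniteDimensional ℚ M := hM.1
  -- Frobenius
  obtain ⟨φ, -, hφ⟩ := S54.Frob95.exists_stabilizer_frobenius A hq hA
  have hWn : M.fixingSubgroup.Normal := normal_fixing M hMn
  have hWo : IsOpen (M.fixingSubgroup : Set GQ) := M.fixingSubgroup_isOpen
  have hWfin : Finite (GQ ⧸ M.fixingSubgroup) := Subgroup.quotient_finite_of_isOpen _ hWo
  set N := orderOf ((φ : GQ) : GQ ⧸ M.fixingSubgroup) with hNdef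
  have hNpos : 0 < N := orderOf_pos _
  have hφN : φ ^ N ∈ M.fixingSubgroup := by
    rw [← QuotientGroup.eq_one_iff, QuotientGroup.mk_pow, hNdef, pow_orderOf_eq_one]
  -- the level `M'`
  obtain ⟨r, hr⟩ : ∃ r, (q : ℕ) ^ N < p ^ r := pow_unbounded_of_one_lt _ hp.one_lt
  have : NeZero ((p ^ r : ℕ) : Qb) := ⟨by exact_mod_cast (pow_pos hp.pos r).ne'⟩
  obtain ⟨ω, hω⟩ : ∃ ω : Qb, IsPrimitiveRoot ω (p ^ r) :=
    HasEnoughRootsOfUnity.exists_primitiveRoot Qb (p ^ r)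
  have hω0 : ω ≠ 0 := hω.ne_zero (pow_pos hp.pos r).ne'
  obtain ⟨F', hF', hωF'⟩ := hRo p S hp hB.mem r (Units.mk0 ω hω0) (Units.ext (by simpa using hω.1))
  obtain ⟨M', hMM', hM', hM'n⟩ := hN S (M ⊔ F') (hM.sup hF')
  have hMM'' : M ≤ M' := le_trans le_sup_left hMM'
  have hωM' : ω ∈ M' := hMM' ((le_sup_right : F' ≤ M ⊔ F') hωF')
  have hM'fd : FiniteDimensional ℚ M' := hM'.1
  have hW'n : M'.fixingSubgroup.Normal := normal_fixing M' hM'n
  have hW'o : IsOpen (M'.fixingSubgroup : Set GQ) := M'.fixingSubgroup_isOpen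
  have hW'fin : Finite (GQ ⧸ M'.fixingSubgroup) := Subgroup.quotient_finite_of_isOpen _ hW'o
  have hW'W : M'.fixingSubgroup ≤ M.fixingSubgroup := IntermediateField.fixingSubgroup_antitone hMM''
  set N' := orderOf ((φ : GQ) : GQ ⧸ M'.fixingSubgroup) with hN'def
  have hφN' : φ ^ N' ∈ M'.fixingSubgroup := by
    rw [← QuotientGroup.eq_one_iff, QuotientGroup.mk_pow, hN'def, pow_orderOf_eq_one]
  -- divisibility
  have hdiv : p * N ∣ N' := by
    obtain ⟨e, he⟩ : N ∣ N' := by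
      rw [hNdef]
      apply orderOf_dvd_of_pow_eq_one
      rw [← QuotientGroup.mk_pow, QuotientGroup.eq_one_iff]
      exact hW'W hφN'
    obtain ⟨d, hd⟩ : ∃ d, (q : ℕ) ^ N = d + 1 :=
      ⟨(q : ℕ) ^ N - 1, (Nat.sub_add_cancel (Nat.one_le_pow _ _ hq.pos)).symm⟩
    have hpd : p ∣ d := by
      apply hB.zeta.dvd_of_pow_eq_one
      have h1 := frob_root_iter φ (frob_root A hq hp hqp hA φ hφ 1) N ζ (by simpa using hB.zeta.1)
      have h2 : (φ ^ N) ζ = ζ :=
        (IntermediateField.mem_fixingSubgroup_iff _ _).1 hφN ζ (hkM hB.zeta_mem)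
      rw [h2, hd, pow_succ] at h1
      have hζ0 : ζ ≠ 0 := hB.zeta.ne_zero hp.ne_zero
      exact (mul_right_cancel₀ hζ0 (by rw [one_mul]; exact h1)).symm
    have hpr : p ^ r ∣ (d + 1) ^ e - 1 := by
      apply hω.dvd_of_pow_eq_one
      have h1 := frob_root_iter φ (frob_root A hq hp hqp hA φ hφ r) N' ω hω.1
      have h2 : (φ ^ N') ω = ω := (IntermediateField.mem_fixingSubgroup_iff _ _).1 hφN' ω hωM'
      obtain ⟨t, ht⟩ : ∃ t, (d + 1) ^ e = t + 1 :=
        ⟨(d + 1) ^ e - 1, (Nat.sub_add_cancel (Nat.one_le_pow _ _ (Nat.succ_pos d))).symm⟩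
      rw [h2, he, pow_mul, hd, ht, pow_succ] at h1
      rw [ht, Nat.add_sub_cancel]
      exact (mul_right_cancel₀ hω0 (by rw [one_mul]; exact h1)).symm
    have hnd : ¬ p ^ r ∣ d := by
      intro h
      have hd0 : 0 < d := by
        have := Nat.one_lt_pow hNpos.ne' hq.one_lt
        omega
      have := Nat.le_of_dvd hd0 h
      omega
    obtain ⟨s, hs⟩ := nt_dvd hp hpd hpr hnd
    exact ⟨s, by rw [he, hs]; ring⟩
  obtain ⟨x, hx⟩ := abstract_split p k.fixingSubgroup M.fixingSubgroup M'.fixingSubgroup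
    (A.decompositionSubgroup ℚ) hW'W (IntermediateField.fixingSubgroup_antitone hkM) f hcoc
    (fun g g' s s' hs hs' => hlev g g' s s' (IntermediateField.fixingSubgroup_antitone hFM' hs)
      (IntermediateField.fixingSubgroup_antitone hFM' hs')) φ
    (fun σ hσ => mk_mem_zpowers A hq hA φ hφ M'.fixingSubgroup hW'o (hM'.2 q hqS A hA) σ
      (stab_of_mem_decomp A σ hσ)) hdiv
  refine ⟨fun g => x (g : GQ ⧸ M'.fixingSubgroup), ⟨M', hM'.1, fun g s hs => ?_⟩,
    fun σ τ hσ hτ => hx σ τ hσ hτ⟩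
  show x ((g * s : GQ) : GQ ⧸ M'.fixingSubgroup) = x (g : GQ ⧸ M'.fixingSubgroup)
  rw [QuotientGroup.mk_mul_of_mem g hs]

end Fermat.Agent.CFT.GN

end
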