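/-
TEAM CFT -> S55, layer [GLOB-GN], task GN-Q1a (helper35): construction of `Ψ(θ)`.
`q1a (hN : Stmt_NC) : Stmt_Q1a`.

Reusable (namespace `Fermat.Agent.CFT.GN.Q1a`): `ez p ζ a = ζ ^ a.val` with `ez_add`, `ez_injective`,
`exists_ez`, `ez_ne_zero`; `map_mem_of_normal`, `fix_of_mem`, `exists_level` (a finite subset of
`ℚ_Sˣ` lies in one level).
-/
import Fermat.Agent.CFT.GN.Interface

set_option autoImplicit false

noncomputable section

namespace Fermat.Agent.CFT.GN.Q1a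

open IsDedekindDomain NumberField Fermat.Agent.CFT.Top

/-- `a ↦ ζ ^ a` on `ZMod p` -/
def ez (p : ℕ) (ζ : Qb) (a : ZMod p) : Qb := ζ ^ a.val

theorem ez_add {p : ℕ} [NeZero p] {ζ : Qb} (hζ : ζ ^ p = 1) (a b : ZMod p) :
    ez p ζ (a + b) = ez p ζ a * ez p ζ b := by
  unfold ez
  rw [ZMod.val_add, ← pow_add, ← pow_eq_pow_mod _ hζ]

theorem ez_injective {p : ℕ} [NeZero p] {ζ : Qb} (hζ : IsPrimitiveRoot ζ p) :
    Function.Injective (ez p ζ) := by
  intro a b h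
  exact ZMod.val_injective p (hζ.pow_inj (ZMod.val_lt a) (ZMod.val_lt b) h)

theorem exists_ez {p : ℕ} [NeZero p] {ζ : Qb} (hζ : IsPrimitiveRoot ζ p) {x : Qb} (hx : x ^ p = 1) :
    ∃ a : ZMod p, ez p ζ a = x := by
  obtain ⟨i, hi, rfl⟩ := hζ.eq_pow_of_pow_eq_one hx
  exact ⟨(i : ZMod p), by unfold ez; rw [ZMod.val_natCast_of_lt hi]⟩

theorem ez_ne_zero {p : ℕ} [NeZero p] {ζ : Qb} (hζ : IsPrimitiveRoot ζ p) (a : ZMod p) :
    ez p ζ a ≠ 0 := pow_ne_zero _ (hζ.ne_zero (NeZero.ne p))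

/-- images of elements of a normal field stay in the field -/
theorem map_mem_of_normal {F : IF} (hF : Normal ℚ F) (σ : GQ) {x : Qb} (hx : x ∈ F) : σ x ∈ F := by
  have := AlgEquiv.restrictNormal_commutes σ F ⟨x, hx⟩
  rw [show (algebraMap F Qb) ⟨x, hx⟩ = x from rfl] at this
  rw [← this]
  exact (σ.restrictNormal F ⟨x, hx⟩).2

theorem fix_of_mem {F : IF} {s : GQ} (hs : s ∈ F.fixingSubgroup) {x : Qb} (hx : x ∈ F) : s x = x :=
  (IntermediateField.mem_fixingSubgroup_iff F s).mp hs x hx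

/-- a finite set of elements of `ℚ_Sˣ` lies in a common level -/
theorem exists_level (S : Finset Nat.Primes) (W : Finset Qbˣ) (hW : ∀ w ∈ W, w ∈ QS S) :
    ∃ F : IF, F.IsUnramifiedOutside S ∧ ∀ w ∈ W, (w : Qb) ∈ F := by
  classical
  induction W using Finset.induction_on with
  | empty => exact ⟨⊥, IntermediateField.isUnramifiedOutside_bot S, by simp⟩
  | insert a W _ ih =>
    obtain ⟨F, hF, h⟩ := ih (fun w hw => hW w (Finset.mem_insert_of_mem hw))
    obtain ⟨F', hF', ha⟩ := hW a (Finset.mem_insert_self a W)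
    refine ⟨F ⊔ F', hF.sup hF', fun w hw => ?_⟩
    rcases Finset.mem_insert.mp hw with rfl | hw
    · exact (le_sup_right : F' ≤ F ⊔ F') ha
    · exact (le_sup_left : F ≤ F ⊔ F') (h w hw)

end Fermat.Agent.CFT.GN.Q1a

namespace Fermat.Agent.CFT.GN

open Q1a Fermat.Agent.CFT.Top

theorem q1a (hN : Stmt_NC) : Stmt_Q1a := by
  classical
  intro p S k ζ hB θ hθ
  have : NeZero p := ⟨hB.prime.ne_zero⟩
  obtain ⟨⟨F₀, hF₀, hθF₀⟩, hθ2⟩ := hθ
  have hζp : ζ ^ p = 1 := hB.zeta.pow_eq_one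
  -- the choice function
  let E : Qb → Qbˣ := fun w =>
    if h : ∃ η ∈ QS S, w = θ * (η : Qb) ^ p then Classical.choose h else 1
  have hE_mem : ∀ w, E w ∈ QS S := by
    intro w
    by_cases h : ∃ η ∈ QS S, w = θ * (η : Qb) ^ p
    · simp only [E, dif_pos h]
      exact (Classical.choose_spec h).1
    · simp only [E, dif_neg h]
      exact (QS S).one_mem
  have hE_spec : ∀ w, (∃ η ∈ QS S, w = θ * (η : Qb) ^ p) → w = θ * (E w : Qb) ^ p := by
    intro w h
    simp only [E, dif_pos h]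
    exact (Classical.choose_spec h).2
  let γ : k.fixingSubgroup → Qbˣ := fun g => E ((g : GQ) (θ : Qb))
  have hγ_mem : ∀ g, γ g ∈ QS S := fun g => hE_mem _
  have hγ_spec : ∀ g : k.fixingSubgroup, (g : GQ) (θ : Qb) = θ * (γ g : Qb) ^ p :=
    fun g => hE_spec _ (hθ2 g g.2)
  have hθ0 : (θ : Qb) ≠ 0 := θ.ne_zero
  -- the cocycle
  have hroot : ∀ g h : k.fixingSubgroup,
      ((γ g : Qb) * (g : GQ) (γ h : Qb) / (γ (g * h) : Qb)) ^ p = 1 := by
    intro g h
    have h1 := hγ_spec g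
    have h2 := congrArg (g : GQ) (hγ_spec h)
    have h3 := hγ_spec (g * h)
    rw [map_mul, map_pow] at h2
    have h4 : ((g * h : k.fixingSubgroup) : GQ) (θ : Qb) = (g : GQ) ((h : GQ) (θ : Qb)) := rfl
    rw [h4, h2, h1] at h3
    have h5 : (γ (g * h) : Qb) ≠ 0 := (γ (g * h)).ne_zero
    rw [div_pow, mul_pow, div_eq_one_iff_eq (pow_ne_zero _ h5)]
    apply mul_left_cancel₀ hθ0
    rw [← h3]
    ring
  choose f₀ hf₀ using fun g h => exists_ez hB.zeta (hroot g h)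
  let f : k.fixingSubgroup × k.fixingSubgroup → ZMod p := fun x => f₀ x.1 x.2
  have hf : ∀ g h : k.fixingSubgroup,
      ez p ζ (f (g, h)) * (γ (g * h) : Qb) = (γ g : Qb) * (g : GQ) (γ h : Qb) := by
    intro g h
    have h5 : (γ (g * h) : Qb) ≠ 0 := (γ (g * h)).ne_zero
    show ez p ζ (f₀ g h) * _ = _
    rw [hf₀, div_mul_cancel₀ _ h5]
  -- the level of `γ`
  have hγ_lev : ∀ g s : k.fixingSubgroup, (s : GQ) ∈ F₀.fixingSubgroup → γ (g * s) = γ g := by
    intro g s hs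
    show E (((g * s : k.fixingSubgroup) : GQ) (θ : Qb)) = E ((g : GQ) (θ : Qb))
    have : ((g * s : k.fixingSubgroup) : GQ) (θ : Qb) = (g : GQ) ((s : GQ) (θ : Qb)) := rfl
    rw [this, fix_of_mem hs hθF₀]
  -- a level containing all the values of `γ`
  obtain ⟨F₁, hF₁, hF₁v⟩ := exists_level S
    (((minpoly ℚ (θ : Qb)).aroots Qb).toFinset.image E) (by
      intro w hw
      obtain ⟨x, _, rfl⟩ := Finset.mem_image.mp hw
      exact hE_mem x)
  have hγF₁ : ∀ g, (γ g : Qb) ∈ F₁ := by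
    intro g
    apply hF₁v
    refine Finset.mem_image_of_mem E ?_
    rw [Multiset.mem_toFinset, Polynomial.mem_aroots]
    have hint : IsIntegral ℚ (θ : Qb) := (AlgebraicClosure.isAlgebraic ℚ).isIntegral.isIntegral _
    refine ⟨minpoly.ne_zero hint, ?_⟩
    have h6 := Polynomial.aeval_algHom_apply ((g : GQ) : Qb →ₐ[ℚ] Qb) (θ : Qb) (minpoly ℚ (θ : Qb))
    rw [minpoly.aeval, map_zero] at h6
    exact h6
  obtain ⟨F', hle, hF', hnorm⟩ := hN S (F₀ ⊔ F₁) (hF₀.sup hF₁)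
  have hF₀' : F₀ ≤ F' := le_sup_left.trans hle
  have hF₁' : F₁ ≤ F' := le_sup_right.trans hle
  refine ⟨f, ⟨⟨F', hF', ?_⟩, ?_⟩, γ, ⟨⟨F₀, hF₀, hγ_lev⟩, hγ_mem, hf⟩, hγ_spec⟩
  · -- level of `f`
    intro g g' s s' hs hs'
    apply ez_injective hB.zeta
    have hs0 : (s : GQ) ∈ F₀.fixingSubgroup := IntermediateField.fixingSubgroup_antitone hF₀' hs
    have hs0' : (s' : GQ) ∈ F₀.fixingSubgroup := IntermediateField.fixingSubgroup_antitone hF₀' hs'
    have h1 := hf (g * s) (g' * s')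
    have h2 := hf g g'
    have e1 : γ (g * s * (g' * s')) = γ (g * g') := by
      show E (((g * s * (g' * s') : k.fixingSubgroup) : GQ) (θ : Qb)) =
        E (((g * g' : k.fixingSubgroup) : GQ) (θ : Qb))
      have e2 : ((g * s * (g' * s') : k.fixingSubgroup) : GQ) (θ : Qb) =
          (g : GQ) ((s : GQ) ((g' : GQ) ((s' : GQ) (θ : Qb)))) := rfl
      have e3 : ((g * g' : k.fixingSubgroup) : GQ) (θ : Qb) = (g : GQ) ((g' : GQ) (θ : Qb)) := rfl
      rw [e2, e3, fix_of_mem hs0' hθF₀,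
        fix_of_mem hs (map_mem_of_normal hnorm (g' : GQ) (hF₀' hθF₀))]
    have e4 : ((g * s : k.fixingSubgroup) : GQ) (γ g' : Qb) = (g : GQ) (γ g' : Qb) := by
      have : ((g * s : k.fixingSubgroup) : GQ) (γ g' : Qb) = (g : GQ) ((s : GQ) (γ g' : Qb)) := rfl
      rw [this, fix_of_mem hs (hF₁' (hγF₁ g'))]
    rw [e1, hγ_lev g s hs0, hγ_lev g' s' hs0', e4, ← h2] at h1
    exact mul_right_cancel₀ (γ (g * g')).ne_zero h1
  · -- cocycle identity
    intro g h j
    have hgζ : ∀ a : ZMod p, (g : GQ) (ez p ζ a) = ez p ζ a := by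
      intro a
      unfold ez
      rw [map_pow, fix_of_mem g.2 hB.zeta_mem]
    have E1 := congrArg (g : GQ) (hf h j)
    rw [map_mul, map_mul, hgζ] at E1
    have E2 := hf (g * h) j
    have E3 := hf g (h * j)
    have E4 := hf g h
    rw [← mul_assoc] at E3
    have e5 : ((g * h : k.fixingSubgroup) : GQ) (γ j : Qb) = (g : GQ) ((h : GQ) (γ j : Qb)) := rfl
    rw [e5] at E2
    have n1 : (γ (g * h * j) : Qb) ≠ 0 := (γ (g * h * j)).ne_zero
    have n2 : (γ (g * h) : Qb) ≠ 0 := (γ (g * h)).ne_zero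
    have n3 : (g : GQ) (γ (h * j) : Qb) ≠ 0 := by
      rw [Ne, map_eq_zero_iff _ (g : GQ).injective]
      exact (γ (h * j)).ne_zero
    have key : ez p ζ (f (h, j) + f (g, h * j)) = ez p ζ (f (g * h, j) + f (g, h)) := by
      rw [ez_add hζp, ez_add hζp]
      apply mul_right_cancel₀ n1
      apply mul_right_cancel₀ n2
      apply mul_right_cancel₀ n3
      linear_combination (ez p ζ (f (g, h * j)) * (γ (g * h * j) : Qb) * (γ (g * h) : Qb)) * E1
        + ((g : GQ) (γ h : Qb) * (g : GQ) ((h : GQ) (γ j : Qb)) * (γ (g * h) : Qb)) * E3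
        - (ez p ζ (f (g, h)) * (γ (g * h) : Qb) * (g : GQ) (γ (h * j) : Qb)) * E2
        - ((γ (g * h) : Qb) * (g : GQ) ((h : GQ) (γ j : Qb)) * (g : GQ) (γ (h * j) : Qb)) * E4
    have := ez_injective hB.zeta key
    linear_combination this

end Fermat.Agent.CFT.GN
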