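import Fermat.Agent.CFT.GN.Interface

/-!
# [GLOB-GN] (Q1b), (Q1c), (Q2): `Ψ` is well defined and injective on `Θ/Θ₀`; `Sha² ⊆ im Ψ`
-/

set_option autoImplicit false

noncomputable section

namespace Fermat.Agent.CFT.GN

open IsDedekindDomain NumberField Fermat.Agent.CFT.Top

namespace Q1

/-- `ζ ^ a`, `a : ZMod p`. -/
def z (p : ℕ) (ζ : Qb) (a : ZMod p) : Qb := ζ ^ a.val

section z

variable {p : ℕ} {ζ : Qb}

lemma z_add [NeZero p] (h : ζ ^ p = 1) (a b : ZMod p) : z p ζ (a + b) = z p ζ a * z p ζ b := by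
  unfold z
  rw [ZMod.val_add, ← pow_add]
  exact (pow_eq_pow_mod (a.val + b.val) h).symm

lemma z_ne_zero (h : ζ ≠ 0) (a : ZMod p) : z p ζ a ≠ 0 := pow_ne_zero _ h

lemma z_pow (h : ζ ^ p = 1) (a : ZMod p) : z p ζ a ^ p = 1 := by
  unfold z
  rw [← pow_mul, mul_comm, pow_mul, h, one_pow]

lemma z_inj [NeZero p] (h : IsPrimitiveRoot ζ p) {a b : ZMod p} (hab : z p ζ a = z p ζ b) :
    a = b :=
  ZMod.val_injective p (h.pow_inj (ZMod.val_lt a) (ZMod.val_lt b) hab)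

lemma exists_z [NeZero p] (h : IsPrimitiveRoot ζ p) {ω : Qb} (hω : ω ^ p = 1) :
    ∃ a : ZMod p, ω = z p ζ a := by
  obtain ⟨i, hi, rfl⟩ := h.eq_pow_of_pow_eq_one hω
  exact ⟨(i : ZMod p), by unfold z; rw [ZMod.val_natCast_of_lt hi]⟩

lemma z_fixed {k : IF} (hk : ζ ∈ k) (g : k.fixingSubgroup) (a : ZMod p) :
    (g : GQ) (z p ζ a) = z p ζ a := by
  unfold z
  rw [map_pow, (IntermediateField.mem_fixingSubgroup_iff k (g : GQ)).1 g.2 ζ hk]

end z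

lemma fix_of_le {F F' : IF} (h : F ≤ F') {s : GQ} (hs : s ∈ F'.fixingSubgroup) :
    s ∈ F.fixingSubgroup := IntermediateField.fixingSubgroup_antitone h hs

lemma mem_QS_of_mem {S : Finset Nat.Primes} {F : IF} (hF : F.IsUnramifiedOutside S) {θ : Qbˣ}
    (h : (θ : Qb) ∈ F) : θ ∈ QS S := ⟨F, hF, h⟩

/-- an element fixed by `Gal(ℚ̄/k)` lies in `k`. -/
lemma mem_of_fixed (k : IF) (w : Qb) (h : ∀ g : k.fixingSubgroup, (g : GQ) w = w) : w ∈ k := by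
  have : Algebra.IsAlgebraic ℚ (AlgebraicClosure ℚ) := AlgebraicClosure.isAlgebraic ℚ
  have : IsAlgClosure ℚ (AlgebraicClosure ℚ) := ⟨inferInstance, inferInstance⟩
  have : Normal ℚ (AlgebraicClosure ℚ) := IsAlgClosure.normal ℚ (AlgebraicClosure ℚ)
  have : IsGalois ℚ (AlgebraicClosure ℚ) := ⟨⟩
  have h1 : IntermediateField.fixedField k.fixingSubgroup = k :=
    InfiniteGalois.fixedField_fixingSubgroup k
  rw [← h1, IntermediateField.mem_fixedField_iff]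
  exact fun g hg => h ⟨g, hg⟩

/-- field identity behind the cocycle property in (Q1b). -/
lemma aux_cocycle {L : Type*} [Field L] {A B C A' B' C' zf zf' zg zh zgh : L}
    (hA' : A' ≠ 0) (hB' : B' ≠ 0) (hC' : C' ≠ 0) (hzg : zg ≠ 0) (hzh : zh ≠ 0) (hzgh : zgh ≠ 0)
    (E1 : zf * C = A * B) (E2 : zf' * C' = A' * B') (E3 : zf * zgh = zf' * zh * zg) :
    C * C'⁻¹ * zgh⁻¹ = A * A'⁻¹ * zg⁻¹ * (B * B'⁻¹ * zh⁻¹) := by
  field_simp
  linear_combination (-C * zg * zh) * E2 + (C' * zgh) * E1 - (C * C') * E3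

/-- field identity behind the invariance of `θ / (θ' η ^ p)` in (Q1b). -/
lemma aux_fixed {L : Type*} [Field L] {t t' e a a' zz : L} (p : ℕ)
    (ht' : t' ≠ 0) (he : e ≠ 0) (ha : a ≠ 0) (ha' : a' ≠ 0) (hz : zz ^ p = 1) :
    t * a ^ p * (t' * a' ^ p)⁻¹ * ((e * (a * a'⁻¹ * zz⁻¹)) ^ p)⁻¹ = t * t'⁻¹ * (e ^ p)⁻¹ := by
  simp only [mul_pow, inv_pow, hz, mul_inv, inv_inv, inv_one, mul_one]
  field_simp

/-- field identity behind the coboundary relation in (Q1c). -/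
lemma aux_cob {L : Type*} [Field L] {A B C A' B' C' e eg egh zf zf' zg zh zgh : L}
    (hC' : C' ≠ 0) (hegh : egh ≠ 0)
    (E1 : zf * C = A * B) (E2 : zf' * C' = A' * B') (Hg : A * e = zg * A' * eg)
    (Hh : B * eg = zh * B' * egh) (Hgh : C * e = zgh * C' * egh) :
    zf * zgh = zf' * zh * zg := by
  apply mul_right_cancel₀ (mul_ne_zero hC' hegh)
  linear_combination (-zf) * Hgh + e * E1 + B * Hg + zg * A' * Hh - zg * zh * egh * E2

/-- field identity: the `p`-th power in (Q1c). -/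
lemma aux_root {L : Type*} [Field L] {t t' x e eg a a' : L} (p : ℕ)
    (ht' : t' ≠ 0) (hx : x ≠ 0) (heg : eg ≠ 0) (ha' : a' ≠ 0)
    (h0 : t = x * e ^ p * t') (h1 : t * a ^ p = x * eg ^ p * (t' * a' ^ p)) :
    (a * e * a'⁻¹ * eg⁻¹) ^ p = 1 := by
  rw [h0] at h1
  have h2 : (a * e) ^ p = (eg * a') ^ p := by
    apply mul_left_cancel₀ (mul_ne_zero hx ht')
    rw [mul_pow, mul_pow]
    linear_combination h1
  have h3 : a * e * a'⁻¹ * eg⁻¹ = (a * e) / (eg * a') := by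
    field_simp
  rw [h3, div_pow, h2, div_self (pow_ne_zero _ (mul_ne_zero heg ha'))]

end Q1

open Q1

/-- **(Q1b)** -/
theorem q1b (h : Stmt_H90) : Stmt_Q1b := by
  intro p S k ζ hB θ θ' f f' ⟨γ, ⟨⟨F, hF, hlev⟩, hQS, hsplit⟩, hθ⟩
    ⟨γ', ⟨⟨F', hF', hlev'⟩, hQS', hsplit'⟩, hθ'⟩ ⟨x, ⟨F'', hF'', hlevx⟩, hx⟩
  have : NeZero p := ⟨hB.prime.ne_zero⟩
  have hζp : ζ ^ p = 1 := hB.zeta.pow_eq_one
  have hζ0 : ζ ≠ 0 := hB.zeta.ne_zero hB.prime.ne_zero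
  let ζu : Qbˣ := Units.mk0 ζ hζ0
  have hζu : ζu ∈ QS S := mem_QS_of_mem hB.unr hB.zeta_mem
  let c : k.fixingSubgroup → Qbˣ := fun g => γ g * (γ' g)⁻¹ * (ζu ^ (x g).val)⁻¹
  have hc : ∀ g, (c g : Qb) = (γ g : Qb) * (γ' g : Qb)⁻¹ * (z p ζ (x g))⁻¹ := by
    intro g
    simp [c, ζu, z]
  obtain ⟨η, hη, hηg⟩ := h S k hB.unr c
    ⟨F ⊔ F' ⊔ F'', (hF.sup hF').sup hF'', fun g s hs => by
      have h1 := hlev g s (fix_of_le (le_sup_left.trans le_sup_left) hs)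
      have h2 := hlev' g s (fix_of_le (le_sup_right.trans le_sup_left) hs)
      have h3 := hlevx g s (fix_of_le le_sup_right hs)
      simp only [c, h1, h2, h3]⟩
    (fun g => mul_mem (mul_mem (hQS g) (inv_mem (hQS' g))) (inv_mem (pow_mem hζu _))) (by
      intro g g'
      rw [hc, hc, hc, map_mul, map_mul, map_inv₀, map_inv₀, z_fixed hB.zeta_mem]
      refine aux_cocycle (γ' g).ne_zero ?_ (γ' (g * g')).ne_zero (z_ne_zero hζ0 _)
        (z_ne_zero hζ0 _) (z_ne_zero hζ0 _) (hsplit g g') (hsplit' g g') ?_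
      · exact (map_ne_zero _).2 (γ' g').ne_zero
      · show z p ζ (f (g, g')) * _ = z p ζ (f' (g, g')) * _ * _
        rw [← z_add hζp, ← z_add hζp, ← z_add hζp]
        congr 1
        have := hx g g'
        simp only [Pi.sub_apply] at this
        linear_combination this)
  refine ⟨θ / θ' / η ^ p, ?_, η, hη, (div_mul_cancel _ _).symm⟩
  apply mem_of_fixed
  intro g
  have e1 : ((θ / θ' / η ^ p : Qbˣ) : Qb) = (θ : Qb) * (θ' : Qb)⁻¹ * ((η : Qb) ^ p)⁻¹ := by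
    simp [div_eq_mul_inv]
  rw [e1, map_mul, map_mul, map_inv₀, map_inv₀, map_pow, hθ g, hθ' g, hηg g, hc]
  exact aux_fixed p θ'.ne_zero η.ne_zero (γ g).ne_zero (γ' g).ne_zero (z_pow hζp _)

/-- **(Q1c)** -/
theorem q1c : Stmt_Q1c := by
  intro p S k ζ hB θ θ' f f' ⟨γ, ⟨⟨F, hF, hlev⟩, hQS, hsplit⟩, hθ⟩
    ⟨γ', ⟨⟨F', hF', hlev'⟩, hQS', hsplit'⟩, hθ'⟩ ⟨x, hxk, η, ⟨Fη, hFη, hηF⟩, hθθ⟩
  have : NeZero p := ⟨hB.prime.ne_zero⟩
  have hζp : ζ ^ p = 1 := hB.zeta.pow_eq_one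
  have hζ0 : ζ ≠ 0 := hB.zeta.ne_zero hB.prime.ne_zero
  have h0 : (θ : Qb) = x * (η : Qb) ^ p * θ' := by
    have : θ = x * η ^ p * θ' := by rw [← hθθ, div_mul_cancel]
    rw [this]
    simp
  have hgη : ∀ g : k.fixingSubgroup, (g : GQ) (η : Qb) ≠ 0 := fun g => (map_ne_zero _).2 η.ne_zero
  -- the roots of unity
  have hroot : ∀ g : k.fixingSubgroup, ∃ a : ZMod p,
      (γ g : Qb) * η * (γ' g : Qb)⁻¹ * ((g : GQ) (η : Qb))⁻¹ = z p ζ a := by
    intro g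
    apply exists_z hB.zeta
    refine aux_root p θ'.ne_zero x.ne_zero (hgη g) (γ' g).ne_zero h0 ?_
    rw [← hθ g, ← hθ' g, h0, map_mul, map_mul, map_pow,
      (IntermediateField.mem_fixingSubgroup_iff k (g : GQ)).1 g.2 _ hxk]
  choose y hy using hroot
  have hy' : ∀ g : k.fixingSubgroup,
      (γ g : Qb) * η = z p ζ (y g) * (γ' g : Qb) * (g : GQ) (η : Qb) := by
    intro g
    rw [← hy g]
    have h1 := (γ' g).ne_zero
    have h2 := hgη g
    field_simp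
  refine ⟨y, ⟨F ⊔ F' ⊔ Fη, (hF.sup hF').sup hFη, fun g s hs => ?_⟩, fun g g' => ?_⟩
  · have h1 := hlev g s (fix_of_le (le_sup_left.trans le_sup_left) hs)
    have h2 := hlev' g s (fix_of_le (le_sup_right.trans le_sup_left) hs)
    have h3 : (s : GQ) (η : Qb) = η :=
      (IntermediateField.mem_fixingSubgroup_iff Fη (s : GQ)).1 (fix_of_le le_sup_right hs) _ hηF
    apply z_inj hB.zeta
    rw [← hy, ← hy, h1, h2, Subgroup.coe_mul, AlgEquiv.mul_apply, h3]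
  · have key : z p ζ (f (g, g')) * z p ζ (y (g * g')) =
        z p ζ (f' (g, g')) * z p ζ (y g') * z p ζ (y g) := by
      refine aux_cob (γ' (g * g')).ne_zero (hgη (g * g')) (hsplit g g') (hsplit' g g') (hy' g) ?_
        (hy' (g * g'))
      have h1 := congrArg (g : GQ) (hy' g')
      rw [map_mul, map_mul, map_mul, z_fixed hB.zeta_mem] at h1
      rw [Subgroup.coe_mul, AlgEquiv.mul_apply]
      exact h1
    rw [← z_add hζp, ← z_add hζp, ← z_add hζp] at key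
    have := z_inj hB.zeta key
    simp only [Pi.sub_apply]
    linear_combination this

/-- **(Q2)** -/
theorem q2 (hp : Stmt_HPraw) (h : Stmt_H90) : Stmt_Q2 := by
  intro p S k ζ hB f hf hloc
  obtain ⟨γ, ⟨F, hF, hlev⟩, hQS, hsplit⟩ := hp p S k ζ hB f hf hloc
  have hζp : ζ ^ p = 1 := hB.zeta.pow_eq_one
  obtain ⟨θ, hθ, hθg⟩ := h S k hB.unr (fun g => γ g ^ p)
    ⟨F, hF, fun g s hs => by simp only [hlev g s hs]⟩ (fun g => pow_mem (hQS g) p) (by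
      intro g h'
      have h1 := congrArg (· ^ p) (hsplit g h')
      simp only [mul_pow, ← pow_mul] at h1
      rw [mul_comm _ p, pow_mul, hζp, one_pow, one_mul] at h1
      simp only [Units.val_pow_eq_pow_val, map_pow]
      exact h1)
  have hθg' : ∀ g : k.fixingSubgroup, (g : GQ) (θ : Qb) = θ * (γ g : Qb) ^ p := by
    intro g
    rw [hθg g, Units.val_pow_eq_pow_val]
  exact ⟨θ, ⟨hθ, fun g hg => ⟨γ ⟨g, hg⟩, hQS _, hθg' ⟨g, hg⟩⟩⟩,
    γ, ⟨⟨F, hF, hlev⟩, hQS, hsplit⟩, hθg'⟩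

end Fermat.Agent.CFT.GN

end
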