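/-
TEAM CFT -> S55, layer [GLOB-GN]: (Q3a) elements of `Θ` have a divisor mod `p`.
-/
import Fermat.Agent.CFT.GN.Interface

set_option autoImplicit false

noncomputable section

namespace Fermat.Agent.CFT.GN

open IsDedekindDomain NumberField Fermat.Agent.CFT.Top

theorem q3a_prime_unique {A : ValuationSubring Qb} {q q' : ℕ} (hq : q.Prime) (hq' : q'.Prime)
    (h : A.LiesOverPrime q) (h' : A.LiesOverPrime q') : q = q' := by
  by_contra hne
  have hcop : Nat.Coprime q q' := (Nat.coprime_primes hq hq').2 hne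
  obtain ⟨x, y, hxy⟩ := Nat.isCoprime_iff_coprime.2 hcop
  have h1 : A.valuation (q : Qb) < 1 := (ValuationSubring.mem_nonunits_iff A).1 h
  have h2 : A.valuation (q' : Qb) < 1 := (ValuationSubring.mem_nonunits_iff A).1 h'
  have hx : A.valuation ((x : ℤ) : Qb) ≤ 1 := (A.valuation_le_one_iff _).2 (intCast_mem A x)
  have hy : A.valuation ((y : ℤ) : Qb) ≤ 1 := (A.valuation_le_one_iff _).2 (intCast_mem A y)
  have e : (1 : Qb) = (x : Qb) * (q : Qb) + (y : Qb) * (q' : Qb) := by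
    have := congrArg (fun z : ℤ => (z : Qb)) hxy
    push_cast at this
    exact this.symm
  have h3 : A.valuation (1 : Qb) < 1 := by
    rw [e]
    apply Valuation.map_add_lt
    · rw [map_mul]
      exact lt_of_le_of_lt (mul_le_of_le_one_left' hx) h1
    · rw [map_mul]
      exact lt_of_le_of_lt (mul_le_of_le_one_left' hy) h2
  rw [map_one] at h3
  exact lt_irrefl _ h3

/-- a natural number lies in `v` iff it is a nonunit of `A` over `v`. -/
theorem q3a_over_iff {k : IF} [NumberField k] {A : ValuationSubring Qb}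
    {v : HeightOneSpectrum (𝓞 k)} (hAv : Over A v) (q : ℕ) :
    (q : 𝓞 k) ∈ v.asIdeal ↔ A.LiesOverPrime q := by
  rw [hAv]
  unfold ValuationSubring.LiesOverPrime
  simp

/-- algebraic integers lie in every valuation subring. -/
theorem q3a_mem_of_isIntegral (A : ValuationSubring Qb) {x : Qb} (hx : IsIntegral ℤ x) :
    x ∈ A := by
  have h1 : IsIntegral A x := hx.tower_top
  obtain ⟨y, hy⟩ := (IsIntegrallyClosed.isIntegral_iff (R := A) (K := Qb)).1 h1
  rw [← hy]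
  exact y.2

/-- an integer prime to `q` is a unit at a place over `q`. -/
theorem q3a_val_int_eq_one {A : ValuationSubring Qb} {q : ℕ} (hq : q.Prime)
    (h : A.LiesOverPrime q) {N : ℤ} (hN : ¬ (q : ℤ) ∣ N) : A.valuation (N : Qb) = 1 := by
  have hcop : IsCoprime (q : ℤ) N :=
    (Prime.coprime_iff_not_dvd (Nat.prime_iff_prime_int.1 hq)).2 hN
  obtain ⟨x, y, hxy⟩ := hcop
  have h1 : A.valuation (q : Qb) < 1 := (ValuationSubring.mem_nonunits_iff A).1 h
  have hx : A.valuation ((x : ℤ) : Qb) ≤ 1 := (A.valuation_le_one_iff _).2 (intCast_mem A x)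
  have hy : A.valuation ((y : ℤ) : Qb) ≤ 1 := (A.valuation_le_one_iff _).2 (intCast_mem A y)
  have hN1 : A.valuation ((N : ℤ) : Qb) ≤ 1 := (A.valuation_le_one_iff _).2 (intCast_mem A N)
  by_contra hne
  have h2 : A.valuation ((N : ℤ) : Qb) < 1 := lt_of_le_of_ne hN1 hne
  have e : (1 : Qb) = (x : Qb) * (q : Qb) + (y : Qb) * (N : Qb) := by
    have := congrArg (fun z : ℤ => (z : Qb)) hxy
    push_cast at this
    exact this.symm
  have h3 : A.valuation (1 : Qb) < 1 := by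
    rw [e]
    apply Valuation.map_add_lt
    · rw [map_mul]
      exact lt_of_le_of_lt (mul_le_of_le_one_left' hx) h1
    · rw [map_mul]
      exact lt_of_le_of_lt (mul_le_of_le_one_left' hy) h2
  rw [map_one] at h3
  exact lt_irrefl _ h3

/-- every `θ ∈ ℚ̄ˣ` is a unit at all places prime to some nonzero integer. -/
theorem q3a_exists_bound (θ : Qbˣ) : ∃ N : ℤ, N ≠ 0 ∧ ∀ (A : ValuationSubring Qb) (q : ℕ),
    q.Prime → A.LiesOverPrime q → ¬ (q : ℤ) ∣ N → A.valuation (θ : Qb) = 1 := by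
  have halg : ∀ x : Qb, IsAlgebraic ℤ x := fun x =>
    (IsFractionRing.isAlgebraic_iff ℤ ℚ (AlgebraicClosure ℚ)).2
      ((AlgebraicClosure.isAlgebraic ℚ).isAlgebraic x)
  obtain ⟨N₁, hN₁, h₁⟩ := (halg (θ : Qb)).exists_integral_multiple
  obtain ⟨N₂, hN₂, h₂⟩ := (halg ((θ⁻¹ : Qbˣ) : Qb)).exists_integral_multiple
  refine ⟨N₁ * N₂, mul_ne_zero hN₁ hN₂, fun A q hq hA hd => ?_⟩
  have hd₁ : ¬ (q : ℤ) ∣ N₁ := fun h => hd (h.mul_right _)
  have hd₂ : ¬ (q : ℤ) ∣ N₂ := fun h => hd (h.mul_left _)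
  have v₁ := q3a_val_int_eq_one hq hA hd₁
  have v₂ := q3a_val_int_eq_one hq hA hd₂
  have m₁ := (A.valuation_le_one_iff _).2 (q3a_mem_of_isIntegral A h₁)
  have m₂ := (A.valuation_le_one_iff _).2 (q3a_mem_of_isIntegral A h₂)
  rw [zsmul_eq_mul, map_mul, v₁, one_mul] at m₁
  rw [zsmul_eq_mul, map_mul, v₂, one_mul, Units.val_inv_eq_inv_val, map_inv₀] at m₂
  refine le_antisymm m₁ ?_
  have hne : A.valuation (θ : Qb) ≠ 0 := (Valuation.ne_zero_iff _).2 θ.ne_zero
  exact (inv_le_one₀ (zero_lt_iff.2 hne)).1 m₂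

/-- transport of valuation identities along an automorphism carrying `A` to `A'`. -/
theorem q3a_transport {A A' : ValuationSubring Qb} {g : GQ} (hg : ∀ x : Qb, g x ∈ A' ↔ x ∈ A)
    {y c : Qb} (hc : c ≠ 0) (h : A.valuation y = A.valuation c) :
    A'.valuation (g y) = A'.valuation (g c) := by
  have hvc : A.valuation c ≠ 0 := (Valuation.ne_zero_iff _).2 hc
  have hy : y ≠ 0 := (Valuation.ne_zero_iff _).1 (h ▸ hvc)
  have hgc : g c ≠ 0 := (map_ne_zero g).2 hc
  have hgy : g y ≠ 0 := (map_ne_zero g).2 hy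
  have hvgc : A'.valuation (g c) ≠ 0 := (Valuation.ne_zero_iff _).2 hgc
  have hvgy : A'.valuation (g y) ≠ 0 := (Valuation.ne_zero_iff _).2 hgy
  have h1 : y / c ∈ A := by
    rw [← A.valuation_le_one_iff, map_div₀, h, div_self hvc]
  have h2 : c / y ∈ A := by
    rw [← A.valuation_le_one_iff, map_div₀, h, div_self hvc]
  have h1' := (hg _).2 h1
  have h2' := (hg _).2 h2
  rw [← A'.valuation_le_one_iff, map_div₀, map_div₀, div_le_one₀ (zero_lt_iff.2 hvgc)] at h1'
  rw [← A'.valuation_le_one_iff, map_div₀, map_div₀, div_le_one₀ (zero_lt_iff.2 hvgy)] at h2'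
  exact le_antisymm h1' h2'

/-- **(Q3a)** elements of `Θ` have a divisor mod `p`. -/
theorem q3a (hA : Stmt_DictA) (_hB : Stmt_DictB) (hC : Stmt_DictC) (hD : Stmt_DictD) :
    Stmt_Q3a := by
  intro p S k _ ζ _ θ hθ
  obtain ⟨hA1, -, hA3, hA4⟩ := hA k
  classical
  choose Av hAv using hA1
  choose qv hqv hqvmem using hA3
  have hlies : ∀ v, (Av v).LiesOverPrime (qv v) := fun v =>
    (q3a_over_iff (hAv v) _).1 (hqvmem v)
  have hqS : ∀ v, v ∉ TS S k → (⟨qv v, hqv v⟩ : Nat.Primes) ∉ S := fun v hv h =>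
    hv ⟨_, h, hqvmem v⟩
  -- the exponents
  have hm : ∀ v, v ∉ TS S k → ∃ m : ℤ,
      (Av v).valuation (θ : Qb) = (Av v).valuation (qv v : Qb) ^ m ∧
        ((Av v).valuation (θ : Qb) = 1 → m = 0) := by
    intro v hv
    obtain ⟨m, hm⟩ := hC S ⟨qv v, hqv v⟩ (hqS v hv) (Av v) (hlies v) θ hθ.1
    by_cases h1 : (Av v).valuation (θ : Qb) = 1
    · exact ⟨0, by rw [h1, zpow_zero], fun _ => rfl⟩
    · exact ⟨m, hm, fun h => absurd h h1⟩
  let f : HeightOneSpectrum (𝓞 k) → ℤ := fun v =>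
    if hv : v ∈ TS S k then 0 else (hm v hv).choose
  have hf : ∀ v, v ∉ TS S k →
      (Av v).valuation (θ : Qb) = (Av v).valuation (qv v : Qb) ^ f v ∧
        ((Av v).valuation (θ : Qb) = 1 → f v = 0) := by
    intro v hv
    have : f v = (hm v hv).choose := dif_neg hv
    rw [this]
    exact (hm v hv).choose_spec
  -- finite support
  obtain ⟨N, hN0, hN⟩ := q3a_exists_bound θ
  let S' : Finset Nat.Primes := (N.natAbs.primeFactors).subtype Nat.Prime
  have hfin : (Function.support f).Finite := by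
    refine (hA4 S').subset fun v hv => ?_
    have hv0 : f v ≠ 0 := hv
    have hvT : v ∉ TS S k := fun h => hv0 (dif_pos h)
    have hne : (Av v).valuation (θ : Qb) ≠ 1 := fun h => hv0 ((hf v hvT).2 h)
    have hdvd : (qv v : ℤ) ∣ N := by
      by_contra hnd
      exact hne (hN (Av v) (qv v) (hqv v) (hlies v) hnd)
    refine ⟨⟨qv v, hqv v⟩, ?_, hqvmem v⟩
    refine (Finset.mem_subtype (p := Nat.Prime) (s := N.natAbs.primeFactors)).2 ?_
    exact Nat.mem_primeFactors.2 ⟨hqv v, Int.natCast_dvd.1 hdvd, Int.natAbs_ne_zero.2 hN0⟩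
  refine ⟨Finsupp.ofSupportFinite f hfin, ?_⟩
  intro v hv A q hq hAq hAover
  have hq' : q = qv v :=
    q3a_prime_unique hq (hqv v) hAq ((q3a_over_iff hAover (qv v)).1 (hqvmem v))
  subst hq'
  obtain ⟨g, hgk, hg⟩ := hD k (Av v) A v (hAv v) hAover
  obtain ⟨η, hηS, hη⟩ := hθ.2 g hgk
  obtain ⟨j, hj⟩ := hC S ⟨qv v, hqv v⟩ (hqS v hv) A hAq η hηS
  have hq0 : ((qv v : ℕ) : Qb) ≠ 0 := Nat.cast_ne_zero.2 (hqv v).ne_zero
  have hvq0 : A.valuation ((qv v : ℕ) : Qb) ≠ 0 := (Valuation.ne_zero_iff _).2 hq0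
  have ht := q3a_transport hg (y := (θ : Qb)) (c := ((qv v : ℕ) : Qb) ^ f v)
    (zpow_ne_zero _ hq0) (by rw [map_zpow₀]; exact (hf v hv).1)
  rw [hη, map_zpow₀, map_natCast, map_mul, map_pow, map_zpow₀, hj] at ht
  refine ⟨f v - (p : ℤ) * j, ?_, ?_⟩
  · rw [zpow_sub₀ hvq0, eq_div_iff (zpow_ne_zero _ hvq0), ← ht, mul_comm (p : ℤ) j, zpow_mul,
      zpow_natCast]
  · rw [Finsupp.ofSupportFinite_coe]
    exact ⟨-j, by ring⟩

end Fermat.Agent.CFT.GN

end
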