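/-
TEAM CFT -> S55, layer [GLOB-GN]: (Q4) `p`-capitulation: `Θ → Cl/(⟨T⟩ Clᵖ)` is surjective.
-/
import Fermat.Agent.CFT.GN.Interface

set_option autoImplicit false

noncomputable section

namespace Fermat.Agent.CFT.GN

open IsDedekindDomain NumberField Fermat.Agent.CFT.Top

theorem Q4_clsDiv_add {R : Type} [CommRing R] [IsDedekindDomain R]
    (a b : HeightOneSpectrum R →₀ ℤ) : clsDiv (a + b) = clsDiv a * clsDiv b := by
  unfold clsDiv
  exact Finsupp.prod_add_index' (fun v => zpow_zero _) (fun v m n => zpow_add _ m n)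

theorem Q4_clsDiv_nsmul {R : Type} [CommRing R] [IsDedekindDomain R] (n : ℕ)
    (a : HeightOneSpectrum R →₀ ℤ) : clsDiv (n • a) = clsDiv a ^ n := by
  induction n with
  | zero => simp [clsDiv]
  | succ n ih => rw [succ_nsmul, Q4_clsDiv_add, ih, pow_succ]

/-- the `p`-primary component, up to `p`-th powers. -/
theorem Q4_group {G : Type} [CommGroup G] [Finite G] (p : ℕ) (hp : p.Prime) (c : G) :
    ∃ (j : ℕ) (c' d : G), c' = c * d ^ p ∧ c' ^ p ^ j = 1 := by
  obtain ⟨j, N', hN', hcard⟩ :=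
    Nat.exists_eq_pow_mul_and_not_dvd (Nat.card_pos (α := G)).ne' p hp.ne_one
  have hcop : Nat.Coprime N' p := ((Nat.Prime.coprime_iff_not_dvd hp).2 hN').symm
  obtain ⟨u, -, hu⟩ := Nat.exists_mul_mod_eq_one_of_coprime hcop hp.one_lt
  have hdiv : N' * u = p * (N' * u / p) + 1 := by
    have := Nat.div_add_mod (N' * u) p
    rw [hu] at this
    exact this.symm
  refine ⟨j, c ^ (N' * u), c ^ (N' * u / p), ?_, ?_⟩
  · conv_lhs => rw [hdiv]
    rw [pow_succ, mul_comm, ← pow_mul, mul_comm p]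
  · rw [← pow_mul]
    have : N' * u * p ^ j = Nat.card G * u := by rw [hcard]; ring
    rw [this, pow_mul, pow_card_eq_one', one_pow]

theorem Q4_prime_unique {A : ValuationSubring Qb} {q q' : ℕ} (hq : q.Prime) (hq' : q'.Prime)
    (h : A.LiesOverPrime q) (h' : A.LiesOverPrime q') : q = q' := by
  by_contra hne
  have hcop : Nat.Coprime q q' := (Nat.coprime_primes hq hq').2 hne
  obtain ⟨x, y, hxy⟩ := Nat.isCoprime_iff_coprime.2 hcop
  have h1 : A.valuation (q : Qb) < 1 := (ValuationSubring.mem_nonunits_iff A).1 h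
  have h2 : A.valuation (q' : Qb) < 1 := (ValuationSubring.mem_nonunits_iff A).1 h'
  have hx : A.valuation ((x : ℤ) : Qb) ≤ 1 := (A.valuation_le_one_iff _).2 (intCast_mem A x)
  have hy : A.valuation ((y : ℤ) : Qb) ≤ 1 := (A.valuation_le_one_iff _).2 (intCast_mem A y)
  have e : (1 : Qb) = (x : Qb) * (q : Qb) + (y : Qb) * (q' : Qb) := by
    have := congrArg (fun z : ℤ => (z : Qb)) hxy
    push_cast at this
    exact this.symm
  have h3 : A.valuation (1 : Qb) < 1 := by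
    rw [e]
    apply Valuation.map_add_lt
    · rw [map_mul]
      exact lt_of_le_of_lt (mul_le_of_le_one_left' hx) h1
    · rw [map_mul]
      exact lt_of_le_of_lt (mul_le_of_le_one_left' hy) h2
  rw [map_one] at h3
  exact lt_irrefl _ h3

theorem Q4_not_mem_TS {S : Finset Nat.Primes} {k : IF} [NumberField k] {A : ValuationSubring Qb}
    {v : HeightOneSpectrum (𝓞 k)} (hAv : Over A v) {q : Nat.Primes} (hq : q ∉ S)
    (hA : A.LiesOverPrime (q : ℕ)) : v ∉ TS S k := by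
  rintro ⟨q', hq'S, hq'v⟩
  have h1 := (hAv _).1 hq'v
  have h1' : A.LiesOverPrime (q' : ℕ) := by
    unfold ValuationSubring.LiesOverPrime
    simpa using h1
  have := Q4_prime_unique q.2 q'.2 hA h1'
  exact hq (by rwa [Subtype.ext this])

theorem q4 (hA : Stmt_DictA) (hE : Stmt_DictE) (hCl : Stmt_Cls) (hR : Stmt_Ram1)
    (hRo : Stmt_Roots) : Stmt_Q4 := by
  intro p S k _ ζ hB c
  have hp := hB.prime
  obtain ⟨j, c', d, hc', hc'j⟩ := Q4_group p hp c
  obtain ⟨a, ha⟩ := (hCl (𝓞 k) k).1 c'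
  have h1 : clsDiv (p ^ j • a) = 1 := by rw [Q4_clsDiv_nsmul, ha, hc'j]
  obtain ⟨α, hα⟩ := ((hCl (𝓞 k) k).2 (p ^ j • a)).1 h1
  have hα0 : (((α : k) : Qb)) ≠ 0 := by
    simp
  obtain ⟨θ₀, hθ₀⟩ := IsAlgClosed.exists_pow_nat_eq (((α : k) : Qb)) (pow_pos hp.pos j)
  have hθ₀0 : θ₀ ≠ 0 := by
    rintro rfl
    rw [zero_pow (pow_pos hp.pos j).ne'] at hθ₀
    exact hα0 hθ₀.symm
  obtain ⟨θ, hθ⟩ : ∃ θ : Qbˣ, (θ : Qb) = θ₀ := ⟨Units.mk0 θ₀ hθ₀0, rfl⟩
  have hθα : (θ : Qb) ^ p ^ j = ((α : k) : Qb) := by rw [hθ, hθ₀]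
  -- valuations
  have hval : ∀ v : HeightOneSpectrum (𝓞 k), v ∉ TS S k → ∀ (A : ValuationSubring Qb) (q : ℕ),
      q.Prime → A.LiesOverPrime q → Over A v →
      A.valuation (θ : Qb) = A.valuation (q : Qb) ^ (a v) := by
    intro v hv A q hq hAq hAv
    have h2 : A.valuation (((α : k) : Qb)) = A.valuation (q : Qb) ^ (((p ^ j : ℕ) : ℤ) * a v) := by
      rw [hE S k hB.unr v hv A q hq hAq hAv α, hα v]
      simp
    rw [← hθα, map_pow, mul_comm, zpow_mul, zpow_natCast] at h2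
    exact (pow_left_inj₀ zero_le zero_le (pow_pos hp.pos j).ne').1 h2
  -- `θ ^ p ^ i ∈ ℚ_S`
  have hQS : ∀ i : ℕ, i ≤ j → θ ^ p ^ (j - i) ∈ QS S := by
    intro i
    induction i with
    | zero =>
      intro _
      refine ⟨k, hB.unr, ?_⟩
      rw [Nat.sub_zero, Units.val_pow_eq_pow_val, hθα]
      exact (α : k).2
    | succ i ih =>
      intro hi
      have hprev := ih (by omega)
      have hji : j - i = (j - (i + 1)) + 1 := by omega
      refine hR p S hp hB.mem (θ ^ p ^ (j - i)) (θ ^ p ^ (j - (i + 1))) hprev ?_ ?_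
      · rw [← pow_mul, ← pow_succ, ← hji]
      · intro q hq A hAq
        obtain ⟨v, hv⟩ := (hA k).2.1 A q q.2 hAq
        have hvT := Q4_not_mem_TS hv hq hAq
        refine ⟨((p ^ (j - (i + 1)) : ℕ) : ℤ) * a v, ?_⟩
        rw [Units.val_pow_eq_pow_val, map_pow, hval v hvT A q q.2 hAq hv, hji, pow_succ,
          ← zpow_natCast, ← zpow_mul]
        congr 1
        push_cast
        ring
  have hθQS : θ ∈ QS S := by
    have := hQS j le_rfl
    simpa using this
  refine ⟨θ, a, ⟨hθQS, ?_⟩, ?_, ?_⟩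
  · intro g hg
    have hgα : g (((α : k) : Qb)) = ((α : k) : Qb) := hg (α : k)
    obtain ⟨η₀, hη₀⟩ := IsAlgClosed.exists_pow_nat_eq (g (θ : Qb) / (θ : Qb)) hp.pos
    have hgθ0 : g (θ : Qb) ≠ 0 := by
      simp
    have hη₀0 : η₀ ≠ 0 := by
      rintro rfl
      rw [zero_pow hp.pos.ne'] at hη₀
      exact (div_ne_zero hgθ0 θ.ne_zero) hη₀.symm
    refine ⟨Units.mk0 η₀ hη₀0, hRo p S hp hB.mem (j + 1) _ ?_, ?_⟩
    · apply Units.ext
      rw [Units.val_pow_eq_pow_val, Units.val_mk0, Units.val_one, pow_succ', pow_mul, hη₀, div_pow,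
        ← map_pow, hθα, hgα, div_self hα0]
    · rw [Units.val_mk0, hη₀, mul_div_cancel₀ _ θ.ne_zero]
  · intro v hv A q hq hAq hAv
    exact ⟨a v, hval v hv A q hq hAq hAv, by simp⟩
  · rw [ha, hc', mul_div_cancel_left]
    exact Subgroup.mem_sup_right ⟨d, rfl⟩

end Fermat.Agent.CFT.GN

end
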