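/-
TEAM CFT -> S55, layer [GLOB-GN]: (Q3b) `Θ/Θ₀ → Cl/(⟨T⟩ Clᵖ)` is well defined and injective.
-/
import Fermat.Agent.CFT.GN.Q4
import Fermat.Agent.CFT.GN.K3c

set_option autoImplicit false
set_option linter.unusedSectionVars false

noncomputable section

namespace Fermat.Agent.CFT.GN

open IsDedekindDomain NumberField Fermat.Agent.CFT.Top

section Cls

variable {R : Type} [CommRing R] [IsDedekindDomain R]

theorem Q3b_clsDiv_zero : clsDiv (0 : HeightOneSpectrum R →₀ ℤ) = 1 := by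
  simp [clsDiv]

theorem Q3b_clsDiv_neg (a : HeightOneSpectrum R →₀ ℤ) : clsDiv (-a) = (clsDiv a)⁻¹ := by
  rw [eq_inv_iff_mul_eq_one, ← Q4_clsDiv_add, neg_add_cancel, Q3b_clsDiv_zero]

theorem Q3b_clsDiv_sub (a b : HeightOneSpectrum R →₀ ℤ) :
    clsDiv (a - b) = clsDiv a / clsDiv b := by
  rw [sub_eq_add_neg, Q4_clsDiv_add, Q3b_clsDiv_neg, div_eq_mul_inv]

theorem Q3b_clsDiv_single (v : HeightOneSpectrum R) (m : ℤ) :
    clsDiv (Finsupp.single v m) = clsOf v ^ m := by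
  unfold clsDiv
  rw [Finsupp.prod_single_index (zpow_zero _)]

/-- divisors supported in `T` give classes in `⟨T⟩`. -/
theorem Q3b_clsDiv_mem_closure (T : Set (HeightOneSpectrum R)) (e : HeightOneSpectrum R →₀ ℤ)
    (he : ∀ v, v ∉ T → e v = 0) : clsDiv e ∈ Subgroup.closure (clsOf '' T) := by
  unfold clsDiv Finsupp.prod
  refine Subgroup.prod_mem _ fun v hv => ?_
  have hvT : v ∈ T := by
    by_contra h
    exact (Finsupp.mem_support_iff.1 hv) (he v h)
  exact Subgroup.zpow_mem _ (Subgroup.subset_closure (Set.mem_image_of_mem clsOf hvT)) _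

/-- classes in `⟨T⟩` come from divisors supported in `T`. -/
theorem Q3b_exists_of_mem_closure (T : Set (HeightOneSpectrum R)) (c : ClassGroup R)
    (hc : c ∈ Subgroup.closure (clsOf '' T)) :
    ∃ e : HeightOneSpectrum R →₀ ℤ, (∀ v, v ∉ T → e v = 0) ∧ clsDiv e = c := by
  classical
  induction hc using Subgroup.closure_induction with
  | mem x hx =>
    obtain ⟨v, hv, rfl⟩ := hx
    refine ⟨Finsupp.single v 1, fun w hw => ?_, by rw [Q3b_clsDiv_single, zpow_one]⟩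
    rw [Finsupp.single_apply, if_neg]
    rintro rfl
    exact hw hv
  | one => exact ⟨0, fun _ _ => rfl, Q3b_clsDiv_zero⟩
  | mul x y _ _ hx hy =>
    obtain ⟨e, he, rfl⟩ := hx
    obtain ⟨e', he', rfl⟩ := hy
    exact ⟨e + e', fun v hv => by rw [Finsupp.add_apply, he v hv, he' v hv, add_zero],
      Q4_clsDiv_add e e'⟩
  | inv x _ hx =>
    obtain ⟨e, he, rfl⟩ := hx
    exact ⟨-e, fun v hv => by rw [Finsupp.neg_apply, he v hv, neg_zero], Q3b_clsDiv_neg e⟩

/-- the divisor of an element of `Kˣ`. -/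
theorem Q3b_exists_div {K : Type} [Field K] [Algebra R K] [IsFractionRing R K] (x : Kˣ) :
    ∃ d : HeightOneSpectrum R →₀ ℤ, ∀ v : HeightOneSpectrum R,
      v.valuationOfNeZero x = Multiplicative.ofAdd (-(d v)) := by
  classical
  have hfin := FractionalIdeal.finite_factors
    (FractionalIdeal.spanSingleton (nonZeroDivisors R) (x : K))
  rw [Filter.eventually_cofinite] at hfin
  refine ⟨Finsupp.onFinset hfin.toFinset
    (fun v => FractionalIdeal.count K v (FractionalIdeal.spanSingleton (nonZeroDivisors R) (x : K)))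
    (fun v hv => by simpa using hv), fun v => ?_⟩
  rw [Finsupp.onFinset_apply, K3c.count_spanSingleton, neg_neg, ofAdd_toAdd]

/-- a divisor which is divisible by `p` outside `T` is `e + p b` with `e` supported in `T`. -/
theorem Q3b_decompose (T : Set (HeightOneSpectrum R)) (p : ℕ)
    (δ : HeightOneSpectrum R →₀ ℤ) (hδ : ∀ v, v ∉ T → (p : ℤ) ∣ δ v) :
    ∃ e b : HeightOneSpectrum R →₀ ℤ, (∀ v, v ∉ T → e v = 0) ∧ δ = e + p • b := by
  classical
  refine ⟨δ.filter (· ∈ T), (δ.filter (· ∉ T)).mapRange (· / (p : ℤ)) (by simp), ?_, ?_⟩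
  · intro v hv
    rw [Finsupp.filter_apply, if_neg hv]
  · ext v
    rw [Finsupp.add_apply, Finsupp.smul_apply, Finsupp.mapRange_apply, Finsupp.filter_apply,
      Finsupp.filter_apply]
    by_cases hv : v ∈ T
    · simp [hv]
    · rw [if_neg hv, if_pos hv, zero_add, nsmul_eq_mul, Int.mul_ediv_cancel' (hδ v hv)]

end Cls

theorem Q3b_liesOver {k : IF} [NumberField k] {A : ValuationSubring Qb}
    {v : HeightOneSpectrum (𝓞 k)} (hAv : Over A v) {q : ℕ} (hq : (q : 𝓞 k) ∈ v.asIdeal) :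
    A.LiesOverPrime q := by
  have h1 := (hAv _).1 hq
  unfold ValuationSubring.LiesOverPrime
  simpa using h1

theorem Q3b_val_ne_zero (A : ValuationSubring Qb) {q : ℕ} (hq : q.Prime) :
    A.valuation (q : Qb) ≠ 0 := by
  rw [Ne, map_eq_zero]
  exact Nat.cast_ne_zero.2 hq.ne_zero

/-- (Q3b) -/
theorem q3b (hA : Stmt_DictA) (hC : Stmt_DictC) (hE : Stmt_DictE) (hCl : Stmt_Cls)
    (hR : Stmt_Ram1) : Stmt_Q3b := by
  intro p S k _ ζ hB θ θ' a a' hθ hθ' hD hD'
  have hp := hB.prime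
  constructor
  · intro hmem
    obtain ⟨y, hy, z, ⟨w, rfl⟩, hyz⟩ := Subgroup.mem_sup.1 hmem
    obtain ⟨e, he, rfl⟩ := Q3b_exists_of_mem_closure _ y hy
    obtain ⟨b, rfl⟩ := (hCl (𝓞 k) k).1 w
    have h1 : clsDiv (a - a' - e - p • b) = 1 := by
      rw [Q3b_clsDiv_sub, Q3b_clsDiv_sub, Q3b_clsDiv_sub, Q4_clsDiv_nsmul, ← hyz,
        powMonoidHom_apply, mul_div_cancel_left, div_self']
    obtain ⟨xk, hxk⟩ := ((hCl (𝓞 k) k).2 _).1 h1
    have hx0 : (((xk : k) : Qb)) ≠ 0 := by simp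
    set x : Qbˣ := Units.mk0 (((xk : k) : Qb)) hx0 with hx
    have hxQS : x ∈ QS S := ⟨k, hB.unr, (xk : k).2⟩
    set ϑ : Qbˣ := θ / θ' / x with hϑ
    have hϑQS : ϑ ∈ QS S := (QS S).div_mem ((QS S).div_mem hθ.1 hθ'.1) hxQS
    obtain ⟨t₀, ht₀⟩ := IsAlgClosed.exists_pow_nat_eq (ϑ : Qb) hp.pos
    have ht₀0 : t₀ ≠ 0 := by
      rintro rfl
      rw [zero_pow hp.pos.ne'] at ht₀
      exact ϑ.ne_zero ht₀.symm
    set t : Qbˣ := Units.mk0 t₀ ht₀0 with ht
    have htp : t ^ p = ϑ := by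
      apply Units.ext
      rw [Units.val_pow_eq_pow_val, ht, Units.val_mk0, ht₀]
    have htQS : t ∈ QS S := by
      refine hR p S hp hB.mem ϑ t hϑQS htp ?_
      intro q hq A hAq
      obtain ⟨v, hv⟩ := (hA k).2.1 A q q.2 hAq
      have hvT := Q4_not_mem_TS hv hq hAq
      obtain ⟨m, hm, hma⟩ := hD v hvT A q q.2 hAq hv
      obtain ⟨m', hm', hma'⟩ := hD' v hvT A q q.2 hAq hv
      have hxv := (hE S k hB.unr v hvT A q q.2 hAq hv xk _).2 (hxk v)
      have hπ := Q3b_val_ne_zero A q.2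
      obtain ⟨c, hc⟩ := hma
      obtain ⟨c', hc'⟩ := hma'
      refine ⟨c - c' + b v, ?_⟩
      rw [hϑ, Units.val_div_eq_div_val, Units.val_div_eq_div_val, map_div₀, map_div₀, hm, hm', hx,
        Units.val_mk0, hxv, ← zpow_sub₀ hπ, ← zpow_sub₀ hπ]
      congr 1
      simp only [Finsupp.sub_apply, Finsupp.smul_apply, he v hvT, nsmul_eq_mul]
      linarith
    refine ⟨x, (xk : k).2, t, htQS, ?_⟩
    rw [htp, hϑ, mul_div_cancel]
  · rintro ⟨x, hxk, η, hη, hxη⟩
    set xk : kˣ := Units.mk0 (⟨(x : Qb), hxk⟩ : k) (by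
      intro h
      exact x.ne_zero (congrArg Subtype.val h)) with hxk'
    obtain ⟨d, hd⟩ := Q3b_exists_div (R := 𝓞 k) xk
    have hd1 : clsDiv d = 1 := ((hCl (𝓞 k) k).2 d).2 ⟨xk, hd⟩
    have hδ : ∀ v, v ∉ TS S k → (p : ℤ) ∣ (a - a' - d) v := by
      intro v hvT
      obtain ⟨A, hAv⟩ := (hA k).1 v
      obtain ⟨q, hq, hqv⟩ := (hA k).2.2.1 v
      have hAq := Q3b_liesOver hAv hqv
      have hqS : (⟨q, hq⟩ : Nat.Primes) ∉ S := fun h => hvT ⟨⟨q, hq⟩, h, hqv⟩
      obtain ⟨m, hm, hma⟩ := hD v hvT A q hq hAq hAv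
      obtain ⟨m', hm', hma'⟩ := hD' v hvT A q hq hAq hAv
      obtain ⟨n, hn⟩ := hC S ⟨q, hq⟩ hqS A hAq η hη
      have hπ := Q3b_val_ne_zero A hq
      have hxval : A.valuation (((xk : k) : Qb)) = A.valuation (q : Qb) ^ (m - m' - p * n) := by
        have e1 : (((xk : k) : Qb)) = (θ : Qb) / (θ' : Qb) / (η : Qb) ^ p := by
          have := congrArg (fun u : Qbˣ => (u : Qb)) hxη
          simp only [Units.val_div_eq_div_val, Units.val_mul, Units.val_pow_eq_pow_val] at this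
          rw [this, mul_div_cancel_right₀ _ (pow_ne_zero _ η.ne_zero)]
          rfl
        rw [e1, map_div₀, map_div₀, map_pow, hm, hm', hn, zpow_sub₀ hπ, zpow_sub₀ hπ, mul_comm,
          zpow_mul, zpow_natCast]
      have h2 := (hE S k hB.unr v hvT A q hq hAq hAv xk _).1 hxval
      rw [hd v] at h2
      have h3 : d v = m - m' - p * n := by
        have := Multiplicative.ofAdd.injective h2
        linarith
      obtain ⟨c, hc⟩ := hma
      obtain ⟨c', hc'⟩ := hma'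
      refine ⟨c' - c + n, ?_⟩
      simp only [Finsupp.sub_apply, h3]
      linarith
    obtain ⟨e, b, he, heb⟩ := Q3b_decompose (TS S k) p (a - a' - d) hδ
    have h4 : clsDiv a / clsDiv a' = clsDiv e * clsDiv b ^ p := by
      rw [← Q4_clsDiv_nsmul, ← Q4_clsDiv_add, ← heb, Q3b_clsDiv_sub, Q3b_clsDiv_sub, hd1, div_one]
    rw [h4]
    exact Subgroup.mul_mem_sup (Q3b_clsDiv_mem_closure _ e he) ⟨clsDiv b, rfl⟩

end Fermat.Agent.CFT.GN

end
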