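/-
TEAM CFT -> S55, layer [GLOB-GN], package RAW1 : `H¹(U, 𝔽_p)` (level constant cohomology) is the
group of `S`-level homomorphisms `U → 𝔽_p`.
-/
import Fermat.Agent.CFT.GN.Interface
import Fermat.Agent.CFT.Top.SCb
import Fermat.Agent.CFT.Top.BridgeLevels

set_option autoImplicit false

noncomputable section

namespace Fermat.Agent.CFT.GN

open Fermat.Agent.CFT.Top

namespace Raw1

variable (p : ℕ) (S : Finset Nat.Primes) (k : IF)

theorem mem_C1_iff (f : k.fixingSubgroup → ZMod p) :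
    f ∈ C1 (levK S k) (trivK p k) ↔ SLev1 S k f := by
  rw [mem_C1]
  constructor
  · rintro ⟨_, ⟨W, ⟨_, F, hF, hFW⟩, rfl⟩, h, -⟩
    exact ⟨F, hF, fun g s hs => h g s (hFW hs)⟩
  · rintro ⟨F, hF, h⟩
    refine ⟨_, ⟨F.fixingSubgroup.normalCore, BrLev.normalCore_mem_levS hF, rfl⟩,
      fun g u hu => h g u (Subgroup.normalCore_le _ hu), fun _ _ _ => rfl⟩

theorem mem_Z1_iff (f : k.fixingSubgroup → ZMod p) :
    f ∈ Z1 (levK S k) (trivK p k) ↔ (∀ g h, f (g * h) = f h + f g) ∧ SLev1 S k f := by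
  rw [mem_Z1, mem_C1_iff]
  rfl

/-- the cocycle attached to a character -/
def toZ1 (χ : {χ : k.fixingSubgroup →* Multiplicative (ZMod p) // SLev1 S k χ}) :
    Z1 (levK S k) (trivK p k) :=
  ⟨fun g => Multiplicative.toAdd (χ.1 g), (mem_Z1_iff p S k _).2 ⟨fun g h => by
      rw [map_mul, toAdd_mul, add_comm], by
      obtain ⟨F, hF, h⟩ := χ.2
      exact ⟨F, hF, fun g s hs => congrArg Multiplicative.toAdd (h g s hs)⟩⟩⟩

theorem bijective :
    Function.Bijective (fun χ => cls1 (levK S k) (trivK p k) (toZ1 p S k χ)) := by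
  constructor
  · intro χ χ' h
    have h1 : cls1 (levK S k) (trivK p k) (toZ1 p S k χ - toZ1 p S k χ') = 0 := by
      rw [map_sub]
      exact sub_eq_zero.2 h
    obtain ⟨m, -, hm⟩ := (cls1_eq_zero_iff _ _ _).1 h1
    apply Subtype.ext
    ext g
    have h2 : Multiplicative.toAdd (χ.1 g) - Multiplicative.toAdd (χ'.1 g) = m - m := hm g
    rw [sub_self, sub_eq_zero] at h2
    exact Multiplicative.toAdd.injective h2
  · intro x
    obtain ⟨⟨f, hf⟩, rfl⟩ := cls1_surjective (levK S k) (trivK p k) x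
    obtain ⟨h1, F, hF, h2⟩ := (mem_Z1_iff p S k f).1 hf
    refine ⟨⟨{ toFun := fun g => Multiplicative.ofAdd (f g)
               map_one' := ?_
               map_mul' := ?_ }, F, hF, fun g s hs => ?_⟩, rfl⟩
    · have := h1 1 1
      rw [mul_one] at this
      have h0 : f 1 = 0 := by
        have h3 : f 1 + 0 = f 1 + f 1 := by rw [add_zero]; exact this
        exact (add_left_cancel h3).symm
      rw [h0]
      rfl
    · intro g h
      rw [h1, add_comm]
      rfl
    · exact congrArg Multiplicative.ofAdd (h2 g s hs)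

end Raw1

/-- (RAW1) -/
theorem raw1 (_hN : Stmt_NC) : Stmt_Raw1 := by
  intro p S k _
  exact (Nat.card_congr (Equiv.ofBijective _ (Raw1.bijective p S k))).symm

end Fermat.Agent.CFT.GN

end
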