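/-
TEAM CFT -> S55, layer [GLOB-GN], task GN-RAW2 (helper53): `H²(U,𝔽_p)` and `Sha²(U,𝔽_p)` (`Hlc`)
in terms of raw cochains `U × U → 𝔽_p`.
-/
import Fermat.Agent.CFT.GN.Interface
import Fermat.Agent.CFT.Top.SCb
import Fermat.Agent.CFT.Top.BridgeLevels
import Fermat.Agent.CFT.ShaBridge

set_option autoImplicit false

namespace Fermat.Agent.CFT.GN

open IsDedekindDomain NumberField Fermat.Agent.CFT.Top groupCohomology

namespace Raw2

variable (p : ℕ) (S : Finset Nat.Primes) (k : IF)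

theorem isTrivOn_trivK : IsTrivOn (levK S k) (trivK p k) := by
  obtain ⟨U, hU⟩ := (levK S k).ne
  exact ⟨U, hU, fun _ _ _ => rfl⟩

theorem mem_C1_iff (f : k.fixingSubgroup → ZMod p) :
    f ∈ C1 (levK S k) (trivK p k) ↔ SLev1 S k f := by
  rw [mem_C1_of_isTrivOn (isTrivOn_trivK p S k)]
  constructor
  · rintro ⟨_, ⟨W, ⟨_, F, hF, hFW⟩, rfl⟩, h⟩
    exact ⟨F, hF, fun g s hs => h g s (hFW hs)⟩
  · rintro ⟨F, hF, h⟩
    exact ⟨_, ⟨_, BrLev.normalCore_mem_levS hF, rfl⟩, fun g u hu =>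
      h g u (Subgroup.normalCore_le _ hu)⟩

theorem mem_C2_iff (f : k.fixingSubgroup × k.fixingSubgroup → ZMod p) :
    f ∈ C2 (levK S k) (trivK p k) ↔ SLev2 S k f := by
  rw [mem_C2_of_isTrivOn (isTrivOn_trivK p S k)]
  constructor
  · rintro ⟨_, ⟨W, ⟨_, F, hF, hFW⟩, rfl⟩, h⟩
    exact ⟨F, hF, fun g g' s s' hs hs' => h g g' s (hFW hs) s' (hFW hs')⟩
  · rintro ⟨F, hF, h⟩
    exact ⟨_, ⟨_, BrLev.normalCore_mem_levS hF, rfl⟩, fun g g' u hu u' hu' =>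
      h g g' u u' (Subgroup.normalCore_le _ hu) (Subgroup.normalCore_le _ hu')⟩

theorem mem_Z2_iff (f : k.fixingSubgroup × k.fixingSubgroup → ZMod p) :
    f ∈ Z2 (levK S k) (trivK p k) ↔ IsZ2 p S k f := by
  rw [Z2, Submodule.mem_inf, mem_C2_iff, mem_cocycles₂_def, IsZ2, and_comm]
  rfl

theorem rep2_iff (x : HK p S k 2) (f : k.fixingSubgroup × k.fixingSubgroup → ZMod p) :
    Rep2 p S k x f ↔ ∃ hf : f ∈ Z2 (levK S k) (trivK p k), cls2 (levK S k) (trivK p k) ⟨f, hf⟩ = x := by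
  constructor
  · rintro ⟨⟨⟨z, hz⟩, hzZ⟩, rfl, h⟩
    have hzf : z = t2 (trivK p k) f := funext h
    subst hzf
    have hC : f ∈ C2 (levK S k) (trivK p k) := hz
    have hc : f ∈ cocycles₂ (trivK p k) := (c2_mem_Z (levK S k) (trivK p k) ⟨f, hC⟩).1 hzZ
    exact ⟨⟨hc, hC⟩, rfl⟩
  · rintro ⟨hf, rfl⟩
    exact ⟨_, rfl, fun _ => rfl⟩

theorem isB2_iff (f : k.fixingSubgroup × k.fixingSubgroup → ZMod p)
    (hf : f ∈ Z2 (levK S k) (trivK p k)) :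
    cls2 (levK S k) (trivK p k) ⟨f, hf⟩ = 0 ↔ IsB2 p S k f := by
  rw [cls2_eq_zero_iff]
  constructor
  · rintro ⟨c, hc, h⟩
    exact ⟨c, (mem_C1_iff p S k c).1 hc, h⟩
  · rintro ⟨c, hc, h⟩
    exact ⟨c, (mem_C1_iff p S k c).2 hc, h⟩

/-- the inclusion `D_A ∩ U → G_ℚ`. -/
noncomputable abbrev incl (A : ValuationSubring Qb) :
    ((A.decompositionSubgroup ℚ).subgroupOf k.fixingSubgroup) →* GQ :=
  k.fixingSubgroup.subtype.comp ((A.decompositionSubgroup ℚ).subgroupOf k.fixingSubgroup).subtype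

theorem isTrivOn_res (A : ValuationSubring Qb) :
    IsTrivOn (levD k A)
      (Rep.res ((A.decompositionSubgroup ℚ).subgroupOf k.fixingSubgroup).subtype (trivK p k)) := by
  obtain ⟨U, hU⟩ := (levD k A).ne
  exact ⟨U, hU, fun _ _ _ => rfl⟩

theorem mem_C1_levD_iff (A : ValuationSubring Qb)
    (c : ((A.decompositionSubgroup ℚ).subgroupOf k.fixingSubgroup) → ZMod p) :
    c ∈ C1 (levD k A)
      (Rep.res ((A.decompositionSubgroup ℚ).subgroupOf k.fixingSubgroup).subtype (trivK p k)) ↔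
      IsLevelConstant₁ (incl k A) c := by
  rw [mem_C1_of_isTrivOn (isTrivOn_res p k A)]
  constructor
  · rintro ⟨_, ⟨W, ⟨_, F, hF, hFW⟩, rfl⟩, h⟩
    exact ⟨F, hF, fun g s hs => h g s (hFW hs)⟩
  · rintro ⟨F, hF, h⟩
    exact ⟨_, ⟨_, BrLev.normalCore_mem_levAll hF, rfl⟩, fun g u hu =>
      h g u (Subgroup.normalCore_le _ hu)⟩

theorem res_eq_zero_iff (A : ValuationSubring Qb)
    (f : k.fixingSubgroup × k.fixingSubgroup → ZMod p)
    (hf : f ∈ Z2 (levK S k) (trivK p k)) :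
    (lcRes _ (isCont_levD S k A) (trivK p k)).mapH 2 (cls2 (levK S k) (trivK p k) ⟨f, hf⟩) = 0 ↔
      ∃ x : GQ → ZMod p,
        (∃ F : IF, FiniteDimensional ℚ F ∧ ∀ g s : GQ, s ∈ F.fixingSubgroup → x (g * s) = x g) ∧
        ∀ σ τ : k.fixingSubgroup, (σ : GQ) ∈ A.decompositionSubgroup ℚ →
          (τ : GQ) ∈ A.decompositionSubgroup ℚ →
          f (σ, τ) = x τ - x (σ * τ) + x σ := by
  have h1 := mapH_cls2 ((A.decompositionSubgroup ℚ).subgroupOf k.fixingSubgroup).subtype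
    (isCont_levD S k A) (M := trivK p k)
    (M' := Rep.res ((A.decompositionSubgroup ℚ).subgroupOf k.fixingSubgroup).subtype (trivK p k))
    LinearMap.id (fun _ _ => rfl) ⟨f, hf⟩
  have h2 : (lcRes _ (isCont_levD S k A) (trivK p k)).mapH 2 (cls2 (levK S k) (trivK p k) ⟨f, hf⟩) = _ := h1
  rw [h2, cls2_eq_zero_iff]
  constructor
  · rintro ⟨c, hc, h⟩
    obtain ⟨x, hx, hxc⟩ := la_exists_extension (incl k A) c ((mem_C1_levD_iff p k A c).1 hc)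
    refine ⟨x, hx, fun σ τ hσ hτ => ?_⟩
    have := h ⟨σ, hσ⟩ ⟨τ, hτ⟩
    have e1 : x (τ : GQ) = c ⟨τ, hτ⟩ := hxc ⟨τ, hτ⟩
    have e2 : x (σ : GQ) = c ⟨σ, hσ⟩ := hxc ⟨σ, hσ⟩
    have e3 : x ((σ : GQ) * (τ : GQ)) = c (⟨σ, hσ⟩ * ⟨τ, hτ⟩) := hxc (⟨σ, hσ⟩ * ⟨τ, hτ⟩)
    rw [e1, e2, e3]
    exact this
  · rintro ⟨x, hx, h⟩
    refine ⟨x ∘ incl k A, (mem_C1_levD_iff p k A _).2
      (IsLevelConstant₁.precomp (rH := MonoidHom.id _) (incl k A) (fun _ => rfl) hx), ?_⟩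
    intro g g'
    exact h g.1 g'.1 g.2 g'.2

end Raw2

open Raw2 in
theorem raw2 (_hN : Stmt_NC) : Stmt_Raw2 := by
  intro p S k _
  refine ⟨fun x => ?_, fun f hf => ?_, fun x x' f f' hx hx' => ?_, fun x f hx => ?_⟩
  · obtain ⟨⟨f, hf⟩, rfl⟩ := cls2_surjective _ _ x
    exact ⟨f, (mem_Z2_iff p S k f).1 hf, (rep2_iff p S k _ f).2 ⟨hf, rfl⟩⟩
  · have hf' := (mem_Z2_iff p S k f).2 hf
    exact ⟨_, (rep2_iff p S k _ f).2 ⟨hf', rfl⟩⟩
  · obtain ⟨hf, rfl⟩ := (rep2_iff p S k x f).1 hx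
    obtain ⟨hf', rfl⟩ := (rep2_iff p S k x' f').1 hx'
    rw [← sub_eq_zero, ← map_sub]
    exact isB2_iff p S k (f - f') (Submodule.sub_mem _ hf hf')
  · obtain ⟨hf, rfl⟩ := (rep2_iff p S k x f).1 hx
    simp only [Sha2K, Submodule.mem_iInf, LinearMap.mem_ker]
    constructor
    · intro h q hq A hA
      exact (res_eq_zero_iff p S k A f hf).1 (h q hq A hA)
    · intro h q hq A hA
      exact (res_eq_zero_iff p S k A f hf).2 (h q hq A hA)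

end Fermat.Agent.CFT.GN
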