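/-
TEAM CFT -> S55, layer [GLOB-GN] (sub-lead helper56).  Final assembly: all packages are landed;
the only remaining input is the Hasse principle `Stmt_HPall` (block HPG).
-/
import Fermat.Agent.CFT.GN.Assembly
import Fermat.Agent.CFT.GN.K3a
import Fermat.Agent.CFT.GN.K3b
import Fermat.Agent.CFT.GN.K3c
import Fermat.Agent.CFT.GN.K3f
import Fermat.Agent.CFT.GN.DictAB
import Fermat.Agent.CFT.GN.DictC
import Fermat.Agent.CFT.GN.DictD
import Fermat.Agent.CFT.GN.DictE
import Fermat.Agent.CFT.GN.Cls
import Fermat.Agent.CFT.GN.Ram1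
import Fermat.Agent.CFT.GN.H90
import Fermat.Agent.CFT.GN.H90gen
import Fermat.Agent.CFT.GN.Deinf
import Fermat.Agent.CFT.GN.LTO
import Fermat.Agent.CFT.GN.Q1a
import Fermat.Agent.CFT.GN.Q1bc
import Fermat.Agent.CFT.GN.Q3a
import Fermat.Agent.CFT.GN.Q3b
import Fermat.Agent.CFT.GN.Q4
import Fermat.Agent.CFT.GN.KumAlg
import Fermat.Agent.CFT.GN.KumRam
import Fermat.Agent.CFT.GN.Raw1
import Fermat.Agent.CFT.GN.Raw2

set_option autoImplicit false

namespace Fermat.Agent.CFT.GN

theorem final_dictC : Stmt_DictC := dictC dictB dictA nc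

theorem final_dictE : Stmt_DictE := dictE dictA dictB final_dictC

theorem final_roots : Stmt_Roots := roots ram1

theorem final_h90 : Stmt_H90 := h90 nc

theorem final_deinf : Stmt_Deinf := deinf h90gen nc

/-- local triviality outside `S`, unconditional -/
theorem final_lto : Stmt_LTO := lto nc final_roots

theorem final_kum : Stmt_Kum := kum kumAlg (kumRam dictA final_dictC final_dictE ram1)

/-- **(GN) in counting form**, from the Hasse principle. -/
theorem final_gnCard (h : Stmt_HPall) : Stmt_GNcard :=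
  gnCard (k3 k3a k3b k3c) k3f final_kum (raw1 nc) (raw2 nc) dictA (q1a nc) (q1b final_h90) q1c
    (q2 (hpraw h final_deinf) final_h90) (q3a dictA dictB final_dictC dictD)
    (q3b dictA final_dictC final_dictE cls ram1) (q4 dictA final_dictE cls ram1 final_roots)

/-- **(GN+), (GN-)**, from the Hasse principle. -/
theorem final_gn (h : Stmt_HPall) : Stmt_GN := gn (final_gnCard h)

end Fermat.Agent.CFT.GN
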