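/-
TEAM CFT, layer [GLOB-GN], task GN-RAM1 (helper96): `p`-th roots of elements of `ℚ_Sˣ` whose
divisor outside `S` is divisible by `p` stay in `ℚ_S`; roots of unity of `p`-power order.
-/
import Fermat.Agent.CFT.GN.Interface
import Fermat.Agent.ES.RepGalois

set_option autoImplicit false

namespace Fermat.Agent.CFT.GN

open Fermat.Agent.ES.RepGalois

attribute [local instance] isAlgebraicQb

theorem ram1 : Stmt_Ram1 := by
  intro p S hp ⟨q₀, hq₀S, hq₀⟩ θ t ⟨F, ⟨hFfd, hFunr⟩, hθF⟩ htθ hdiv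
  refine ⟨F ⊔ IntermediateField.adjoin ℚ {(t : Qb)}, ⟨?_, ?_⟩, ?_⟩
  · have : FiniteDimensional ℚ (IntermediateField.adjoin ℚ {(t : Qb)}) :=
      IntermediateField.adjoin.finiteDimensional (Algebra.IsIntegral.isIntegral (t : Qb))
    exact IntermediateField.finiteDimensional_sup F _
  · intro q hqS A hA σ hσ
    have hσF : σ ∈ F.fixingSubgroup := hFunr q hqS A hA hσ
    have hqp : (q : ℕ) ≠ p := by
      intro h
      apply hqS
      have : q = q₀ := Subtype.ext (h.trans hq₀.symm)
      rw [this]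
      exact hq₀S
    obtain ⟨m, hm⟩ := hdiv q hqS A hA
    have hq0 : ((q : ℕ) : Qb) ≠ 0 := by exact_mod_cast q.2.ne_zero
    -- `t' = t q^{-m}` is a unit of `A`
    set t' : Qb := (t : Qb) * ((q : ℕ) : Qb) ^ (-m) with ht'
    have ht'0 : t' ≠ 0 := mul_ne_zero t.ne_zero (zpow_ne_zero _ hq0)
    have hval : A.valuation t' = 1 := by
      have h1 : A.valuation t' ^ p = 1 := by
        rw [← map_pow, ht', mul_pow, ← Units.val_pow_eq_pow_val, htθ, map_mul, hm, ← zpow_natCast,
          ← zpow_mul, map_zpow₀, ← zpow_add₀ ((map_ne_zero _).mpr hq0)]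
        have : (p : ℤ) * m + -m * (p : ℤ) = 0 := by ring
        rw [this, zpow_zero]
      exact (pow_eq_one_iff.mp h1).resolve_right hp.ne_zero
    have ht'A : t' ∈ A := (ValuationSubring.valuation_le_one_iff A _).mp hval.le
    -- `σ t' = ω t'`
    have hσq : σ (((q : ℕ) : Qb) ^ (-m)) = ((q : ℕ) : Qb) ^ (-m) := by
      rw [map_zpow₀, map_natCast]
    have hσθ : σ (θ : Qb) = θ := (IntermediateField.mem_fixingSubgroup_iff F σ).mp hσF _ hθF
    set ω : Qb := σ t' / t' with hω
    have hωp : ω ^ p = 1 := by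
      have h2 : t' ^ p = (θ : Qb) * (((q : ℕ) : Qb) ^ (-m)) ^ p := by
        rw [ht', mul_pow, ← Units.val_pow_eq_pow_val, htθ]
      have h3 : σ t' ^ p = t' ^ p := by
        rw [← map_pow, h2, map_mul, map_pow, hσθ, hσq]
      rw [hω, div_pow, h3, div_self (pow_ne_zero _ ht'0)]
    have hsub : ω - 1 ∈ A.nonunits := by
      have h4 : σ t' - t' ∈ A.nonunits := inertia_unpack hσ t' ht'A
      rw [ValuationSubring.mem_nonunits_iff] at h4 ⊢
      have h5 : ω - 1 = (σ t' - t') / t' := by rw [hω]; field_simp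
      rw [h5, map_div₀, hval, div_one]
      exact h4
    have hω1 : ω = 1 := eq_of_sub_mem_nonunits A q.2 hA
      (fun h => hqp ((Nat.prime_dvd_prime_iff_eq q.2 hp).mp h)) hωp (one_pow p) hsub
    have hσt' : σ t' = t' := by
      rw [hω, div_eq_one_iff_eq ht'0] at hω1
      exact hω1
    have hσt : σ (t : Qb) = t := by
      rw [ht', map_mul, hσq] at hσt'
      exact mul_right_cancel₀ (zpow_ne_zero _ hq0) hσt'
    -- conclude
    rw [IntermediateField.fixingSubgroup_sup, Subgroup.mem_inf]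
    refine ⟨hσF, ?_⟩
    rw [IntermediateField.mem_fixingSubgroup_iff]
    intro x hx
    have hle : IntermediateField.adjoin ℚ {(t : Qb)} ≤
        IntermediateField.fixedField (Subgroup.zpowers σ) := by
      rw [IntermediateField.adjoin_le_iff]
      rintro y hy
      rw [Set.mem_singleton_iff] at hy
      subst hy
      rw [SetLike.mem_coe, IntermediateField.mem_fixedField_iff]
      intro τ hτ
      obtain ⟨n, rfl⟩ := Subgroup.mem_zpowers_iff.mp hτ
      have hstab : σ ∈ MulAction.stabilizer (Qb ≃ₐ[ℚ] Qb) (t : Qb) := hσt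
      exact (MulAction.stabilizer (Qb ≃ₐ[ℚ] Qb) (t : Qb)).zpow_mem hstab n
    exact (IntermediateField.mem_fixedField_iff _ x).mp (hle hx) σ (Subgroup.mem_zpowers σ)
  · exact (le_sup_right : IntermediateField.adjoin ℚ {(t : Qb)} ≤ _)
      (IntermediateField.mem_adjoin_simple_self ℚ (t : Qb))

theorem roots (h : Stmt_Ram1) : Stmt_Roots := by
  intro p S hp hpS j
  induction j with
  | zero =>
    intro ω hω
    rw [pow_zero, pow_one] at hω
    rw [hω]
    exact (QS S).one_mem
  | succ j ih =>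
    intro ω hω
    have h1 : (ω ^ p) ^ p ^ j = 1 := by rw [← pow_mul, ← pow_succ']; exact hω
    refine h p S hp hpS (ω ^ p) ω (ih _ h1) rfl ?_
    intro q _ A _
    refine ⟨0, ?_⟩
    rw [mul_zero, zpow_zero]
    have h2 : A.valuation ((ω ^ p : Qbˣ) : Qb) ^ p ^ j = 1 := by
      rw [← map_pow, ← Units.val_pow_eq_pow_val, h1, Units.val_one, map_one]
    exact (pow_eq_one_iff.mp h2).resolve_right (pow_ne_zero _ hp.ne_zero)

end Fermat.Agent.CFT.GN
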